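import Mathlib

/-!
# Project I / N1 : augmented Gorenstein algebras (the output of the numerical criterion)

`GorAug π ϖ e₀` records, for a local `𝒪`-algebra `T` with an augmentation `π : T → 𝒪`, that
`e₀` generates the annihilator of the augmentation ideal as an `𝒪`-module, that `π e₀ ≠ 0`, that the
image of `e₀` generates the socle of `T ⧸ ϖ T`, and that `T ⧸ ϖ T` is Artinian.  Complete
intersections have this property (`IsAmbient.gorAug` in `Main.lean`).
-/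

namespace Fermat.Agent.S59lib.NumCrit

open Ideal IsLocalRing

universe v w

section CongIdeal

variable {𝒪 : Type v} [CommRing 𝒪] {A : Type w} [CommRing A] [Algebra 𝒪 A]

/-- The congruence ideal `η = π (Ann (ker π))` of an augmented `𝒪`-algebra. -/
def congIdeal (πA : A →ₐ[𝒪] 𝒪) : Ideal 𝒪 :=
  Ideal.map (πA : A →+* 𝒪) (RingHom.ker (πA : A →+* 𝒪)).annihilator

theorem mem_congIdeal {πA : A →ₐ[𝒪] 𝒪} {c : 𝒪} :
    c ∈ congIdeal πA ↔ ∃ t : A, (∀ x : A, πA x = 0 → t * x = 0) ∧ πA t = c := by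
  unfold congIdeal
  have hsurj : Function.Surjective (πA : A →+* 𝒪) := fun c =>
    ⟨algebraMap 𝒪 A c, by rw [RingHom.coe_coe, AlgHom.commutes]; rfl⟩
  rw [Ideal.mem_map_iff_of_surjective _ hsurj]
  constructor
  · rintro ⟨t, ht, rfl⟩
    refine ⟨t, fun x hx => ?_, rfl⟩
    have := Submodule.mem_annihilator.mp ht x hx
    rwa [smul_eq_mul] at this
  · rintro ⟨t, ht, rfl⟩
    refine ⟨t, Submodule.mem_annihilator.mpr (fun x hx => ?_), rfl⟩
    rw [smul_eq_mul]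
    exact ht x hx

end CongIdeal

variable {𝒪 : Type v} [CommRing 𝒪] {T : Type w} [CommRing T] [IsLocalRing T] [Algebra 𝒪 T]

/-- `T` is Gorenstein at the augmentation `π`, with socle generator `e₀`. -/
structure GorAug (π : T →ₐ[𝒪] 𝒪) (ϖ : 𝒪) (e₀ : T) : Prop where
  irr : Irreducible ϖ
  mul_eq_zero : ∀ x : T, π x = 0 → x * e₀ = 0
  aug_ne : π e₀ ≠ 0
  ann : ∀ t : T, (∀ x : T, π x = 0 → t * x = 0) → ∃ c : 𝒪, t = c • e₀
  soc : ∀ t : T, (∀ m ∈ maximalIdeal T, ∃ z : T, m * t = ϖ • z) →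
    ∃ (c : 𝒪) (z : T), t = c • e₀ + ϖ • z
  notMem : ∀ z : T, e₀ ≠ ϖ • z
  nilp : ∃ N : ℕ, ∀ m ∈ maximalIdeal T ^ N, ∃ z : T, m = ϖ • z

end Fermat.Agent.S59lib.NumCrit
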