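import Mathlib

/-!
# Project I / N1 : lengths of quotients of `𝒪ⁿ` over a discrete valuation ring

* `eq_of_length_quotient_eq` : submodules `L ≤ L'` with quotients of the same finite length agree.
* `exists_matrix_of_length_ne_top` : a submodule `L ⊆ 𝒪ⁿ` of finite colength is the row space of a
  square matrix `A₀` with `length (𝒪ⁿ ⧸ L) = length (𝒪 ⧸ (det A₀))`.
-/

set_option linter.unusedSectionVars false

namespace Fermat.Agent.S59lib.NumCrit

open Ideal Module

universe u v

section General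

variable {R : Type u} [CommRing R] {M : Type v} [AddCommGroup M] [Module R M]

/-- Submodules `L ≤ L'` whose quotients have the same finite length are equal. -/
theorem eq_of_length_quotient_eq {L L' : Submodule R M} (hLL' : L ≤ L')
    (hlen : Module.length R (M ⧸ L) = Module.length R (M ⧸ L'))
    (hfin : Module.length R (M ⧸ L) ≠ ⊤) : L = L' := by
  set g : (M ⧸ L) →ₗ[R] (M ⧸ L') := Submodule.mapQ L L' LinearMap.id (by simpa using hLL') with hg
  have hgs : Function.Surjective g := by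
    intro x
    obtain ⟨m, rfl⟩ := Submodule.Quotient.mk_surjective L' x
    exact ⟨Submodule.Quotient.mk m, rfl⟩
  have hadd := Module.length_eq_add_of_exact (LinearMap.ker g).subtype g
    (Submodule.subtype_injective _) hgs (LinearMap.exact_subtype_ker_map g)
  have hker : Module.length R (LinearMap.ker g) = 0 := by
    rw [hlen] at hadd hfin
    have h1 : Module.length R (LinearMap.ker g) + Module.length R (M ⧸ L') =
        0 + Module.length R (M ⧸ L') := by rw [zero_add]; exact hadd.symm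
    exact ENat.add_left_injective_of_ne_top hfin h1
  rw [Module.length_eq_zero_iff] at hker
  refine le_antisymm hLL' (fun x hx => ?_)
  have hx' : (Submodule.Quotient.mk x : M ⧸ L) ∈ LinearMap.ker g := by
    rw [LinearMap.mem_ker, hg, Submodule.mapQ_apply, LinearMap.id_apply,
      Submodule.Quotient.mk_eq_zero]
    exact hx
  have := hker.elim ⟨_, hx'⟩ 0
  have h0 : (Submodule.Quotient.mk x : M ⧸ L) = 0 := congrArg Subtype.val this
  exact (Submodule.Quotient.mk_eq_zero L).mp h0

theorem length_quotient_anti {L L' : Submodule R M} (hLL' : L ≤ L') :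
    Module.length R (M ⧸ L') ≤ Module.length R (M ⧸ L) := by
  refine Module.length_le_of_surjective (Submodule.mapQ L L' LinearMap.id (by simpa using hLL')) ?_
  intro x
  obtain ⟨m, rfl⟩ := Submodule.Quotient.mk_surjective L' x
  exact ⟨Submodule.Quotient.mk m, rfl⟩

end General

section DVR

variable {𝒪 : Type u} [CommRing 𝒪] [IsDomain 𝒪] [IsDiscreteValuationRing 𝒪]

theorem length_self_eq_top : Module.length 𝒪 𝒪 = ⊤ := by
  by_contra hne
  rw [← ne_eq, Module.length_ne_top_iff, isFiniteLength_iff_isNoetherian_isArtinian] at hne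
  have : IsArtinianRing 𝒪 := hne.2
  exact IsDiscreteValuationRing.not_isField 𝒪 (IsArtinianRing.isField_of_isDomain 𝒪)

/-- `length 𝒪/(ab) = length 𝒪/(a) + length 𝒪/(b)` for `a ≠ 0`. -/
theorem length_quotient_span_mul (a b : 𝒪) (ha : a ≠ 0) :
    Module.length 𝒪 (𝒪 ⧸ span {a * b}) =
      Module.length 𝒪 (𝒪 ⧸ span {b}) + Module.length 𝒪 (𝒪 ⧸ span {a}) := by
  -- `f : 𝒪/(b) → 𝒪/(ab)`, multiplication by `a`; `g : 𝒪/(ab) → 𝒪/(a)`
  have hf0 : (span {b} : Ideal 𝒪) ≤ Submodule.comap (LinearMap.mulLeft 𝒪 a) (span {a * b} : Ideal 𝒪) := by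
    intro x hx
    obtain ⟨c, rfl⟩ := mem_span_singleton'.mp hx
    show a * (c * b) ∈ span {a * b}
    exact mem_span_singleton'.mpr ⟨c, by ring⟩
  set f : (𝒪 ⧸ span {b}) →ₗ[𝒪] (𝒪 ⧸ span {a * b}) :=
    Submodule.mapQ (span {b}) (span {a * b}) (LinearMap.mulLeft 𝒪 a) hf0 with hf
  have hg0 : (span {a * b} : Ideal 𝒪) ≤ Submodule.comap (LinearMap.id : 𝒪 →ₗ[𝒪] 𝒪) (span {a} : Ideal 𝒪) := by
    intro x hx
    obtain ⟨c, rfl⟩ := mem_span_singleton'.mp hx
    show c * (a * b) ∈ span {a}
    exact mem_span_singleton'.mpr ⟨c * b, by ring⟩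
  set g : (𝒪 ⧸ span {a * b}) →ₗ[𝒪] (𝒪 ⧸ span {a}) :=
    Submodule.mapQ (span {a * b}) (span {a}) LinearMap.id hg0 with hg
  have hfi : Function.Injective f := by
    rw [← LinearMap.ker_eq_bot, LinearMap.ker_eq_bot']
    intro x hx
    obtain ⟨m, rfl⟩ := Submodule.Quotient.mk_surjective _ x
    rw [hf, Submodule.mapQ_apply, Submodule.Quotient.mk_eq_zero] at hx
    obtain ⟨c, hc⟩ := mem_span_singleton'.mp hx
    rw [Submodule.Quotient.mk_eq_zero]
    have : m = c * b := by
      have h1 : a * m = a * (c * b) := by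
        have : (LinearMap.mulLeft 𝒪 a) m = a * m := rfl
        rw [← this, ← hc]; ring
      exact mul_left_cancel₀ ha h1
    rw [this]
    exact mem_span_singleton'.mpr ⟨c, rfl⟩
  have hgs : Function.Surjective g := by
    intro x
    obtain ⟨m, rfl⟩ := Submodule.Quotient.mk_surjective _ x
    exact ⟨Submodule.Quotient.mk m, rfl⟩
  have hex : Function.Exact f g := by
    intro x
    constructor
    · intro hx
      obtain ⟨m, rfl⟩ := Submodule.Quotient.mk_surjective _ x
      rw [hg, Submodule.mapQ_apply, LinearMap.id_apply, Submodule.Quotient.mk_eq_zero] at hx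
      obtain ⟨c, rfl⟩ := mem_span_singleton'.mp hx
      refine ⟨Submodule.Quotient.mk c, ?_⟩
      rw [hf, Submodule.mapQ_apply]
      congr 1
      show a * c = c * a
      ring
    · rintro ⟨z, rfl⟩
      obtain ⟨m, rfl⟩ := Submodule.Quotient.mk_surjective _ z
      rw [hf, hg, Submodule.mapQ_apply, Submodule.mapQ_apply, LinearMap.id_apply,
        Submodule.Quotient.mk_eq_zero]
      show a * m ∈ span {a}
      exact mem_span_singleton'.mpr ⟨m, by ring⟩
  exact Module.length_eq_add_of_exact f g hfi hgs hex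

theorem length_quotient_span_prod {ι : Type*} [DecidableEq ι] (s : Finset ι) (a : ι → 𝒪)
    (ha : ∀ i ∈ s, a i ≠ 0) :
    Module.length 𝒪 (𝒪 ⧸ span {∏ i ∈ s, a i}) = ∑ i ∈ s, Module.length 𝒪 (𝒪 ⧸ span {a i}) := by
  induction s using Finset.induction_on with
  | empty =>
    have h1 : Module.length 𝒪 (𝒪 ⧸ (span {(1 : 𝒪)} : Ideal 𝒪)) = 0 := by
      rw [Module.length_eq_zero_iff]
      exact Ideal.Quotient.subsingleton_iff.mpr Ideal.span_singleton_one
    rw [Finset.prod_empty, Finset.sum_empty]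
    exact h1
  | insert i s hi ih =>
    rw [Finset.prod_insert hi, Finset.sum_insert hi,
      length_quotient_span_mul _ _ (ha i (Finset.mem_insert_self i s)),
      ih (fun j hj => ha j (Finset.mem_insert_of_mem hj)), add_comm]

/-- A finite length module over a discrete valuation ring has rank zero. -/
theorem finrank_eq_zero_of_length_ne_top {M : Type v} [AddCommGroup M] [Module 𝒪 M]
    [Module.Finite 𝒪 M] (hfin : Module.length 𝒪 M ≠ ⊤) : Module.finrank 𝒪 M = 0 := by
  rw [Module.finrank_eq_zero_iff_isTorsion]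
  intro x
  by_contra hx
  push Not at hx
  have hinj : Function.Injective (LinearMap.toSpanSingleton 𝒪 M x) := by
    rw [← LinearMap.ker_eq_bot, LinearMap.ker_eq_bot']
    intro a ha
    by_contra ha0
    exact hx ⟨a, mem_nonZeroDivisors_of_ne_zero ha0⟩ ha
  have := Module.length_le_of_injective _ hinj
  rw [length_self_eq_top, top_le_iff] at this
  exact hfin this

open Matrix in
/-- A submodule of `𝒪ⁿ` of finite colength is the row space of a square matrix whose determinant
computes the colength. -/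
theorem exists_matrix_of_length_ne_top {n : ℕ} (L : Submodule 𝒪 (Fin n → 𝒪))
    (hfin : Module.length 𝒪 ((Fin n → 𝒪) ⧸ L) ≠ ⊤) :
    ∃ A₀ : Matrix (Fin n) (Fin n) 𝒪, (∀ k, A₀ k ∈ L) ∧ A₀.det ≠ 0 ∧
      (∀ v ∈ L, ∃ c : Fin n → 𝒪, v = c ᵥ* A₀) ∧
      Module.length 𝒪 ((Fin n → 𝒪) ⧸ L) = Module.length 𝒪 (𝒪 ⧸ span {A₀.det}) := by
  classical
  have hrank : Module.finrank 𝒪 L = Module.finrank 𝒪 (Fin n → 𝒪) := by
    have h0 := finrank_eq_zero_of_length_ne_top hfin
    have := L.finrank_quotient_add_finrank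
    omega
  obtain ⟨b', a, ab', hab⟩ :=
    Submodule.exists_smith_normal_form_of_rank_eq (Pi.basisFun 𝒪 (Fin n)) hrank
  have ha0 : ∀ i, a i ≠ 0 := by
    intro i hi
    have h1 := hab i
    rw [hi, zero_smul] at h1
    exact ab'.ne_zero i (Subtype.ext h1)
  -- membership in `L` in `b'`-coordinates
  have hmem : ∀ x : Fin n → 𝒪, x ∈ L ↔ ∀ i, b'.repr x i ∈ (span {a i} : Ideal 𝒪) := by
    intro x
    constructor
    · intro hx i
      have h1 : x = ∑ j, (ab'.repr ⟨x, hx⟩ j * a j) • b' j := by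
        have h2 : ((∑ j, ab'.repr ⟨x, hx⟩ j • ab' j : L) : Fin n → 𝒪) = x :=
          congrArg (Subtype.val) (ab'.sum_repr ⟨x, hx⟩)
        conv_lhs => rw [← h2]
        simp only [Submodule.coe_sum, Submodule.coe_smul, hab, smul_smul]
      rw [h1, b'.repr_sum_self]
      exact mem_span_singleton'.mpr ⟨_, rfl⟩
    · intro hx
      have hc : ∀ i, ∃ c, c * a i = b'.repr x i := fun i => mem_span_singleton'.mp (hx i)
      choose c hc using hc
      have h1 : x = ∑ i, c i • (ab' i : Fin n → 𝒪) := by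
        conv_lhs => rw [← b'.sum_repr x]
        refine Finset.sum_congr rfl (fun i _ => ?_)
        rw [hab, smul_smul, hc]
      rw [h1]
      exact Submodule.sum_mem _ (fun i _ => L.smul_mem _ (ab' i).2)
  -- the quotient in coordinates
  let p : Fin n → Submodule 𝒪 𝒪 := fun i => (span {a i} : Ideal 𝒪)
  have hmap : L.map (b'.equivFun : (Fin n → 𝒪) →ₗ[𝒪] (Fin n → 𝒪)) = Submodule.pi Set.univ p := by
    ext v
    rw [Submodule.mem_map, Submodule.mem_pi]
    constructor
    · rintro ⟨x, hx, rfl⟩ i _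
      exact (hmem x).mp hx i
    · intro hv
      refine ⟨b'.equivFun.symm v, (hmem _).mpr (fun i => ?_), b'.equivFun.apply_symm_apply v⟩
      have : b'.repr (b'.equivFun.symm v) i = v i := by
        show b'.equivFun (b'.equivFun.symm v) i = v i
        rw [LinearEquiv.apply_symm_apply]
      rw [this]; exact hv i (Set.mem_univ i)
  have hlen1 : Module.length 𝒪 ((Fin n → 𝒪) ⧸ L) = ∑ i, Module.length 𝒪 (𝒪 ⧸ (span {a i} : Ideal 𝒪)) := by
    rw [(Submodule.Quotient.equiv L (Submodule.pi Set.univ p) b'.equivFun hmap).length_eq,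
      (Submodule.quotientPi p).length_eq, Module.length_pi_of_fintype]
  -- the matrix
  set A₀ : Matrix (Fin n) (Fin n) 𝒪 := Matrix.of fun k => (ab' k : Fin n → 𝒪) with hA₀
  set B : Matrix (Fin n) (Fin n) 𝒪 := Matrix.of fun k => b' k with hB
  have hAB : A₀ = Matrix.diagonal a * B := by
    ext k j
    rw [Matrix.diagonal_mul, hA₀, hB, Matrix.of_apply, Matrix.of_apply, hab, Pi.smul_apply,
      smul_eq_mul]
  have hBu : IsUnit B.det := by
    have hBT : B = ((Pi.basisFun 𝒪 (Fin n)).toMatrix b')ᵀ := by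
      ext k j
      simp [hB, Module.Basis.toMatrix_apply]
    rw [hBT, Matrix.det_transpose]
    have := (Pi.basisFun 𝒪 (Fin n)).invertibleToMatrix b'
    exact Matrix.isUnit_det_of_invertible _
  have hdet : A₀.det = (∏ i, a i) * B.det := by
    rw [hAB, Matrix.det_mul, Matrix.det_diagonal]
  refine ⟨A₀, fun k => (ab' k).2, ?_, ?_, ?_⟩
  · rw [hdet]
    exact mul_ne_zero (Finset.prod_ne_zero_iff.mpr (fun i _ => ha0 i)) hBu.ne_zero
  · intro v hv
    refine ⟨fun k => ab'.repr ⟨v, hv⟩ k, ?_⟩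
    have h2 : ((∑ j, ab'.repr ⟨v, hv⟩ j • ab' j : L) : Fin n → 𝒪) = v :=
      congrArg (Subtype.val) (ab'.sum_repr ⟨v, hv⟩)
    conv_lhs => rw [← h2]
    funext j
    simp only [Submodule.coe_sum, Submodule.coe_smul, Finset.sum_apply, Pi.smul_apply, smul_eq_mul,
      Matrix.vecMul, dotProduct, hA₀, Matrix.of_apply]
  · rw [hlen1, hdet, Ideal.span_singleton_mul_right_unit hBu,
      length_quotient_span_prod Finset.univ a (fun i _ => ha0 i)]

theorem length_quotient_span_singleton_ne_top {d : 𝒪} (hd : d ≠ 0) :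
    Module.length 𝒪 (𝒪 ⧸ span {d}) ≠ ⊤ := by
  rw [Module.length_ne_top_iff]
  exact isFiniteLength_quotient_span_singleton 𝒪 (mem_nonZeroDivisors_of_ne_zero hd)

/-- A submodule of `𝒪ⁿ` containing `d 𝒪ⁿ` with `d ≠ 0` has finite colength. -/
theorem length_quotient_ne_top_of_smul_mem {n : ℕ} (L : Submodule 𝒪 (Fin n → 𝒪)) {d : 𝒪}
    (hd : d ≠ 0) (hL : ∀ v : Fin n → 𝒪, d • v ∈ L) :
    Module.length 𝒪 ((Fin n → 𝒪) ⧸ L) ≠ ⊤ := by
  let p : Fin n → Submodule 𝒪 𝒪 := fun _ => (span {d} : Ideal 𝒪)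
  have hle : Submodule.pi Set.univ p ≤ L := by
    intro v hv
    rw [Submodule.mem_pi] at hv
    have hc : ∀ i, ∃ c, c * d = v i := fun i => mem_span_singleton'.mp (hv i (Set.mem_univ i))
    choose c hc using hc
    have : v = d • c := by
      funext i
      rw [Pi.smul_apply, smul_eq_mul, ← hc i, mul_comm]
    rw [this]
    exact hL c
  have h1 := length_quotient_anti (R := 𝒪) hle
  have h2 : Module.length 𝒪 ((Fin n → 𝒪) ⧸ Submodule.pi Set.univ p) ≠ ⊤ := by
    rw [(Submodule.quotientPi p).length_eq, Module.length_pi_of_fintype]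
    rw [ENat.sum_ne_top] 
    intro i _
    exact length_quotient_span_singleton_ne_top hd
  exact ne_top_of_le_ne_top h2 h1

open Matrix in
/-- The colength of the row space of a square matrix with nonzero determinant. -/
theorem length_quotient_of_rows {n : ℕ} (A₀ : Matrix (Fin n) (Fin n) 𝒪) (hdet : A₀.det ≠ 0)
    (L : Submodule 𝒪 (Fin n → 𝒪)) (hL : ∀ c, c ∈ L ↔ ∃ b : Fin n → 𝒪, c = b ᵥ* A₀) :
    Module.length 𝒪 ((Fin n → 𝒪) ⧸ L) = Module.length 𝒪 (𝒪 ⧸ span {A₀.det}) ∧
      Module.length 𝒪 ((Fin n → 𝒪) ⧸ L) ≠ ⊤ := by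
  classical
  have hfin : Module.length 𝒪 ((Fin n → 𝒪) ⧸ L) ≠ ⊤ := by
    refine length_quotient_ne_top_of_smul_mem L hdet (fun v => (hL _).mpr ⟨v ᵥ* A₀.adjugate, ?_⟩)
    rw [vecMul_vecMul, adjugate_mul, vecMul_smul, vecMul_one]
  refine ⟨?_, hfin⟩
  obtain ⟨B₀, hB, hBdet, hBgen, hlen⟩ := exists_matrix_of_length_ne_top L hfin
  suffices hspan : (span {B₀.det} : Ideal 𝒪) = span {A₀.det} by rw [hlen, hspan]
  rw [Ideal.span_singleton_eq_span_singleton]
  apply associated_of_dvd_dvd
  · -- `det B₀ ∣ det A₀`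
    have hA : ∀ k, A₀ k ∈ L := fun k => (hL _).mpr ⟨Pi.single k 1, by
      rw [single_one_vecMul]; rfl⟩
    have hc : ∀ k, ∃ c : Fin n → 𝒪, A₀ k = c ᵥ* B₀ := fun k => hBgen _ (hA k)
    choose c hc using hc
    have : A₀ = Matrix.of c * B₀ := by
      ext k j
      rw [show A₀ k j = (A₀ k) j from rfl, hc k]
      rfl
    rw [this, det_mul]
    exact dvd_mul_left _ _
  · have hc : ∀ k, ∃ c : Fin n → 𝒪, B₀ k = c ᵥ* A₀ := fun k => (hL _).mp (hB k)
    choose c hc using hc
    have : B₀ = Matrix.of c * A₀ := by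
      ext k j
      rw [show B₀ k j = (B₀ k) j from rfl, hc k]
      rfl
    rw [this, det_mul]
    exact dvd_mul_left _ _

end DVR

end Fermat.Agent.S59lib.NumCrit
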