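import Fermat.Agent.S59lib.NumCrit.Tate
import Fermat.Agent.TeamA.MvPS
import Fermat.Agent.Helper9.PowerSeriesReg

/-!
# Project I / N1 : the power series ring is an ambient ring

* `regOn_bot_of_isWeaklyRegular` : Mathlib's `IsWeaklyRegular` gives `RegOn ⊥`.
* `IsAmbient.of_maximalIdeal_eq` : to check `IsAmbient` it suffices that `ε y = 0`,
  `𝔪 = (y) + (ϖ)` and that `(y, ϖ)` is a regular sequence.
* `isAmbient_mvPowerSeries` : every augmentation `ε` of `𝒪⟦X₁,…,Xₙ⟧` over a discrete valuation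
  ring `𝒪` gives an ambient ring, with `y i = X i - ε (X i)`.
-/

set_option linter.unusedSectionVars false

namespace Fermat.Agent.S59lib.NumCrit

open Matrix Ideal IsLocalRing

universe u v

section Bridge

variable {C : Type u} [CommRing C]

theorem regOn_iff_forall_take (ts : List C) : ∀ I : Ideal C, RegOn I ts ↔
    ∀ (i : ℕ) (hi : i < ts.length), NZDMod (I ⊔ ofList (ts.take i)) ts[i] := by
  induction ts with
  | nil => intro I; simp
  | cons t ts ih =>
    intro I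
    rw [regOn_cons, ih]
    have key : ∀ (j : ℕ) (hj : j < ts.length),
        NZDMod (I ⊔ ofList ((t :: ts).take (j + 1))) ((t :: ts)[j + 1]'(by simpa using hj)) ↔
          NZDMod (I ⊔ span {t} ⊔ ofList (ts.take j)) ts[j] := by
      intro j hj
      rw [List.take_succ_cons, sup_ofList_cons, List.getElem_cons_succ]
    constructor
    · rintro ⟨h0, h1⟩ i hi
      cases i with
      | zero =>
        rw [List.take_zero, ofList_nil, sup_bot_eq, List.getElem_cons_zero]
        exact h0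
      | succ j =>
        have hj : j < ts.length := by simpa using hi
        exact (key j hj).mpr (h1 j hj)
    · intro h
      refine ⟨?_, fun j hj => (key j hj).mp (h (j + 1) (by simpa using hj))⟩
      have := h 0 (by simp)
      rwa [List.take_zero, ofList_nil, sup_bot_eq, List.getElem_cons_zero] at this

theorem regOn_bot_of_isWeaklyRegular {ts : List C}
    (h : RingTheory.Sequence.IsWeaklyRegular C ts) : RegOn (⊥ : Ideal C) ts := by
  rw [regOn_iff_forall_take]
  intro i hi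
  have := (RingTheory.Sequence.isWeaklyRegular_iff C ts).mp h i hi
  rw [isSMulRegular_quotient_iff_mem_of_smul_mem] at this
  intro c hc
  rw [bot_sup_eq] at hc ⊢
  have h2 := this c (by rw [smul_eq_mul, Ideal.mul_top]; exact hc)
  rwa [smul_eq_mul, Ideal.mul_top] at h2

end Bridge

section Mk

variable {𝒪 : Type v} [CommRing 𝒪] [IsDomain 𝒪] [IsDiscreteValuationRing 𝒪]
variable {P : Type u} [CommRing P] [IsLocalRing P] [IsNoetherianRing P] [Algebra 𝒪 P]
variable {n : ℕ}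

/-- To check `IsAmbient` it suffices that `ε y = 0`, `𝔪 = (y) + (ϖ)` and that `(y, ϖ)` is a regular
sequence. -/
theorem IsAmbient.of_maximalIdeal_eq (ε : P →ₐ[𝒪] 𝒪) (y : Fin n → P) {ϖ : 𝒪} (hϖ : Irreducible ϖ)
    (hy : ∀ i, ε (y i) = 0)
    (hm : maximalIdeal P = span (Set.range y) ⊔ span {algebraMap 𝒪 P ϖ})
    (hreg : RegOn (⊥ : Ideal P) (List.ofFn y ++ [algebraMap 𝒪 P ϖ])) : IsAmbient ε y ϖ := by
  refine ⟨hϖ, ?_, hreg⟩
  have hle : span (Set.range y) ≤ RingHom.ker (ε : P →+* 𝒪) := by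
    rw [span_le]; rintro _ ⟨i, rfl⟩; exact hy i
  refine le_antisymm ?_ hle
  intro p hp
  by_contra hpy
  have hϖm : algebraMap 𝒪 P ϖ ∈ maximalIdeal P := by
    rw [hm]; exact Ideal.mem_sup_right (mem_span_singleton_self _)
  -- Krull: `p ∉ (y) + (ϖ^N)` for some `N`
  have hex : ∃ N : ℕ, p ∉ span (Set.range y) ⊔ span {algebraMap 𝒪 P ϖ ^ N} := by
    by_contra hcon
    push Not at hcon
    exact hpy (mem_of_forall_mem_sup_pow _ hϖm p hcon)
  classical
  have hN := Nat.find_spec hex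
  set N := Nat.find hex with hNdef
  have hN0 : N ≠ 0 := by
    intro h0
    apply hN
    rw [h0, pow_zero, span_singleton_one, sup_top_eq]
    trivial
  obtain ⟨k, hk⟩ := Nat.exists_eq_succ_of_ne_zero hN0
  have hkmem : p ∈ span (Set.range y) ⊔ span {algebraMap 𝒪 P ϖ ^ k} := by
    by_contra hcon
    have := Nat.find_min' hex hcon
    omega
  obtain ⟨j, hj, w, hw, hjw⟩ := Submodule.mem_sup.mp hkmem
  obtain ⟨u, rfl⟩ := mem_span_singleton'.mp hw
  have hu : IsUnit u := by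
    by_contra hnu
    have hum : u ∈ maximalIdeal P := (mem_maximalIdeal _).mpr hnu
    rw [hm] at hum
    obtain ⟨j', hj', w', hw', hjw'⟩ := Submodule.mem_sup.mp hum
    obtain ⟨u', rfl⟩ := mem_span_singleton'.mp hw'
    apply hN
    rw [hk, ← hjw, ← hjw']
    have : j + (j' + u' * algebraMap 𝒪 P ϖ) * algebraMap 𝒪 P ϖ ^ k =
        (j + j' * algebraMap 𝒪 P ϖ ^ k) + u' * algebraMap 𝒪 P ϖ ^ (k + 1) := by ring
    rw [this]
    exact Ideal.add_mem _ (Ideal.mem_sup_left (Ideal.add_mem _ hj (Ideal.mul_mem_right _ _ hj')))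
      (Ideal.mem_sup_right (mem_span_singleton'.mpr ⟨u', rfl⟩))
  have hεp : ε p = 0 := hp
  rw [← hjw, map_add, show ε j = 0 from hle hj, zero_add, map_mul, map_pow, AlgHom.commutes,
    Algebra.algebraMap_self_apply] at hεp
  rcases mul_eq_zero.mp hεp with h0 | h0
  · exact (hu.map ε).ne_zero h0
  · exact pow_ne_zero k hϖ.ne_zero h0

end Mk

section PS

open MvPowerSeries

variable {𝒪 : Type v} [CommRing 𝒪] [IsDomain 𝒪] [IsDiscreteValuationRing 𝒪] {n : ℕ}

/-- The shifted variables `X i - ε (X i)`. -/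
noncomputable def shiftX (ε : MvPowerSeries (Fin n) 𝒪 →ₐ[𝒪] 𝒪) (i : Fin n) :
    MvPowerSeries (Fin n) 𝒪 :=
  X i - algebraMap 𝒪 _ (ε (X i))

theorem eps_shiftX (ε : MvPowerSeries (Fin n) 𝒪 →ₐ[𝒪] 𝒪) (i : Fin n) : ε (shiftX ε i) = 0 := by
  rw [shiftX, map_sub, AlgHom.commutes, Algebra.algebraMap_self_apply, sub_self]

/-- An augmentation maps the variables into the maximal ideal. -/
theorem eps_X_mem_maximalIdeal (ε : MvPowerSeries (Fin n) 𝒪 →ₐ[𝒪] 𝒪) (i : Fin n) :
    ε (X i) ∈ maximalIdeal 𝒪 := by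
  rw [mem_maximalIdeal, mem_nonunits_iff]
  intro hu
  have h1 : IsUnit (shiftX ε i) := by
    rw [MvPowerSeries.isUnit_iff_constantCoeff, shiftX, map_sub, constantCoeff_X,
      ← MvPowerSeries.c_eq_algebraMap, constantCoeff_C, zero_sub]
    exact hu.neg
  exact (h1.map ε).ne_zero (eps_shiftX ε i)

theorem span_shiftX_sup (ε : MvPowerSeries (Fin n) 𝒪 →ₐ[𝒪] 𝒪) {ϖ : 𝒪} (hϖ : Irreducible ϖ) :
    span (Set.range (shiftX ε)) ⊔ span {algebraMap 𝒪 (MvPowerSeries (Fin n) 𝒪) ϖ} =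
      maximalIdeal (MvPowerSeries (Fin n) 𝒪) := by
  have hc : ∀ i, algebraMap 𝒪 (MvPowerSeries (Fin n) 𝒪) (ε (X i)) ∈
      span {algebraMap 𝒪 (MvPowerSeries (Fin n) 𝒪) ϖ} := by
    intro i
    have := eps_X_mem_maximalIdeal ε i
    rw [hϖ.maximalIdeal_eq] at this
    obtain ⟨c, hc⟩ := mem_span_singleton'.mp this
    rw [← hc, map_mul]
    exact Ideal.mul_mem_left _ _ (mem_span_singleton_self _)
  rw [Fermat.Agent.TeamA.maximalIdeal_mvPowerSeries, hϖ.maximalIdeal_eq, Ideal.map_span,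
    Set.image_singleton]
  apply le_antisymm
  · refine sup_le ?_ le_sup_right
    rw [span_le]
    rintro _ ⟨i, rfl⟩
    exact Ideal.sub_mem _ (Ideal.mem_sup_left (subset_span ⟨i, rfl⟩)) (Ideal.mem_sup_right (hc i))
  · refine sup_le ?_ le_sup_right
    rw [span_le]
    rintro _ ⟨i, rfl⟩
    have : (X i : MvPowerSeries (Fin n) 𝒪) = shiftX ε i + algebraMap 𝒪 _ (ε (X i)) := by
      rw [shiftX]; ring
    rw [SetLike.mem_coe, this]
    exact Ideal.add_mem _ (Ideal.mem_sup_left (subset_span ⟨i, rfl⟩)) (Ideal.mem_sup_right (hc i))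

/-- **The power series ring over a discrete valuation ring is an ambient ring** for each of its
augmentations. -/
theorem isAmbient_mvPowerSeries (ε : MvPowerSeries (Fin n) 𝒪 →ₐ[𝒪] 𝒪) {ϖ : 𝒪}
    (hϖ : Irreducible ϖ) : IsAmbient ε (shiftX ε) ϖ := by
  set ϖP := algebraMap 𝒪 (MvPowerSeries (Fin n) 𝒪) ϖ with hϖP
  have hm := span_shiftX_sup ε hϖ
  refine IsAmbient.of_maximalIdeal_eq ε (shiftX ε) hϖ (eps_shiftX ε) hm.symm ?_
  have hϖm : ϖP ∈ maximalIdeal (MvPowerSeries (Fin n) 𝒪) := by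
    rw [← hm]; exact Ideal.mem_sup_right (mem_span_singleton_self _)
  -- the standard regular sequence
  have hstd : RegOn (⊥ : Ideal (MvPowerSeries (Fin n) 𝒪))
      (List.ofFn (fun i : Fin n => (X i : MvPowerSeries (Fin n) 𝒪)) ++ [ϖP]) := by
    have h1 := Fermat.Agent.Helper9.MvPS.isWeaklyRegular_gens n (R := 𝒪) (ϖ := ϖ)
      (fun a b h => mul_left_cancel₀ hϖ.ne_zero h)
    have h2 := regOn_bot_of_isWeaklyRegular h1
    rw [Fermat.Agent.Helper9.MvPS.gens] at h2
    rwa [List.ofFn_eq_map, hϖP, ← MvPowerSeries.c_eq_algebraMap]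
  have hXm : ∀ i : Fin n, (X i : MvPowerSeries (Fin n) 𝒪) ∈ maximalIdeal _ := by
    intro i
    rw [Fermat.Agent.TeamA.mem_maximalIdeal_mvPowerSeries_iff, constantCoeff_X]
    exact zero_mem _
  have hym : ∀ i : Fin n, shiftX ε i ∈ maximalIdeal (MvPowerSeries (Fin n) 𝒪) := by
    intro i
    rw [← hm]; exact Ideal.mem_sup_left (subset_span ⟨i, rfl⟩)
  have e1 : ∀ z : Fin n → MvPowerSeries (Fin n) 𝒪,
      (⊥ : Ideal (MvPowerSeries (Fin n) 𝒪)) ⊔ ofList (List.ofFn z ++ [ϖP]) =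
      span (Set.range z) ⊔ span {ϖP} := by
    intro z
    rw [bot_sup_eq, ofList_append, ofList_ofFn, ofList_singleton]
  have hXsup : span (Set.range (fun i : Fin n => (X i : MvPowerSeries (Fin n) 𝒪))) ⊔ span {ϖP} =
      maximalIdeal (MvPowerSeries (Fin n) 𝒪) := by
    rw [Fermat.Agent.TeamA.maximalIdeal_mvPowerSeries, hϖ.maximalIdeal_eq, Ideal.map_span,
      Set.image_singleton]
  refine (regOn_and_simpleSoc_of_mPrimary (n + 1) (⊥ : Ideal (MvPowerSeries (Fin n) 𝒪))
    (List.ofFn (fun i : Fin n => (X i : MvPowerSeries (Fin n) 𝒪)) ++ [ϖP])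
    (List.ofFn (shiftX ε) ++ [ϖP]) (by simp) (by simp) ?_ ?_ hstd ?_ ?_).1
  · intro t ht
    rcases List.mem_append.mp ht with h1 | h1
    · obtain ⟨i, rfl⟩ := (List.mem_ofFn' _ t).mp h1
      exact hXm i
    · rw [List.mem_singleton] at h1; rw [h1]; exact hϖm
  · intro t ht
    rcases List.mem_append.mp ht with h1 | h1
    · obtain ⟨i, rfl⟩ := (List.mem_ofFn' _ t).mp h1
      exact hym i
    · rw [List.mem_singleton] at h1; rw [h1]; exact hϖm
  · rw [e1, hXsup]; exact mPrimary_maximalIdeal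
  · rw [e1, hm]; exact mPrimary_maximalIdeal

end PS

end Fermat.Agent.S59lib.NumCrit
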