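import Fermat.Agent.S59lib.NumCrit.Cot
import Fermat.Agent.S59lib.NumCrit.PS
import Fermat.Agent.S59lib.NumCrit.Gor
import Fermat.Agent.S56lib.Dict.PowerSeriesSurj

/-!
# Project I / N1 : the numerical criterion for abstract augmented algebras

* `IsAmbient.gorAug` : a complete intersection quotient of the ambient ring is `GorAug`.
* `exists_presentation` : a complete Noetherian local `𝒪`-algebra with an augmentation is a quotient
  of a power series ring whose variables map into the augmentation ideal.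
* `numCrit_ring` : **the Wiles–Lenstra criterion** for `φ : R ↠ T`.
-/

set_option linter.unusedSectionVars false

namespace Fermat.Agent.S59lib.NumCrit

open Matrix Ideal IsLocalRing

universe u v w

section Gor

variable {𝒪 : Type v} [CommRing 𝒪] [IsDomain 𝒪] [IsDiscreteValuationRing 𝒪]
variable {P : Type u} [CommRing P] [IsLocalRing P] [IsNoetherianRing P] [Algebra 𝒪 P]
variable {n : ℕ} {ε : P →ₐ[𝒪] 𝒪} {y : Fin n → P} {ϖ : 𝒪}
variable {T : Type w} [CommRing T] [IsLocalRing T] [Algebra 𝒪 T]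

omit [IsDomain 𝒪] [IsDiscreteValuationRing 𝒪] [IsNoetherianRing P] in
/-- A surjective ring homomorphism of local rings maps non-units to non-units. -/
theorem map_mem_maximalIdeal_of_surjective (ψ : P →ₐ[𝒪] T) (hψ : Function.Surjective ψ) {m : P}
    (hm : m ∈ maximalIdeal P) : ψ m ∈ maximalIdeal T := by
  rw [mem_maximalIdeal, mem_nonunits_iff]
  intro hu
  obtain ⟨s, hs⟩ := hu.exists_right_inv
  obtain ⟨s', rfl⟩ := hψ s
  have hker : m * s' - 1 ∈ RingHom.ker (ψ : P →+* T) := by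
    show ψ (m * s' - 1) = 0
    rw [map_sub, map_mul, hs, map_one, sub_self]
  have hne : RingHom.ker (ψ : P →+* T) ≠ ⊤ := RingHom.ker_ne_top _
  have h1 : m * s' - 1 ∈ maximalIdeal P := IsLocalRing.le_maximalIdeal hne hker
  have h2 : m * s' ∈ maximalIdeal P := Ideal.mul_mem_right _ _ hm
  have h3 : (1 : P) ∈ maximalIdeal P := by
    have : (1 : P) = m * s' - (m * s' - 1) := by ring
    rw [this]; exact Ideal.sub_mem _ h2 h1
  exact (maximalIdeal P).ne_top_iff_one.mp (IsMaximal.ne_top inferInstance) h3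

omit [IsDomain 𝒪] [IsDiscreteValuationRing 𝒪] [IsNoetherianRing P] in
theorem exists_mem_maximalIdeal_of_surjective (ψ : P →ₐ[𝒪] T) (hψ : Function.Surjective ψ) {m : T}
    (hm : m ∈ maximalIdeal T) : ∃ p ∈ maximalIdeal P, ψ p = m := by
  obtain ⟨p, rfl⟩ := hψ m
  refine ⟨p, ?_, rfl⟩
  rw [mem_maximalIdeal, mem_nonunits_iff]
  intro hu
  exact (mem_maximalIdeal _).mp hm (hu.map ψ)

/-- **A complete intersection quotient of the ambient ring is Gorenstein at the augmentation**, with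
socle generator the image of `det a`. -/
theorem IsAmbient.gorAug (h : IsAmbient ε y ϖ) (ψ : P →ₐ[𝒪] T) (hψ : Function.Surjective ψ)
    (π : T →ₐ[𝒪] 𝒪) (hε : ∀ p, π (ψ p) = ε p) (a : Matrix (Fin n) (Fin n) P)
    (hJ : RingHom.ker (ψ : P →+* T) = span (Set.range (a *ᵥ y)))
    (hprim : MPrimary (span (Set.range (a *ᵥ y)) ⊔ span {algebraMap 𝒪 P ϖ}))
    (hdet : ε a.det ≠ 0) : GorAug π ϖ (ψ a.det) := by
  set F := span (Set.range (a *ᵥ y)) with hF
  set ϖP := algebraMap 𝒪 P ϖ with hϖP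
  have hkerF : ∀ p : P, ψ p = 0 ↔ p ∈ F := fun p => by rw [← hJ]; rfl
  have hdy : ∀ i, a.det * y i ∈ F := det_mul_mem a y F (fun k => subset_span ⟨k, rfl⟩)
  have hnzd := h.nzdMod_span a hprim
  have hψϖ : ∀ z : P, ψ (ϖP * z) = ϖ • ψ z := by
    intro z
    rw [map_mul, hϖP, AlgHom.commutes, Algebra.smul_def]
  -- `𝔭 · det a ⊆ F`
  have hpd : ∀ p : P, ε p = 0 → p * a.det ∈ F := by
    intro p hp
    obtain ⟨c, rfl⟩ := h.exists_eq_sum_of_eps_eq_zero hp
    rw [Finset.sum_mul]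
    refine Ideal.sum_mem _ (fun i _ => ?_)
    have : c i * y i * a.det = c i * (a.det * y i) := by ring
    rw [this]; exact Ideal.mul_mem_left _ _ (hdy i)
  refine ⟨h.irr, ?_, ?_, ?_, ?_, ?_, ?_⟩
  · -- mul_eq_zero
    intro x hx
    obtain ⟨p, rfl⟩ := hψ x
    rw [hε] at hx
    rw [← map_mul, hkerF]
    exact hpd p hx
  · rw [hε]; exact hdet
  · -- ann
    intro t ht
    obtain ⟨u, rfl⟩ := hψ t
    have hu : ∀ i, u * y i ∈ F := by
      intro i
      rw [← hkerF, map_mul]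
      exact ht _ (by rw [hε, h.eps_y])
    have hmem : ε u ∈ etaIdeal ε y F := (mem_etaIdeal ε y).mpr ⟨u, hu, rfl⟩
    rw [h.etaIdeal_span_eq a hprim hdet, mem_span_singleton'] at hmem
    obtain ⟨c, hc⟩ := hmem
    refine ⟨c, ?_⟩
    have hu' : ∀ i, (u - algebraMap 𝒪 P c * a.det) * y i ∈ F := by
      intro i
      have : (u - algebraMap 𝒪 P c * a.det) * y i = u * y i - algebraMap 𝒪 P c * (a.det * y i) := by
        ring
      rw [this]
      exact Ideal.sub_mem _ (hu i) (Ideal.mul_mem_left _ _ (hdy i))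
    have hε' : ε (u - algebraMap 𝒪 P c * a.det) = 0 := by
      rw [map_sub, map_mul, AlgHom.commutes, Algebra.algebraMap_self_apply, ← hc, sub_self]
    have := h.mem_span_of_colon a hnzd hdet hu' hε'
    rw [← hkerF, map_sub, sub_eq_zero, map_mul, AlgHom.commutes, ← Algebra.smul_def] at this
    exact this
  · -- soc
    intro t ht
    obtain ⟨u, rfl⟩ := hψ t
    have hfm : ∀ k, (a *ᵥ y) k ∈ maximalIdeal P := fun k =>
      h.span_y_le_maximalIdeal (h.mulVec_mem_span a k)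
    obtain ⟨s, hs𝔮, hssoc, hsgen⟩ := (h.regOn_and_simpleSoc (a *ᵥ y) hfm hprim).2
    have husoc : ∀ m ∈ maximalIdeal P, m * u ∈ F ⊔ span {ϖP} := by
      intro m hm
      obtain ⟨z, hz⟩ := ht (ψ m) (map_mem_maximalIdeal_of_surjective ψ hψ hm)
      obtain ⟨z', rfl⟩ := hψ z
      have : m * u - ϖP * z' ∈ F := by
        rw [← hkerF, map_sub, map_mul, hz, hψϖ, sub_self]
      have e : m * u = (m * u - ϖP * z') + ϖP * z' := by ring
      rw [e]
      exact Ideal.add_mem _ (Ideal.mem_sup_left this)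
        (Ideal.mem_sup_right (mem_span_singleton'.mpr ⟨z', by ring⟩))
    have hdsoc : ∀ m ∈ maximalIdeal P, m * a.det ∈ F ⊔ span {ϖP} := by
      intro m hm
      rw [h.maximalIdeal_eq] at hm
      obtain ⟨p, hp, w, hw, rfl⟩ := Submodule.mem_sup.mp hm
      obtain ⟨v, rfl⟩ := mem_span_singleton'.mp hw
      rw [add_mul]
      refine Ideal.add_mem _ (Ideal.mem_sup_left ?_) (Ideal.mem_sup_right ?_)
      · exact hpd p ((h.mem_span_y_iff p).mp hp)
      · exact mem_span_singleton'.mpr ⟨v * a.det, by ring⟩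
    obtain ⟨c₂, hc₂⟩ := hsgen a.det hdsoc
    have hc₂u : IsUnit c₂ := by
      by_contra hcn
      have hcm : c₂ ∈ maximalIdeal P := (mem_maximalIdeal _).mpr hcn
      apply h.det_notMem a hprim
      have : a.det = (a.det - c₂ * s) + c₂ * s := by ring
      rw [this]
      exact Ideal.add_mem _ hc₂ (hssoc c₂ hcm)
    obtain ⟨c₂', hc₂'⟩ := hc₂u.exists_left_inv
    have hs' : s - c₂' * a.det ∈ F ⊔ span {ϖP} := by
      have : s - c₂' * a.det = -(c₂' * (a.det - c₂ * s)) := by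
        have : c₂' * (c₂ * s) = (c₂' * c₂) * s := by ring
        rw [mul_sub, this, hc₂']; ring
      rw [this]
      exact Ideal.neg_mem_iff _ |>.mpr (Ideal.mul_mem_left _ _ hc₂)
    obtain ⟨c, hc⟩ := hsgen u husoc
    set c' := c * c₂' with hc'
    have h1 : u - c' * a.det ∈ F ⊔ span {ϖP} := by
      have : u - c' * a.det = (u - c * s) + c * (s - c₂' * a.det) := by rw [hc']; ring
      rw [this]
      exact Ideal.add_mem _ hc (Ideal.mul_mem_left _ _ hs')
    have h2 : u - algebraMap 𝒪 P (ε c') * a.det ∈ F ⊔ span {ϖP} := by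
      have : u - algebraMap 𝒪 P (ε c') * a.det =
          (u - c' * a.det) + (c' - algebraMap 𝒪 P (ε c')) * a.det := by ring
      rw [this]
      refine Ideal.add_mem _ h1 (Ideal.mem_sup_left (hpd _ ?_))
      rw [map_sub, AlgHom.commutes, Algebra.algebraMap_self_apply, sub_self]
    obtain ⟨f, hf, w, hw, hfw⟩ := Submodule.mem_sup.mp h2
    obtain ⟨z', rfl⟩ := mem_span_singleton'.mp hw
    refine ⟨ε c', ψ z', ?_⟩
    have e : u = algebraMap 𝒪 P (ε c') * a.det + f + ϖP * z' := by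
      have : u = (u - algebraMap 𝒪 P (ε c') * a.det) + algebraMap 𝒪 P (ε c') * a.det := by ring
      rw [this, ← hfw]; ring
    conv_lhs => rw [e]
    rw [map_add, map_add, (hkerF f).mpr hf, add_zero, hψϖ, map_mul, AlgHom.commutes,
      ← Algebra.smul_def]
  · -- notMem
    intro z hz
    obtain ⟨z', rfl⟩ := hψ z
    apply h.det_notMem a hprim
    have : a.det - ϖP * z' ∈ F := by
      rw [← hkerF, map_sub, hz, hψϖ, sub_self]
    have e : a.det = (a.det - ϖP * z') + ϖP * z' := by ring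
    rw [e]
    exact Ideal.add_mem _ (Ideal.mem_sup_left this)
      (Ideal.mem_sup_right (mem_span_singleton'.mpr ⟨z', by ring⟩))
  · -- nilp
    obtain ⟨N, hN⟩ := hprim.exists_pow_le
    refine ⟨N, fun m hm => ?_⟩
    have hle : maximalIdeal T ≤ (maximalIdeal P).map (ψ : P →+* T) := by
      intro m hm
      obtain ⟨p, hp, rfl⟩ := exists_mem_maximalIdeal_of_surjective ψ hψ hm
      exact Ideal.mem_map_of_mem _ hp
    have h1 : m ∈ (maximalIdeal P ^ N).map (ψ : P →+* T) := by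
      rw [Ideal.map_pow]
      exact Ideal.pow_right_mono hle N hm
    obtain ⟨p, hp, rfl⟩ := (Ideal.mem_map_iff_of_surjective (ψ : P →+* T) hψ).mp h1
    obtain ⟨f, hf, w, hw, rfl⟩ := Submodule.mem_sup.mp (hN hp)
    obtain ⟨z', rfl⟩ := mem_span_singleton'.mp hw
    refine ⟨ψ z', ?_⟩
    show ψ (f + z' * ϖP) = _
    rw [map_add, (hkerF f).mpr hf, zero_add, mul_comm, hψϖ]

end Gor

section Present

open MvPowerSeries

variable {𝒪 : Type v} [CommRing 𝒪] [IsDomain 𝒪] [IsDiscreteValuationRing 𝒪]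
  [IsAdicComplete (maximalIdeal 𝒪) 𝒪]
variable {R : Type w} [CommRing R] [IsLocalRing R] [IsNoetherianRing R]
  [IsAdicComplete (maximalIdeal R) R] [Algebra 𝒪 R]

omit [IsDiscreteValuationRing 𝒪] [IsAdicComplete (maximalIdeal 𝒪) 𝒪]
  [IsNoetherianRing R] [IsAdicComplete (maximalIdeal R) R] in
theorem sub_algebraMap_mem_maximalIdeal (πR : R →ₐ[𝒪] 𝒪) (r : R) :
    r - algebraMap 𝒪 R (πR r) ∈ maximalIdeal R := by
  have hne : RingHom.ker (πR : R →+* 𝒪) ≠ ⊤ := RingHom.ker_ne_top _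
  refine IsLocalRing.le_maximalIdeal hne ?_
  show πR (r - algebraMap 𝒪 R (πR r)) = 0
  rw [map_sub, AlgHom.commutes, Algebra.algebraMap_self_apply, sub_self]

/-- A complete Noetherian local `𝒪`-algebra with an augmentation is a quotient of a power series
ring whose variables map into the augmentation ideal. -/
theorem exists_presentation (πR : R →ₐ[𝒪] 𝒪) :
    ∃ (n : ℕ) (γ : MvPowerSeries (Fin n) 𝒪 →ₐ[𝒪] R), Function.Surjective γ ∧
      ∀ i, πR (γ (X i)) = 0 := by
  have hfg : (RingHom.ker (πR : R →+* 𝒪)).FG := IsNoetherian.noetherian _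
  obtain ⟨n, s, hs⟩ := Submodule.fg_iff_exists_fin_generating_family.mp hfg
  have hsker : ∀ i, πR (s i) = 0 := by
    intro i
    have : s i ∈ RingHom.ker (πR : R →+* 𝒪) := by
      rw [← hs]; exact Submodule.subset_span ⟨i, rfl⟩
    exact this
  have hloc : IsLocalHom (algebraMap 𝒪 R) := by
    refine ⟨fun a ha => ?_⟩
    have := ha.map πR
    rwa [AlgHom.commutes, Algebra.algebraMap_self_apply] at this
  have hsurj : Function.Surjective (residue R ∘ algebraMap 𝒪 R) := by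
    intro z
    obtain ⟨r, rfl⟩ := residue_surjective z
    refine ⟨πR r, ?_⟩
    rw [Function.comp_apply, eq_comm, ← sub_eq_zero, ← map_sub, residue_eq_zero_iff]
    exact sub_algebraMap_mem_maximalIdeal πR r
  have hsm : ∀ i, s i ∈ maximalIdeal R := by
    intro i
    have hne : RingHom.ker (πR : R →+* 𝒪) ≠ ⊤ := RingHom.ker_ne_top _
    exact IsLocalRing.le_maximalIdeal hne (hsker i)
  have hspan : maximalIdeal R ≤ Ideal.span (Set.range s) ⊔
      (maximalIdeal 𝒪).map (algebraMap 𝒪 R) ⊔ maximalIdeal R ^ 2 := by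
    refine le_trans ?_ le_sup_left
    intro r hr
    have e : r = (r - algebraMap 𝒪 R (πR r)) + algebraMap 𝒪 R (πR r) := by ring
    rw [e]
    refine Submodule.add_mem_sup ?_ (Ideal.mem_map_of_mem _ ?_)
    · have : r - algebraMap 𝒪 R (πR r) ∈ RingHom.ker (πR : R →+* 𝒪) := by
        show πR (r - algebraMap 𝒪 R (πR r)) = 0
        rw [map_sub, AlgHom.commutes, Algebra.algebraMap_self_apply, sub_self]
      rw [← hs] at this
      exact this
    · rw [mem_maximalIdeal, mem_nonunits_iff]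
      intro hu
      have hu' : IsUnit (algebraMap 𝒪 R (πR r)) := hu.map (algebraMap 𝒪 R)
      have h1 := sub_algebraMap_mem_maximalIdeal πR r
      have h2 : algebraMap 𝒪 R (πR r) ∈ maximalIdeal R := by
        have : algebraMap 𝒪 R (πR r) = r - (r - algebraMap 𝒪 R (πR r)) := by ring
        rw [this]; exact Ideal.sub_mem _ hr h1
      exact (mem_maximalIdeal _).mp h2 hu'
  obtain ⟨γ, hγX, hγ⟩ := Fermat.Agent.S56lib.Dict.exists_surjective_of_span (σ := Fin n)
    hsurj s hsm hspan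
  exact ⟨n, γ, hγ, fun i => by rw [hγX, hsker]⟩

end Present

section Crit

open MvPowerSeries

variable {𝒪 : Type v} [CommRing 𝒪] [IsDomain 𝒪] [IsDiscreteValuationRing 𝒪]
variable {P : Type u} [CommRing P] [IsLocalRing P] [IsNoetherianRing P] [Algebra 𝒪 P]
variable {T : Type w} [CommRing T] [Algebra 𝒪 T]

omit [IsNoetherianRing P] in
/-- If `T` is finite over `𝒪` then `ker ψ + (ϖ)` is primary to the maximal ideal. -/
theorem mPrimary_ker_sup [Module.Finite 𝒪 T] (ψ : P →ₐ[𝒪] T) (hψ : Function.Surjective ψ) {ϖ : 𝒪}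
    (hϖ : Irreducible ϖ) :
    MPrimary (RingHom.ker (ψ : P →+* T) ⊔ span {algebraMap 𝒪 P ϖ}) := by
  apply mPrimary_of_forall_isPrime
  intro Q hQ hle
  have hker : RingHom.ker (ψ : P →+* T) ≤ Q := le_sup_left.trans hle
  have hψ' : Function.Surjective (ψ : P →+* T) := hψ
  have hQ' : (Q.map (ψ : P →+* T)).IsPrime := Ideal.map_isPrime_of_surjective hψ' hker
  have hcomap : (Q.map (ψ : P →+* T)).comap (ψ : P →+* T) = Q := by
    rw [Ideal.comap_map_of_surjective _ hψ', ← RingHom.ker_eq_comap_bot]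
    exact sup_eq_left.mpr hker
  have hϖQ' : algebraMap 𝒪 T ϖ ∈ Q.map (ψ : P →+* T) := by
    have : algebraMap 𝒪 T ϖ = (ψ : P →+* T) (algebraMap 𝒪 P ϖ) := by
      rw [RingHom.coe_coe, AlgHom.commutes]
    rw [this]
    exact Ideal.mem_map_of_mem _ (hle (Ideal.mem_sup_right (mem_span_singleton_self _)))
  have hmax0 : ((Q.map (ψ : P →+* T)).comap (algebraMap 𝒪 T)).IsMaximal := by
    have hprime : ((Q.map (ψ : P →+* T)).comap (algebraMap 𝒪 T)).IsPrime := Ideal.comap_isPrime _ _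
    have hle' : maximalIdeal 𝒪 ≤ (Q.map (ψ : P →+* T)).comap (algebraMap 𝒪 T) := by
      rw [hϖ.maximalIdeal_eq, span_le]
      intro x hx
      rw [Set.mem_singleton_iff] at hx
      rw [hx]
      exact hϖQ'
    rw [← (maximalIdeal.isMaximal 𝒪).eq_of_le hprime.ne_top hle']
    exact maximalIdeal.isMaximal 𝒪
  have : Algebra.IsIntegral 𝒪 T := Algebra.IsIntegral.of_finite 𝒪 T
  have hQ'max : (Q.map (ψ : P →+* T)).IsMaximal :=
    Ideal.isMaximal_of_isIntegral_of_isMaximal_comap _ hmax0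
  have hQmax : Q.IsMaximal := by
    rw [← hcomap]
    exact Ideal.comap_isMaximal_of_surjective (ψ : P →+* T) hψ'
  exact IsLocalRing.eq_maximalIdeal hQmax

end Crit

section Abstract

open MvPowerSeries

variable {𝒪 : Type v} [CommRing 𝒪] [IsDomain 𝒪] [IsDiscreteValuationRing 𝒪]
  [IsAdicComplete (maximalIdeal 𝒪) 𝒪]
variable {R : Type w} [CommRing R] [IsLocalRing R] [IsNoetherianRing R]
  [IsAdicComplete (maximalIdeal R) R] [Algebra 𝒪 R]
variable {T : Type u} [CommRing T] [IsLocalRing T] [Algebra 𝒪 T] [Module.Finite 𝒪 T]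
  [Module.IsTorsionFree 𝒪 T]

variable (𝒪 T) in
/-- `T` is a quotient of a power series ring in `n` variables by `n` elements. -/
def IsCI : Prop :=
  ∃ (n : ℕ) (ψ : MvPowerSeries (Fin n) 𝒪 →ₐ[𝒪] T) (f : Fin n → MvPowerSeries (Fin n) 𝒪),
    Function.Surjective ψ ∧ RingHom.ker (ψ : MvPowerSeries (Fin n) 𝒪 →+* T) = span (Set.range f)

/-- **The Wiles–Lenstra numerical criterion.**  Let `φ : R ↠ T` be a surjection of augmented
`𝒪`-algebras, `R` complete Noetherian local, `T` finite and torsion free over the complete discrete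
valuation ring `𝒪`.  If the cotangent space `Φ_R` of `R` at the augmentation has finite length at
most the length of `𝒪 ⧸ η_T`, then `φ` is an isomorphism, `T` is a complete intersection
(Gorenstein at the augmentation), and `length Φ_R = length Φ_T = length 𝒪 ⧸ η_T`. -/
theorem numCrit_ring (φ : R →ₐ[𝒪] T) (hφ : Function.Surjective φ) (π : T →ₐ[𝒪] 𝒪) {ϖ : 𝒪}
    (hϖ : Irreducible ϖ)
    (hfin : Module.length 𝒪 (RingHom.ker ((π.comp φ : R →ₐ[𝒪] 𝒪) : R →+* 𝒪)).Cotangent ≠ ⊤)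
    (hle : Module.length 𝒪 (RingHom.ker ((π.comp φ : R →ₐ[𝒪] 𝒪) : R →+* 𝒪)).Cotangent ≤
      Module.length 𝒪 (𝒪 ⧸ congIdeal π)) :
    Function.Injective φ ∧ IsCI 𝒪 T ∧ (∃ e₀ : T, GorAug π ϖ e₀) ∧
    Module.length 𝒪 (RingHom.ker ((π.comp φ : R →ₐ[𝒪] 𝒪) : R →+* 𝒪)).Cotangent =
      Module.length 𝒪 (𝒪 ⧸ congIdeal π) ∧
    Module.length 𝒪 (RingHom.ker (π : T →+* 𝒪)).Cotangent =
      Module.length 𝒪 (𝒪 ⧸ congIdeal π) := by
  set πR : R →ₐ[𝒪] 𝒪 := π.comp φ with hπR
  obtain ⟨n, γ, hγ, hγX⟩ := exists_presentation πR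
  set ε : MvPowerSeries (Fin n) 𝒪 →ₐ[𝒪] 𝒪 := πR.comp γ with hε
  set ψ : MvPowerSeries (Fin n) 𝒪 →ₐ[𝒪] T := φ.comp γ with hψdef
  have hψ : Function.Surjective ψ := hφ.comp hγ
  have h : IsAmbient ε (shiftX ε) ϖ := isAmbient_mvPowerSeries ε hϖ
  have hεR : ∀ p, πR (γ p) = ε p := fun p => rfl
  have hεT : ∀ p, π (ψ p) = ε p := fun p => rfl
  set I := RingHom.ker (γ : MvPowerSeries (Fin n) 𝒪 →+* R) with hI
  set J := RingHom.ker (ψ : MvPowerSeries (Fin n) 𝒪 →+* T) with hJ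
  have hIJ : I ≤ J := by
    intro p hp
    show φ (γ p) = 0
    rw [show γ p = 0 from hp, map_zero]
  have hJp : J ≤ span (Set.range (shiftX ε)) := by
    intro p hp
    rw [h.mem_span_y_iff, ← hεT, show ψ p = 0 from hp, map_zero]
  have hnzd : NZDMod J (algebraMap 𝒪 (MvPowerSeries (Fin n) 𝒪) ϖ) := by
    intro c hc
    have h1 : ψ (algebraMap 𝒪 (MvPowerSeries (Fin n) 𝒪) ϖ * c) = 0 := hc
    rw [map_mul, AlgHom.commutes, ← Algebra.smul_def, smul_eq_zero_iff_right hϖ.ne_zero] at h1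
    exact h1
  have hprim : MPrimary (J ⊔ span {algebraMap 𝒪 (MvPowerSeries (Fin n) 𝒪) ϖ}) :=
    mPrimary_ker_sup ψ hψ hϖ
  have hlenR := h.length_cotangent γ hγ πR hεR
  have hlenT := h.length_cotangent ψ hψ π hεT
  have hη := h.congIdeal_eq_etaIdeal ψ hψ π hεT
  rw [hlenR] at hfin hle ⊢
  rw [hη] at hle ⊢
  rw [hlenT]
  obtain ⟨hIJeq, ⟨a, hdet, hJa⟩, hlen⟩ := h.criterion_length hIJ hJp hnzd hprim hfin hle
  have hprim' : MPrimary (span (Set.range (a *ᵥ shiftX ε)) ⊔
      span {algebraMap 𝒪 (MvPowerSeries (Fin n) 𝒪) ϖ}) := by rw [← hJa]; exact hprim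
  refine ⟨?_, ⟨n, ψ, a *ᵥ shiftX ε, hψ, hJa⟩, ⟨ψ a.det, h.gorAug ψ hψ π hεT a hJa hprim' hdet⟩, ?_,
    hlen⟩
  · rw [injective_iff_map_eq_zero]
    intro x hx
    obtain ⟨p, rfl⟩ := hγ x
    have : p ∈ J := hx
    rw [← hIJeq] at this
    exact this
  · rw [show RingHom.ker (γ : MvPowerSeries (Fin n) 𝒪 →+* R) = J from hIJeq]; exact hlen

end Abstract

section Converse

open MvPowerSeries

variable {𝒪 : Type v} [CommRing 𝒪] [IsDomain 𝒪] [IsDiscreteValuationRing 𝒪]
variable {P : Type u} [CommRing P] [IsLocalRing P] [IsNoetherianRing P] [Algebra 𝒪 P]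
variable {n : ℕ} {ε : P →ₐ[𝒪] 𝒪} {y : Fin n → P} {ϖ : 𝒪}

/-- If the cotangent space of the complete intersection `(a y)` has finite length then
`ε (det a) ≠ 0`. -/
theorem IsAmbient.eps_det_ne_zero (h : IsAmbient ε y ϖ) (a : Matrix (Fin n) (Fin n) P)
    (hfin : Module.length 𝒪 ((Fin n → 𝒪) ⧸ relLattice 𝒪 y (span (Set.range (a *ᵥ y)))) ≠ ⊤) :
    ε a.det ≠ 0 := by
  obtain ⟨B₀, hB, hBdet, -, -⟩ := exists_matrix_of_length_ne_top _ hfin
  have hc : ∀ k, ∃ c : Fin n → 𝒪, B₀ k = c ᵥ* a.map ε := fun k =>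
    (h.mem_relLattice_span_iff a _).mp (hB k)
  choose c hc using hc
  have hBC : B₀ = Matrix.of c * a.map ε := by
    ext k j
    rw [show B₀ k j = (B₀ k) j from rfl, hc k]
    rfl
  rw [IsAmbient.eps_det]
  intro h0
  apply hBdet
  rw [hBC, det_mul, h0, mul_zero]

variable {T : Type w} [CommRing T] [IsLocalRing T] [Algebra 𝒪 T] [Module.Finite 𝒪 T]
  [Module.IsTorsionFree 𝒪 T]

/-- **Tate's formula for abstract complete intersections**: if `T` is a complete intersection,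
finite and torsion free over `𝒪`, whose cotangent space at the augmentation `π` has finite length,
then `length Φ_T = length 𝒪 ⧸ η_T` and `T` is Gorenstein at `π`. -/
theorem length_cotangent_of_isCI (hCI : IsCI 𝒪 T) (π : T →ₐ[𝒪] 𝒪) {ϖ : 𝒪} (hϖ : Irreducible ϖ)
    (hfin : Module.length 𝒪 (RingHom.ker (π : T →+* 𝒪)).Cotangent ≠ ⊤) :
    Module.length 𝒪 (RingHom.ker (π : T →+* 𝒪)).Cotangent = Module.length 𝒪 (𝒪 ⧸ congIdeal π) ∧
      ∃ e₀ : T, GorAug π ϖ e₀ := by
  obtain ⟨n, ψ, f, hψ, hker⟩ := hCI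
  set ε : MvPowerSeries (Fin n) 𝒪 →ₐ[𝒪] 𝒪 := π.comp ψ with hε
  have h : IsAmbient ε (shiftX ε) ϖ := isAmbient_mvPowerSeries ε hϖ
  have hεT : ∀ p, π (ψ p) = ε p := fun p => rfl
  have hfk : ∀ k, ε (f k) = 0 := by
    intro k
    have : f k ∈ RingHom.ker (ψ : MvPowerSeries (Fin n) 𝒪 →+* T) := by
      rw [hker]; exact subset_span ⟨k, rfl⟩
    rw [← hεT, show ψ (f k) = 0 from this, map_zero]
  have ha : ∀ k, ∃ c : Fin n → MvPowerSeries (Fin n) 𝒪, f k = ∑ i, c i * shiftX ε i := fun k =>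
    h.exists_eq_sum_of_eps_eq_zero (hfk k)
  choose a ha using ha
  have hfa : f = (Matrix.of a) *ᵥ shiftX ε := by
    funext k
    rw [ha k]
    rfl
  rw [hfa] at hker
  have hprim : MPrimary (span (Set.range ((Matrix.of a) *ᵥ shiftX ε)) ⊔
      span {algebraMap 𝒪 (MvPowerSeries (Fin n) 𝒪) ϖ}) := by
    rw [← hker]; exact mPrimary_ker_sup ψ hψ hϖ
  have hlenT := h.length_cotangent ψ hψ π hεT
  have hη := h.congIdeal_eq_etaIdeal ψ hψ π hεT
  rw [hlenT, hker] at hfin
  have hdet := h.eps_det_ne_zero (Matrix.of a) hfin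
  refine ⟨?_, ψ (Matrix.of a).det, h.gorAug ψ hψ π hεT (Matrix.of a) hker hprim hdet⟩
  rw [hlenT, hη, hker]
  exact (h.length_eq_of_span (Matrix.of a) hprim hdet).1

end Converse

end Fermat.Agent.S59lib.NumCrit
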