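import Fermat.Agent.S59lib.NumCrit.Gor
import Fermat.Agent.S59lib.NumCrit.Len

/-!
# Project I / N1 : Diamond's module version of the numerical criterion (module side)

`T` is an augmented `𝒪`-algebra (`π : T → 𝒪`), `M` a `T`-module, finite and torsion free over the
discrete valuation ring `𝒪`.

* `augTorsion π M = M[𝔭]`, `annTorsion π M = M[Ann 𝔭]`, `congModule π M = M ⧸ (M[𝔭] + M[Ann 𝔭])`.
* `exists_ann_gen` : if `η_T ≠ 0` then `Ann 𝔭 = 𝒪 e`.
* `length_congModule_le` : `length Ω ≤ rank (M[𝔭]) • length (𝒪 ⧸ (π e))`.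
* `length_congModule_of_surjective` : equality if `e M = M[𝔭]`, e.g. if `M` is free over `T`
  (`smul_surjective_of_basis`).
* `GorAug.exists_basis` : if `T` is Gorenstein at `π`, `e₀ M = M[𝔭]` and
  `rank_𝒪 M ≤ d • rank_𝒪 T`, then `M` is free of rank `d` over `T`.
-/

set_option linter.unusedSectionVars false

namespace Fermat.Agent.S59lib.NumCrit

open Ideal IsLocalRing Module

universe v w x

section Defs

variable {𝒪 : Type v} [CommRing 𝒪] {T : Type w} [CommRing T] [Algebra 𝒪 T]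
variable (π : T →ₐ[𝒪] 𝒪) (M : Type x) [AddCommGroup M] [Module 𝒪 M] [Module T M]
  [IsScalarTower 𝒪 T M]

/-- `M[𝔭]`, the submodule killed by the augmentation ideal. -/
def augTorsion : Submodule 𝒪 M where
  carrier := {m | ∀ x : T, π x = 0 → x • m = 0}
  add_mem' := by
    intro a b ha hb x hx
    rw [smul_add, ha x hx, hb x hx, add_zero]
  zero_mem' := by intro x _; exact smul_zero x
  smul_mem' := by
    intro c a ha x hx
    rw [smul_comm, ha x hx, smul_zero]

/-- `M[Ann 𝔭]`, the submodule killed by the annihilator of the augmentation ideal. -/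
def annTorsion : Submodule 𝒪 M where
  carrier := {m | ∀ t : T, (∀ x : T, π x = 0 → t * x = 0) → t • m = 0}
  add_mem' := by
    intro a b ha hb t ht
    rw [smul_add, ha t ht, hb t ht, add_zero]
  zero_mem' := by intro t _; exact smul_zero t
  smul_mem' := by
    intro c a ha t ht
    rw [smul_comm, ha t ht, smul_zero]

variable {π M}

theorem mem_augTorsion {m : M} : m ∈ augTorsion π M ↔ ∀ x : T, π x = 0 → x • m = 0 := Iff.rfl

theorem mem_annTorsion {m : M} :
    m ∈ annTorsion π M ↔ ∀ t : T, (∀ x : T, π x = 0 → t * x = 0) → t • m = 0 := Iff.rfl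

variable (π M)

/-- The congruence module `Ω = M ⧸ (M[𝔭] + M[Ann 𝔭])`. -/
abbrev congModule : Type x := M ⧸ (augTorsion π M ⊔ annTorsion π M)

end Defs

section AnnGen

variable {𝒪 : Type v} [CommRing 𝒪] [IsDomain 𝒪] [IsDiscreteValuationRing 𝒪]
variable {T : Type w} [CommRing T] [Algebra 𝒪 T] [Module.IsTorsionFree 𝒪 T]

/-- `e` generates the annihilator of the augmentation ideal as an `𝒪`-module and `π e ≠ 0`. -/
structure IsAnnGen (π : T →ₐ[𝒪] 𝒪) (e : T) : Prop where
  mul_eq_zero : ∀ x : T, π x = 0 → e * x = 0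
  gen : ∀ t : T, (∀ x : T, π x = 0 → t * x = 0) → ∃ c : 𝒪, t = c • e
  aug_ne : π e ≠ 0

omit [IsDiscreteValuationRing 𝒪] [Module.IsTorsionFree 𝒪 T] in
theorem IsAnnGen.congIdeal_eq {π : T →ₐ[𝒪] 𝒪} {e : T} (h : IsAnnGen π e) :
    congIdeal π = span {π e} := by
  ext c
  rw [mem_congIdeal, mem_span_singleton']
  constructor
  · rintro ⟨t, ht, rfl⟩
    obtain ⟨c, rfl⟩ := h.gen t ht
    exact ⟨c, by rw [map_smul, smul_eq_mul]⟩
  · rintro ⟨a, rfl⟩
    refine ⟨a • e, fun x hx => ?_, by rw [map_smul, smul_eq_mul]⟩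
    rw [smul_mul_assoc, h.mul_eq_zero x hx, smul_zero]

omit [IsDiscreteValuationRing 𝒪] in
/-- The annihilator of the augmentation ideal meets the augmentation ideal trivially as soon as
some element of it has a nonzero augmentation. -/
theorem eq_zero_of_ann_of_aug {π : T →ₐ[𝒪] 𝒪} {e : T} (he : ∀ x : T, π x = 0 → e * x = 0)
    (hπe : π e ≠ 0) {x : T} (hx : ∀ z : T, π z = 0 → x * z = 0) (hπx : π x = 0) : x = 0 := by
  have h1 : e * x = 0 := he x hπx
  have h2 : x * (e - algebraMap 𝒪 T (π e)) = 0 :=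
    hx _ (by rw [map_sub, AlgHom.commutes, Algebra.algebraMap_self_apply, sub_self])
  have h3 : (π e) • x = 0 := by
    rw [Algebra.smul_def]
    have : algebraMap 𝒪 T (π e) * x = e * x - x * (e - algebraMap 𝒪 T (π e)) := by ring
    rw [this, h1, h2, sub_zero]
  exact (smul_eq_zero_iff_right hπe).mp h3

/-- If the congruence ideal is nonzero, the annihilator of the augmentation ideal is free of rank
one over `𝒪`. -/
theorem exists_isAnnGen (π : T →ₐ[𝒪] 𝒪) (hη : congIdeal π ≠ ⊥) : ∃ e : T, IsAnnGen π e := by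
  obtain ⟨g, hg⟩ := (IsPrincipalIdealRing.principal (congIdeal π)).principal
  have hg' : congIdeal π = span {g} := hg
  have hgmem : g ∈ congIdeal π := by rw [hg']; exact mem_span_singleton_self g
  obtain ⟨e, he, hπe⟩ := mem_congIdeal.mp hgmem
  have hg0 : g ≠ 0 := by
    intro h0
    apply hη
    rw [hg', h0]
    exact Ideal.span_singleton_eq_bot.mpr rfl
  have he' : ∀ x : T, π x = 0 → e * x = 0 := he
  refine ⟨e, he', ?_, by rw [hπe]; exact hg0⟩
  intro t ht
  have hmem : π t ∈ congIdeal π := mem_congIdeal.mpr ⟨t, ht, rfl⟩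
  rw [hg', mem_span_singleton'] at hmem
  obtain ⟨c, hc⟩ := hmem
  refine ⟨c, ?_⟩
  have hz : ∀ z : T, π z = 0 → (t - c • e) * z = 0 := by
    intro z hz
    rw [sub_mul, ht z hz, smul_mul_assoc, he z hz, smul_zero, sub_zero]
  have hπ0 : π (t - c • e) = 0 := by
    rw [map_sub, map_smul, smul_eq_mul, hπe, hc, sub_self]
  have := eq_zero_of_ann_of_aug he' (by rw [hπe]; exact hg0) hz hπ0
  exact sub_eq_zero.mp this

end AnnGen

section FreeLen

variable {𝒪 : Type v} [CommRing 𝒪] [IsDomain 𝒪] [IsDiscreteValuationRing 𝒪]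
variable (X : Type x) [AddCommGroup X] [Module 𝒪 X] [Module.Finite 𝒪 X] [Module.Free 𝒪 X]

/-- `length (X ⧸ c X) = rank X • length (𝒪 ⧸ (c))` for a finite free module `X`. -/
theorem length_quotient_range_lsmul (c : 𝒪) :
    Module.length 𝒪 (X ⧸ LinearMap.range (LinearMap.lsmul 𝒪 X c)) =
      Module.finrank 𝒪 X • Module.length 𝒪 (𝒪 ⧸ (span {c} : Ideal 𝒪)) := by
  classical
  set d := Module.finrank 𝒪 X with hd
  let b : Module.Basis (Fin d) 𝒪 X := Module.finBasis 𝒪 X
  let p : Fin d → Submodule 𝒪 𝒪 := fun _ => (span {c} : Ideal 𝒪)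
  have hmap : (LinearMap.range (LinearMap.lsmul 𝒪 X c)).map
      (b.equivFun : X →ₗ[𝒪] (Fin d → 𝒪)) = Submodule.pi Set.univ p := by
    ext v
    rw [Submodule.mem_map, Submodule.mem_pi]
    constructor
    · rintro ⟨_, ⟨z, rfl⟩, rfl⟩ i _
      show b.equivFun (c • z) i ∈ span {c}
      rw [map_smul, Pi.smul_apply, smul_eq_mul]
      exact mem_span_singleton'.mpr ⟨_, mul_comm _ _⟩
    · intro hv
      have hw : ∀ i, ∃ w, w * c = v i := fun i => mem_span_singleton'.mp (hv i (Set.mem_univ i))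
      choose w hw using hw
      refine ⟨c • b.equivFun.symm w, ⟨b.equivFun.symm w, rfl⟩, ?_⟩
      show b.equivFun (c • b.equivFun.symm w) = v
      rw [map_smul, LinearEquiv.apply_symm_apply]
      funext i
      rw [Pi.smul_apply, smul_eq_mul, mul_comm, hw]
  rw [(Submodule.Quotient.equiv _ (Submodule.pi Set.univ p) b.equivFun hmap).length_eq,
    (Submodule.quotientPi p).length_eq, Module.length_pi_of_fintype]
  show ∑ _i : Fin d, Module.length 𝒪 (𝒪 ⧸ (span {c} : Ideal 𝒪)) = _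
  rw [Finset.sum_const, Finset.card_univ, Fintype.card_fin]

end FreeLen

section Embed

variable {𝒪 : Type v} [CommRing 𝒪] [IsDomain 𝒪] [IsDiscreteValuationRing 𝒪]
variable {T : Type w} [CommRing T] [Algebra 𝒪 T]
variable {π : T →ₐ[𝒪] 𝒪} {e : T}
variable {M : Type x} [AddCommGroup M] [Module 𝒪 M] [Module T M] [IsScalarTower 𝒪 T M]

/-- Multiplication by `e`, as a map `M → M[𝔭]`. -/
def smulAug (he : ∀ x : T, π x = 0 → e * x = 0) : M →ₗ[𝒪] augTorsion π M where
  toFun m := ⟨e • m, fun x hx => by rw [smul_smul, mul_comm, he x hx, zero_smul]⟩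
  map_add' a b := by
    apply Subtype.ext
    show e • (a + b) = e • a + e • b
    exact smul_add _ _ _
  map_smul' c a := by
    apply Subtype.ext
    show e • (c • a) = c • (e • a)
    exact smul_comm _ _ _

@[simp] theorem coe_smulAug (he : ∀ x : T, π x = 0 → e * x = 0) (m : M) :
    ((smulAug (M := M) he m : augTorsion π M) : M) = e • m := rfl

omit [IsDomain 𝒪] [IsDiscreteValuationRing 𝒪] in
/-- On `M[𝔭]`, `e` acts as the scalar `π e`. -/
theorem smul_eq_of_mem_augTorsion {m : M} (hm : m ∈ augTorsion π M) (t : T) :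
    t • m = (π t) • m := by
  have h1 : (t - algebraMap 𝒪 T (π t)) • m = 0 :=
    hm _ (by rw [map_sub, AlgHom.commutes, Algebra.algebraMap_self_apply, sub_self])
  rw [sub_smul, sub_eq_zero, algebraMap_smul] at h1
  exact h1

omit [IsDomain 𝒪] [IsDiscreteValuationRing 𝒪] in
theorem mem_annTorsion_iff (h : IsAnnGen π e) {m : M} : m ∈ annTorsion π M ↔ e • m = 0 := by
  constructor
  · intro hm
    exact hm e (fun x hx => h.mul_eq_zero x hx)
  · intro hm t ht
    obtain ⟨c, rfl⟩ := h.gen t ht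
    rw [smul_assoc, hm, smul_zero]

/-- The map `M → M[𝔭] ⧸ (π e) M[𝔭]` induced by `e`. -/
def smulAugBar (he : ∀ x : T, π x = 0 → e * x = 0) :
    M →ₗ[𝒪] (augTorsion π M ⧸ LinearMap.range (LinearMap.lsmul 𝒪 (augTorsion π M) (π e))) :=
  (Submodule.mkQ _) ∘ₗ smulAug he

omit [IsDomain 𝒪] [IsDiscreteValuationRing 𝒪] in
theorem ker_smulAugBar (h : IsAnnGen π e) :
    LinearMap.ker (smulAugBar (M := M) h.mul_eq_zero) = augTorsion π M ⊔ annTorsion π M := by
  ext m
  rw [LinearMap.mem_ker, smulAugBar, LinearMap.comp_apply, Submodule.mkQ_apply,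
    Submodule.Quotient.mk_eq_zero, LinearMap.mem_range]
  constructor
  · rintro ⟨⟨m', hm'⟩, hmm⟩
    have h1 : (π e) • m' = e • m := congrArg Subtype.val hmm
    have h2 : e • (m - m') = 0 := by
      rw [smul_sub, smul_eq_of_mem_augTorsion hm' e, h1, sub_self]
    have h3 : m - m' ∈ annTorsion π M := (mem_annTorsion_iff h).mpr h2
    have : m = m' + (m - m') := by abel
    rw [this]
    exact Submodule.add_mem_sup hm' h3
  · intro hm
    obtain ⟨m₁, hm₁, m₂, hm₂, rfl⟩ := Submodule.mem_sup.mp hm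
    refine ⟨⟨m₁, hm₁⟩, ?_⟩
    apply Subtype.ext
    show (π e) • m₁ = e • (m₁ + m₂)
    rw [smul_add, (mem_annTorsion_iff h).mp hm₂, add_zero, smul_eq_of_mem_augTorsion hm₁ e]

/-- The embedding `Ω ↪ M[𝔭] ⧸ (π e) M[𝔭]`. -/
def congEmbed (h : IsAnnGen π e) : congModule π M →ₗ[𝒪]
    (augTorsion π M ⧸ LinearMap.range (LinearMap.lsmul 𝒪 (augTorsion π M) (π e))) :=
  Submodule.liftQ _ (smulAugBar h.mul_eq_zero) (ker_smulAugBar h).ge

omit [IsDomain 𝒪] [IsDiscreteValuationRing 𝒪] in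
theorem congEmbed_injective (h : IsAnnGen π e) : Function.Injective (congEmbed (M := M) h) := by
  rw [← LinearMap.ker_eq_bot, congEmbed, Submodule.ker_liftQ_eq_bot]
  exact (ker_smulAugBar h).le

omit [IsDomain 𝒪] [IsDiscreteValuationRing 𝒪] in
theorem range_congEmbed (h : IsAnnGen π e) :
    LinearMap.range (congEmbed (M := M) h) = LinearMap.range (smulAugBar (M := M) h.mul_eq_zero) := by
  rw [congEmbed, Submodule.range_liftQ]

/-- **`length Ω ≤ rank (M[𝔭]) • length (𝒪 ⧸ (π e))`.** -/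
theorem length_congModule_le [Module.Finite 𝒪 M] [Module.IsTorsionFree 𝒪 M] (h : IsAnnGen π e) :
    Module.length 𝒪 (congModule π M) ≤
      Module.finrank 𝒪 (augTorsion π M) • Module.length 𝒪 (𝒪 ⧸ (span {π e} : Ideal 𝒪)) := by
  have : IsNoetherian 𝒪 M := isNoetherian_of_isNoetherianRing_of_finite 𝒪 M
  have : Module.Free 𝒪 (augTorsion π M) := Module.free_of_finite_type_torsion_free'
  rw [← length_quotient_range_lsmul (augTorsion π M) (π e)]
  exact Module.length_le_of_injective _ (congEmbed_injective h)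

end Embed

section Equality

variable {𝒪 : Type v} [CommRing 𝒪] [IsDomain 𝒪] [IsDiscreteValuationRing 𝒪]
variable {T : Type w} [CommRing T] [Algebra 𝒪 T]
variable {π : T →ₐ[𝒪] 𝒪} {e : T}
variable {M : Type x} [AddCommGroup M] [Module 𝒪 M] [Module T M] [IsScalarTower 𝒪 T M]
  [Module.Finite 𝒪 M] [Module.IsTorsionFree 𝒪 M]

/-- If `e M = M[𝔭]` then `length Ω = rank (M[𝔭]) • length (𝒪 ⧸ (π e))`. -/
theorem length_congModule_of_surjective (h : IsAnnGen π e)
    (hsurj : ∀ m ∈ augTorsion π M, ∃ m' : M, e • m' = m) :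
    Module.length 𝒪 (congModule π M) =
      Module.finrank 𝒪 (augTorsion π M) • Module.length 𝒪 (𝒪 ⧸ (span {π e} : Ideal 𝒪)) := by
  have : IsNoetherian 𝒪 M := isNoetherian_of_isNoetherianRing_of_finite 𝒪 M
  have : Module.Free 𝒪 (augTorsion π M) := Module.free_of_finite_type_torsion_free'
  rw [← length_quotient_range_lsmul (augTorsion π M) (π e)]
  have hs : Function.Surjective (congEmbed (M := M) h) := by
    rw [← LinearMap.range_eq_top, range_congEmbed, LinearMap.range_eq_top]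
    intro z
    obtain ⟨⟨m, hm⟩, rfl⟩ := Submodule.Quotient.mk_surjective _ z
    obtain ⟨m', hm'⟩ := hsurj m hm
    refine ⟨m', ?_⟩
    rw [smulAugBar, LinearMap.comp_apply, Submodule.mkQ_apply]
    congr 1
    exact Subtype.ext hm'
  exact (LinearEquiv.ofBijective _ ⟨congEmbed_injective h, hs⟩).length_eq

/-- Conversely, if `length Ω = rank (M[𝔭]) • length (𝒪 ⧸ (π e))` is finite then `e M = M[𝔭]`. -/
theorem smul_surjective_of_length_eq (h : IsAnnGen π e)
    (hlen : Module.length 𝒪 (congModule π M) =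
      Module.finrank 𝒪 (augTorsion π M) • Module.length 𝒪 (𝒪 ⧸ (span {π e} : Ideal 𝒪)))
    (hfin : Module.length 𝒪 (congModule π M) ≠ ⊤) :
    ∀ m ∈ augTorsion π M, ∃ m' : M, e • m' = m := by
  have : IsNoetherian 𝒪 M := isNoetherian_of_isNoetherianRing_of_finite 𝒪 M
  have : Module.Free 𝒪 (augTorsion π M) := Module.free_of_finite_type_torsion_free'
  rw [← length_quotient_range_lsmul (augTorsion π M) (π e)] at hlen
  set Y := augTorsion π M ⧸ LinearMap.range (LinearMap.lsmul 𝒪 (augTorsion π M) (π e)) with hY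
  set S : Submodule 𝒪 Y := LinearMap.range (congEmbed (M := M) h) with hS
  have h1 : Module.length 𝒪 S = Module.length 𝒪 (congModule π M) :=
    (LinearEquiv.ofInjective _ (congEmbed_injective h)).length_eq.symm
  have h2 := Module.length_eq_add_of_exact S.subtype S.mkQ (Submodule.subtype_injective _)
    (Submodule.mkQ_surjective _) (LinearMap.exact_subtype_mkQ S)
  have h3 : Module.length 𝒪 (Y ⧸ S) = 0 := by
    rw [h1, ← hlen] at h2
    have h4 : Module.length 𝒪 (Y ⧸ S) + Module.length 𝒪 (congModule π M) =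
        0 + Module.length 𝒪 (congModule π M) := by
      rw [zero_add, add_comm]; exact h2.symm
    exact ENat.add_left_injective_of_ne_top hfin h4
  rw [Module.length_eq_zero_iff, Submodule.Quotient.subsingleton_iff] at h3
  intro m hm
  have hmS : (Submodule.Quotient.mk ⟨m, hm⟩ : Y) ∈ S := by rw [h3]; trivial
  rw [hS, range_congEmbed] at hmS
  obtain ⟨m₁, hm₁⟩ := hmS
  rw [smulAugBar, LinearMap.comp_apply, Submodule.mkQ_apply, Submodule.Quotient.eq] at hm₁
  obtain ⟨⟨m₂, hm₂⟩, hm₂'⟩ := hm₁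
  have h5 : (π e) • m₂ = e • m₁ - m := congrArg Subtype.val hm₂'
  refine ⟨m₁ - m₂, ?_⟩
  rw [smul_sub, smul_eq_of_mem_augTorsion hm₂ e, h5]
  abel

end Equality

section FreeCase

variable {𝒪 : Type v} [CommRing 𝒪] [IsDomain 𝒪] [IsDiscreteValuationRing 𝒪]
variable {T : Type w} [CommRing T] [Algebra 𝒪 T] [Module.IsTorsionFree 𝒪 T]
variable {π : T →ₐ[𝒪] 𝒪} {e : T}
variable {M : Type x} [AddCommGroup M] [Module 𝒪 M] [Module T M] [IsScalarTower 𝒪 T M]
variable {ι : Type*} [Fintype ι]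

omit [IsDomain 𝒪] [IsDiscreteValuationRing 𝒪] [Module.IsTorsionFree 𝒪 T] in
/-- If `M` is free over `T` then `e M = M[𝔭]`. -/
theorem smul_surjective_of_basis (h : IsAnnGen π e) (b : Module.Basis ι T M) :
    ∀ m ∈ augTorsion π M, ∃ c : ι → 𝒪, e • (∑ i, c i • b i) = m := by
  intro m hm
  have hrep : ∀ i, ∃ c : 𝒪, b.repr m i = c • e := by
    intro i
    apply h.gen
    intro x hx
    have : x • m = 0 := hm x hx
    have h2 := congrArg (fun f => f i) (congrArg b.repr this)
    simp only [map_smul, Finsupp.smul_apply, smul_eq_mul, map_zero, Finsupp.zero_apply] at h2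
    rw [mul_comm]; exact h2
  choose c hc using hrep
  refine ⟨c, ?_⟩
  conv_rhs => rw [← b.sum_repr m]
  rw [Finset.smul_sum]
  refine Finset.sum_congr rfl (fun i _ => ?_)
  rw [hc i, smul_comm, smul_assoc]

omit [IsDiscreteValuationRing 𝒪] in
/-- If `M` is free of rank `#ι` over `T` then `M[𝔭]` is free of rank `#ι` over `𝒪`. -/
theorem finrank_augTorsion_of_basis (h : IsAnnGen π e) (b : Module.Basis ι T M) :
    Module.finrank 𝒪 (augTorsion π M) = Fintype.card ι := by
  classical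
  let f : (ι → 𝒪) →ₗ[𝒪] augTorsion π M :=
    smulAug h.mul_eq_zero ∘ₗ Fintype.linearCombination 𝒪 (fun i => b i)
  have hf : ∀ c : ι → 𝒪, ((f c : augTorsion π M) : M) = e • ∑ i, c i • b i := by
    intro c
    show e • (Fintype.linearCombination 𝒪 (fun i => b i) c) = _
    rw [Fintype.linearCombination_apply]
  have hinj : Function.Injective f := by
    rw [← LinearMap.ker_eq_bot, LinearMap.ker_eq_bot']
    intro c hc
    have h1 : e • ∑ i, c i • b i = 0 := by rw [← hf, hc]; rfl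
    have h2 : ∑ i, (c i • e) • b i = 0 := by
      rw [← h1, Finset.smul_sum]
      exact Finset.sum_congr rfl (fun i _ => by rw [smul_comm, smul_assoc])
    have h3 := (Fintype.linearIndependent_iff.mp b.linearIndependent) (fun i => c i • e) h2
    funext i
    have he0 : e ≠ 0 := fun h0 => h.aug_ne (by rw [h0, map_zero])
    exact (smul_eq_zero_iff_left he0).mp (h3 i)
  have hsurj : Function.Surjective f := by
    rintro ⟨m, hm⟩
    obtain ⟨c, hc⟩ := smul_surjective_of_basis h b m hm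
    exact ⟨c, Subtype.ext (by rw [hf, hc])⟩
  rw [← (LinearEquiv.ofBijective f ⟨hinj, hsurj⟩).finrank_eq, Module.finrank_fintype_fun_eq_card]

end FreeCase

section Freeness

variable {𝒪 : Type v} [CommRing 𝒪] [IsDomain 𝒪] [IsDiscreteValuationRing 𝒪]
variable {T : Type w} [CommRing T] [IsLocalRing T] [Algebra 𝒪 T]
variable {π : T →ₐ[𝒪] 𝒪} {ϖ : 𝒪} {e₀ : T}

omit [IsDomain 𝒪] [IsDiscreteValuationRing 𝒪] in
theorem GorAug.isAnnGen (hG : GorAug π ϖ e₀) : IsAnnGen π e₀ :=
  ⟨fun x hx => by rw [mul_comm]; exact hG.mul_eq_zero x hx, hG.ann, hG.aug_ne⟩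

omit [IsDomain 𝒪] [IsDiscreteValuationRing 𝒪] in
/-- Every vector of `T^d` outside `ϖ T^d` can be multiplied into the socle. -/
theorem GorAug.exists_socle {d : ℕ} (hG : GorAug π ϖ e₀) (x : Fin d → T)
    (hx : ¬ ∃ z : Fin d → T, ∀ i, x i = ϖ • z i) :
    ∃ (t : T) (c : Fin d → 𝒪) (z : Fin d → T), (∀ i, t * x i = c i • e₀ + ϖ • z i) ∧
      ¬ ∀ i, ∃ c' : 𝒪, c i = ϖ * c' := by
  obtain ⟨N, hN⟩ := hG.nilp
  -- `Bad u` : `u • x ∈ ϖ T^d`
  have hbadN : ∀ u ∈ maximalIdeal T ^ N, ∃ z : Fin d → T, ∀ i, u * x i = ϖ • z i := by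
    intro u hu
    obtain ⟨w, rfl⟩ := hN u hu
    exact ⟨fun i => w * x i, fun i => by rw [smul_mul_assoc]⟩
  have hex : ∃ t : T, (¬ ∃ z : Fin d → T, ∀ i, t * x i = ϖ • z i) ∧
      ∀ m ∈ maximalIdeal T, ∃ z : Fin d → T, ∀ i, (m * t) * x i = ϖ • z i := by
    by_contra hcon
    have hstep : ∀ t : T, (¬ ∃ z : Fin d → T, ∀ i, t * x i = ϖ • z i) →
        ∃ m ∈ maximalIdeal T, ¬ ∃ z : Fin d → T, ∀ i, (m * t) * x i = ϖ • z i := by
      intro t ht
      by_contra h'
      exact hcon ⟨t, ht, fun m hm => by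
        by_contra hb
        exact h' ⟨m, hm, hb⟩⟩
    have key : ∀ k : ℕ, ∃ t ∈ maximalIdeal T ^ k, ¬ ∃ z : Fin d → T, ∀ i, t * x i = ϖ • z i := by
      intro k
      induction k with
      | zero =>
        refine ⟨1, by simp, ?_⟩
        simpa using hx
      | succ k ih =>
        obtain ⟨t, htk, ht⟩ := ih
        obtain ⟨m, hm, hmt⟩ := hstep t ht
        refine ⟨m * t, ?_, hmt⟩
        rw [pow_succ, mul_comm m t]
        exact Ideal.mul_mem_mul htk hm
    obtain ⟨t, htN, ht⟩ := key N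
    exact ht (hbadN t htN)
  obtain ⟨t, ht, htsoc⟩ := hex
  have hc : ∀ i, ∃ (c : 𝒪) (z : T), t * x i = c • e₀ + ϖ • z := by
    intro i
    apply hG.soc
    intro m hm
    obtain ⟨z, hz⟩ := htsoc m hm
    exact ⟨z i, by rw [← mul_assoc]; exact hz i⟩
  choose c z hcz using hc
  refine ⟨t, c, z, hcz, ?_⟩
  intro hdiv
  choose c' hc' using hdiv
  apply ht
  refine ⟨fun i => c' i • e₀ + z i, fun i => ?_⟩
  rw [hcz i, hc' i, smul_add, mul_smul]

variable {M : Type x} [AddCommGroup M] [Module 𝒪 M] [Module T M] [IsScalarTower 𝒪 T M]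
  [Module.Finite 𝒪 M] [Module.IsTorsionFree 𝒪 M]

omit [IsLocalRing T] [Module.Finite 𝒪 M] [IsDiscreteValuationRing 𝒪] in
/-- `M[𝔭]` is saturated in `M`. -/
theorem mem_augTorsion_of_smul_mem {c : 𝒪} (hc : c ≠ 0) {m : M} (hm : c • m ∈ augTorsion π M) :
    m ∈ augTorsion π M := by
  intro x hx
  have := hm x hx
  rw [smul_comm] at this
  exact (smul_eq_zero_iff_right hc).mp this

/-- **Freeness.**  If `T` is Gorenstein at the augmentation `π` (socle generator `e₀`),
`e₀ M = M[𝔭]`, and `rank_𝒪 M ≤ rank_𝒪 (M[𝔭]) • rank_𝒪 T`, then `M` is free over `T` of rank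
`rank_𝒪 (M[𝔭])`. -/
theorem GorAug.exists_basis [Module.Finite 𝒪 T] [Module.IsTorsionFree 𝒪 T]
    (hG : GorAug π ϖ e₀) (hsurj : ∀ m ∈ augTorsion π M, ∃ m' : M, e₀ • m' = m)
    (hrank : Module.finrank 𝒪 M ≤ Module.finrank 𝒪 (augTorsion π M) * Module.finrank 𝒪 T) :
    Nonempty (Module.Basis (Fin (Module.finrank 𝒪 (augTorsion π M))) T M) := by
  classical
  have : IsNoetherian 𝒪 M := isNoetherian_of_isNoetherianRing_of_finite 𝒪 M
  have : Module.Free 𝒪 (augTorsion π M) := Module.free_of_finite_type_torsion_free'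
  have : Module.Free 𝒪 T := Module.free_of_finite_type_torsion_free'
  set d := Module.finrank 𝒪 (augTorsion π M) with hd
  let β : Module.Basis (Fin d) 𝒪 (augTorsion π M) := Module.finBasis 𝒪 _
  have hm : ∀ i, ∃ m' : M, e₀ • m' = ((β i : augTorsion π M) : M) := fun i => hsurj _ (β i).2
  choose m hm using hm
  let Ψ : (Fin d → T) →ₗ[T] M := Fintype.linearCombination T m
  have hΨ : ∀ x, Ψ x = ∑ i, x i • m i := fun x => Fintype.linearCombination_apply T m x
  have hΨ𝒪 : ∀ (c : 𝒪) (z : Fin d → T), Ψ (c • z) = c • Ψ z := by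
    intro c z
    rw [hΨ, hΨ, Finset.smul_sum]
    exact Finset.sum_congr rfl (fun i _ => by rw [Pi.smul_apply, smul_assoc])
  have hϖ0 : ϖ ≠ 0 := hG.irr.ne_zero
  -- saturation of the basis of `M[𝔭]`
  have hsat : ∀ (c : Fin d → 𝒪) (m' : M), ∑ i, c i • ((β i : augTorsion π M) : M) = ϖ • m' →
      ∀ i, ∃ c' : 𝒪, c i = ϖ * c' := by
    intro c m' hcm
    have hm'aug : m' ∈ augTorsion π M := by
      apply mem_augTorsion_of_smul_mem hϖ0
      rw [← hcm]
      exact Submodule.sum_mem _ (fun i _ => Submodule.smul_mem _ _ (β i).2)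
    have h1 : ∑ i, c i • β i = ϖ • (⟨m', hm'aug⟩ : augTorsion π M) := by
      apply Subtype.ext
      rw [Submodule.coe_sum]
      exact hcm
    intro i
    have h2 := congrArg (fun v => β.repr v i) h1
    simp only [β.repr_sum_self, map_smul, Finsupp.smul_apply, smul_eq_mul] at h2
    exact ⟨_, h2⟩
  -- the key lemma: `Ψ x ∈ ϖ M → x ∈ ϖ T^d`
  have hK : ∀ (x : Fin d → T) (m' : M), Ψ x = ϖ • m' → ∃ z : Fin d → T, ∀ i, x i = ϖ • z i := by
    intro x m' hxm
    by_contra hx
    obtain ⟨t, c, z, htx, hc⟩ := hG.exists_socle x hx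
    apply hc
    apply hsat c (t • m' - Ψ z)
    have h1 : t • Ψ x = ∑ i, (c i • e₀ + ϖ • z i) • m i := by
      rw [hΨ, Finset.smul_sum]
      exact Finset.sum_congr rfl (fun i _ => by rw [smul_smul, htx i])
    have h2 : ∑ i, (c i • e₀ + ϖ • z i) • m i =
        ∑ i, c i • ((β i : augTorsion π M) : M) + ϖ • Ψ z := by
      rw [hΨ, Finset.smul_sum, ← Finset.sum_add_distrib]
      refine Finset.sum_congr rfl (fun i _ => ?_)
      rw [add_smul, smul_assoc, hm i, smul_assoc]
    rw [smul_sub, smul_comm ϖ t m', ← hxm, h1, h2]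
    abel
  -- injectivity
  have hinj : Function.Injective Ψ := by
    rw [← LinearMap.ker_eq_bot, LinearMap.ker_eq_bot']
    intro x hx
    have key : ∀ k : ℕ, ∃ z : Fin d → T, x = ϖ ^ k • z ∧ Ψ z = 0 := by
      intro k
      induction k with
      | zero => exact ⟨x, by simp, hx⟩
      | succ k ih =>
        obtain ⟨z, hz, hΨz⟩ := ih
        obtain ⟨z', hz'⟩ := hK z 0 (by rw [hΨz, smul_zero])
        have hzz' : z = ϖ • z' := funext hz'
        refine ⟨z', by rw [hz, hzz', smul_smul, pow_succ], ?_⟩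
        have h3 : ϖ • Ψ z' = 0 := by rw [← hΨ𝒪, ← hzz', hΨz]
        exact (smul_eq_zero_iff_right hϖ0).mp h3
    have hne : (span {ϖ} : Ideal 𝒪) ≠ ⊤ := by
      rw [Ne, Ideal.span_singleton_eq_top]
      exact hG.irr.not_isUnit
    have hkrull := Ideal.iInf_pow_smul_eq_bot_of_isLocalRing (M := Fin d → T) (span {ϖ} : Ideal 𝒪) hne
    have hxmem : x ∈ ⨅ i : ℕ, (span {ϖ} : Ideal 𝒪) ^ i • (⊤ : Submodule 𝒪 (Fin d → T)) := by
      rw [Submodule.mem_iInf]
      intro k
      obtain ⟨z, hz, -⟩ := key k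
      rw [hz]
      exact Submodule.smul_mem_smul (Ideal.pow_mem_pow (mem_span_singleton_self ϖ) k)
        Submodule.mem_top
    rw [hkrull] at hxmem
    exact hxmem
  -- surjectivity
  have hsurjΨ : Function.Surjective Ψ := by
    set S : Submodule 𝒪 M := (LinearMap.range Ψ).restrictScalars 𝒪 with hS
    have hmemS : ∀ m' : M, m' ∈ S ↔ ∃ x, Ψ x = m' := fun m' => Iff.rfl
    have hstep : ∀ m' : M, ϖ • m' ∈ S → m' ∈ S := by
      intro m' hm'
      obtain ⟨x, hx⟩ := (hmemS _).mp hm'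
      obtain ⟨z, hz⟩ := hK x m' hx
      have hxz : x = ϖ • z := funext hz
      refine (hmemS _).mpr ⟨z, ?_⟩
      have h3 : ϖ • Ψ z = ϖ • m' := by rw [← hΨ𝒪, ← hxz, hx]
      exact (smul_right_injective M hϖ0) h3
    have hstepk : ∀ (k : ℕ) (m' : M), ϖ ^ k • m' ∈ S → m' ∈ S := by
      intro k
      induction k with
      | zero => intro m' hm'; simpa using hm'
      | succ k ih =>
        intro m' hm'
        apply ih
        apply hstep
        rwa [smul_smul, ← pow_succ']
    have hrankS : Module.finrank 𝒪 S = d * Module.finrank 𝒪 T := by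
      let f : (Fin d → T) →ₗ[𝒪] S :=
        (Ψ.restrictScalars 𝒪).codRestrict S (fun x => (hmemS _).mpr ⟨x, rfl⟩)
      have hf : ∀ x, ((f x : S) : M) = Ψ x := fun x => rfl
      have hfi : Function.Injective f := by
        intro a b hab
        apply hinj
        rw [← hf, ← hf, hab]
      have hfs : Function.Surjective f := by
        rintro ⟨m', hm'⟩
        obtain ⟨x, hx⟩ := (hmemS _).mp hm'
        exact ⟨x, Subtype.ext hx⟩
      rw [← (LinearEquiv.ofBijective f ⟨hfi, hfs⟩).finrank_eq, Module.finrank_pi_fintype]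
      simp
    have hquot : Module.finrank 𝒪 (M ⧸ S) = 0 := by
      have := S.finrank_quotient_add_finrank
      omega
    have htors := (Module.finrank_eq_zero_iff_isTorsion).mp hquot
    intro m'
    obtain ⟨⟨c, hc⟩, hcm⟩ := @htors (Submodule.Quotient.mk m')
    have hc0 : c ≠ 0 := nonZeroDivisors.ne_zero hc
    have hcS : c • m' ∈ S := by
      rw [← Submodule.Quotient.mk_eq_zero, Submodule.Quotient.mk_smul]
      exact hcm
    obtain ⟨k, u, rfl⟩ := IsDiscreteValuationRing.eq_unit_mul_pow_irreducible hc0 hG.irr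
    have hkS : ϖ ^ k • m' ∈ S := by
      have := S.smul_mem (↑u⁻¹ : 𝒪) hcS
      rwa [smul_smul, ← mul_assoc, Units.inv_mul, one_mul] at this
    exact (hmemS _).mp (hstepk k m' hkS)
  exact ⟨Module.Basis.ofEquivFun (LinearEquiv.ofBijective Ψ ⟨hinj, hsurjΨ⟩).symm⟩

end Freeness

end Fermat.Agent.S59lib.NumCrit
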