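import Fermat.Agent.S59lib.NumCrit.Main
import Fermat.Agent.S59lib.NumCrit.Diamond

/-!
# Project I / N1 : Diamond's numerical criterion

* `numCrit_module` : **Diamond's Theorem 2.4**, (a) ⇒ (b) ∧ (c): for `φ : R ↠ T` and a `T`-module
  `M`, finite free over `𝒪`, with `d = rank_𝒪 M[𝔭] > 0`, `rank_𝒪 M ≤ d • rank_𝒪 T` and
  `d • length Φ_R ≤ length Ω_M < ∞`: `φ` is an isomorphism, `T` is a complete intersection, `M` is
  free of rank `d` over `T` and `length Ω_M = d • length Φ_R`.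
* `length_congModule_of_isCI` : the converse bookkeeping for the base of the induction: if `T` is a
  complete intersection with finite cotangent space and `M` is free over `T` then
  `length Ω_M = rank_T M • length Φ_T`.
-/

set_option linter.unusedSectionVars false

namespace Fermat.Agent.S59lib.NumCrit

open Ideal IsLocalRing Module

universe u v w x

section ENat

theorem enat_le_of_nsmul_le {d : ℕ} (hd : 0 < d) {a b : ℕ∞} (ha : a ≠ ⊤) (h : d • a ≤ d • b) :
    a ≤ b := by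
  by_cases hb : b = ⊤
  · rw [hb]; exact le_top
  · lift a to ℕ using ha
    lift b to ℕ using hb
    rw [nsmul_eq_mul, nsmul_eq_mul] at h
    norm_cast at h ⊢
    exact Nat.le_of_mul_le_mul_left h hd

theorem enat_nsmul_ne_top {d : ℕ} {a : ℕ∞} (ha : a ≠ ⊤) : d • a ≠ ⊤ := by
  lift a to ℕ using ha
  rw [nsmul_eq_mul]
  exact_mod_cast ENat.natCast_ne_top (d * a)

end ENat

section Top

variable {𝒪 : Type v} [CommRing 𝒪] [IsDomain 𝒪] [IsDiscreteValuationRing 𝒪]

theorem length_quotient_bot : Module.length 𝒪 (𝒪 ⧸ (⊥ : Ideal 𝒪)) = ⊤ := by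
  rw [(Submodule.quotEquivOfEqBot (⊥ : Submodule 𝒪 𝒪) rfl).length_eq]
  exact length_self_eq_top

end Top

section Module

variable {𝒪 : Type v} [CommRing 𝒪] [IsDomain 𝒪] [IsDiscreteValuationRing 𝒪]
  [IsAdicComplete (maximalIdeal 𝒪) 𝒪]
variable {R : Type w} [CommRing R] [IsLocalRing R] [IsNoetherianRing R]
  [IsAdicComplete (maximalIdeal R) R] [Algebra 𝒪 R]
variable {T : Type u} [CommRing T] [IsLocalRing T] [Algebra 𝒪 T] [Module.Finite 𝒪 T]
  [Module.IsTorsionFree 𝒪 T]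
variable {M : Type x} [AddCommGroup M] [Module 𝒪 M] [Module T M] [IsScalarTower 𝒪 T M]
  [Module.Finite 𝒪 M] [Module.IsTorsionFree 𝒪 M]

/-- **Diamond's numerical criterion.** -/
theorem numCrit_module (φ : R →ₐ[𝒪] T) (hφ : Function.Surjective φ) (π : T →ₐ[𝒪] 𝒪) {ϖ : 𝒪}
    (hϖ : Irreducible ϖ)
    (hd : 0 < Module.finrank 𝒪 (augTorsion π M))
    (hrank : Module.finrank 𝒪 M ≤ Module.finrank 𝒪 (augTorsion π M) * Module.finrank 𝒪 T)
    (hfin : Module.length 𝒪 (RingHom.ker ((π.comp φ : R →ₐ[𝒪] 𝒪) : R →+* 𝒪)).Cotangent ≠ ⊤)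
    (hle : Module.finrank 𝒪 (augTorsion π M) •
        Module.length 𝒪 (RingHom.ker ((π.comp φ : R →ₐ[𝒪] 𝒪) : R →+* 𝒪)).Cotangent ≤
      Module.length 𝒪 (congModule π M)) :
    Function.Injective φ ∧ IsCI 𝒪 T ∧ (∃ e₀ : T, GorAug π ϖ e₀) ∧
    Nonempty (Module.Basis (Fin (Module.finrank 𝒪 (augTorsion π M))) T M) ∧
    Module.length 𝒪 (congModule π M) = Module.finrank 𝒪 (augTorsion π M) •
      Module.length 𝒪 (RingHom.ker ((π.comp φ : R →ₐ[𝒪] 𝒪) : R →+* 𝒪)).Cotangent ∧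
    Module.length 𝒪 (RingHom.ker ((π.comp φ : R →ₐ[𝒪] 𝒪) : R →+* 𝒪)).Cotangent =
      Module.length 𝒪 (𝒪 ⧸ congIdeal π) ∧
    Module.length 𝒪 (RingHom.ker (π : T →+* 𝒪)).Cotangent =
      Module.length 𝒪 (𝒪 ⧸ congIdeal π) := by
  set d := Module.finrank 𝒪 (augTorsion π M) with hddef
  set ΦR := Module.length 𝒪 (RingHom.ker ((π.comp φ : R →ₐ[𝒪] 𝒪) : R →+* 𝒪)).Cotangent with hΦR
  -- Step A: the ring inequality
  have hring : ΦR ≤ Module.length 𝒪 (𝒪 ⧸ congIdeal π) := by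
    by_cases hη : congIdeal π = ⊥
    · rw [hη, length_quotient_bot]; exact le_top
    · obtain ⟨e, hAnn⟩ := exists_isAnnGen π hη
      have h1 := length_congModule_le (M := M) hAnn
      rw [← hAnn.congIdeal_eq] at h1
      exact enat_le_of_nsmul_le hd hfin (le_trans hle h1)
  -- Step B: the ring criterion
  obtain ⟨hinj, hCI, ⟨e₀, hG⟩, hR, hT⟩ := numCrit_ring φ hφ π hϖ hfin hring
  -- Step C: equality of lengths
  have hAnn := hG.isAnnGen
  have h1 := length_congModule_le (M := M) hAnn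
  rw [← hAnn.congIdeal_eq, ← hR] at h1
  have hΩ : Module.length 𝒪 (congModule π M) = d • ΦR := le_antisymm h1 hle
  have hΩfin : Module.length 𝒪 (congModule π M) ≠ ⊤ := by
    rw [hΩ]; exact enat_nsmul_ne_top hfin
  -- Step D: freeness
  have hΩ' : Module.length 𝒪 (congModule π M) =
      d • Module.length 𝒪 (𝒪 ⧸ (span {π e₀} : Ideal 𝒪)) := by
    rw [hΩ, ← hAnn.congIdeal_eq, ← hR]
  have hsurj := smul_surjective_of_length_eq hAnn hΩ' hΩfin
  exact ⟨hinj, hCI, ⟨e₀, hG⟩, hG.exists_basis hsurj hrank, hΩ, hR, hT⟩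

omit [IsAdicComplete (maximalIdeal 𝒪) 𝒪] in
/-- **The base of the induction**: for a complete intersection `T` with finite cotangent space and a
free `T`-module `M`, `length Ω_M = rank_T M • length Φ_T`, and `rank_𝒪 M[𝔭] = rank_T M`. -/
theorem length_congModule_of_isCI (hCI : IsCI 𝒪 T) (π : T →ₐ[𝒪] 𝒪) {ϖ : 𝒪} (hϖ : Irreducible ϖ)
    (hfin : Module.length 𝒪 (RingHom.ker (π : T →+* 𝒪)).Cotangent ≠ ⊤)
    {ι : Type*} [Fintype ι] (b : Module.Basis ι T M) :
    Module.length 𝒪 (congModule π M) =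
      Fintype.card ι • Module.length 𝒪 (RingHom.ker (π : T →+* 𝒪)).Cotangent ∧
    Module.finrank 𝒪 (augTorsion π M) = Fintype.card ι ∧
    Module.length 𝒪 (RingHom.ker (π : T →+* 𝒪)).Cotangent =
      Module.length 𝒪 (𝒪 ⧸ congIdeal π) := by
  obtain ⟨hlen, e₀, hG⟩ := length_cotangent_of_isCI hCI π hϖ hfin
  have hAnn := hG.isAnnGen
  have hsurj : ∀ m ∈ augTorsion π M, ∃ m' : M, e₀ • m' = m := by
    intro m hm
    obtain ⟨c, hc⟩ := smul_surjective_of_basis hAnn b m hm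
    exact ⟨_, hc⟩
  have h1 := length_congModule_of_surjective hAnn hsurj
  have h2 := finrank_augTorsion_of_basis (M := M) hAnn b
  refine ⟨?_, h2, hlen⟩
  rw [h1, h2, hlen, hAnn.congIdeal_eq]

end Module

end Fermat.Agent.S59lib.NumCrit
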