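import Fermat.Agent.S59lib.NumCrit.Det

/-!
# Project I / N1 : the regular ambient ring

`P` is a Noetherian local algebra over a discrete valuation ring `𝒪` with an augmentation
`ε : P → 𝒪` whose kernel is generated by a family `y` such that `(y, ϖ)` is a regular sequence
(think `P = 𝒪⟦x₁,…,xₙ⟧`, `y i = x i - c i`).  We collect the basic facts, define the relation
lattice `relLattice ε y J ⊆ 𝒪ⁿ` of an ideal `J ⊆ ker ε` (so that the cotangent space of `P ⧸ J` at
the augmentation is `𝒪ⁿ ⧸ relLattice`), the congruence ideal `etaIdeal ε y J ⊆ 𝒪`, and prove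
`det A₀ ∈ etaIdeal` for every matrix `A₀` with rows in the relation lattice.
-/

set_option linter.unusedSectionVars false

namespace Fermat.Agent.S59lib.NumCrit

open Matrix Ideal IsLocalRing

universe u v

variable {𝒪 : Type v} [CommRing 𝒪] [IsDomain 𝒪] [IsDiscreteValuationRing 𝒪]
variable {P : Type u} [CommRing P] [IsLocalRing P] [IsNoetherianRing P] [Algebra 𝒪 P]
variable {n : ℕ}

/-- The hypotheses on the ambient ring. -/
structure IsAmbient (ε : P →ₐ[𝒪] 𝒪) (y : Fin n → P) (ϖ : 𝒪) : Prop where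
  irr : Irreducible ϖ
  ker_eq : RingHom.ker (ε : P →+* 𝒪) = span (Set.range y)
  reg : RegOn (⊥ : Ideal P) (List.ofFn y ++ [algebraMap 𝒪 P ϖ])

omit [IsLocalRing P] [IsNoetherianRing P] [IsDomain 𝒪] [IsDiscreteValuationRing 𝒪] in
theorem ofList_ofFn (y : Fin n → P) : ofList (List.ofFn y) = span (Set.range y) := by
  unfold ofList
  congr 1
  ext x
  simp [List.mem_ofFn]

namespace IsAmbient

variable {ε : P →ₐ[𝒪] 𝒪} {y : Fin n → P} {ϖ : 𝒪} (h : IsAmbient ε y ϖ)
include h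

theorem eps_y (i : Fin n) : ε (y i) = 0 := by
  have : y i ∈ RingHom.ker (ε : P →+* 𝒪) := by rw [h.ker_eq]; exact subset_span ⟨i, rfl⟩
  exact this

theorem mem_span_y_iff (p : P) : p ∈ span (Set.range y) ↔ ε p = 0 := by
  rw [← h.ker_eq]; rfl

theorem sub_algebraMap_mem (p : P) : p - algebraMap 𝒪 P (ε p) ∈ span (Set.range y) := by
  rw [h.mem_span_y_iff, map_sub, AlgHom.commutes, Algebra.algebraMap_self_apply, sub_self]

theorem exists_eq_sum_of_eps_eq_zero {p : P} (hp : ε p = 0) : ∃ c : Fin n → P, p = ∑ i, c i * y i := by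
  obtain ⟨c, hc⟩ := (Ideal.mem_span_range_iff_exists_fun).mp ((h.mem_span_y_iff p).mpr hp)
  exact ⟨c, hc.symm⟩

theorem y_mem_maximalIdeal (i : Fin n) : y i ∈ maximalIdeal P := by
  rw [mem_maximalIdeal, mem_nonunits_iff]
  intro hu
  have := hu.map (ε : P →+* 𝒪)
  rw [RingHom.coe_coe, h.eps_y i] at this
  exact not_isUnit_zero this

theorem varpi_mem_maximalIdeal : algebraMap 𝒪 P ϖ ∈ maximalIdeal P := by
  rw [mem_maximalIdeal, mem_nonunits_iff]
  intro hu
  have := hu.map (ε : P →+* 𝒪)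
  rw [RingHom.coe_coe, AlgHom.commutes, Algebra.algebraMap_self_apply] at this
  exact h.irr.not_isUnit this

theorem span_y_le_maximalIdeal : span (Set.range y) ≤ maximalIdeal P := by
  rw [span_le]; rintro _ ⟨i, rfl⟩; exact h.y_mem_maximalIdeal i

theorem maximalIdeal_eq :
    maximalIdeal P = span (Set.range y) ⊔ span {algebraMap 𝒪 P ϖ} := by
  apply le_antisymm
  · intro p hp
    have hnu : ¬ IsUnit (ε p) := by
      intro hu
      have hu' : IsUnit (algebraMap 𝒪 P (ε p)) := hu.map (algebraMap 𝒪 P)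
      have hmem : p - algebraMap 𝒪 P (ε p) ∈ maximalIdeal P :=
        h.span_y_le_maximalIdeal (h.sub_algebraMap_mem p)
      have : algebraMap 𝒪 P (ε p) ∈ maximalIdeal P := by
        have e : algebraMap 𝒪 P (ε p) = p - (p - algebraMap 𝒪 P (ε p)) := by ring
        rw [e]
        exact Ideal.sub_mem _ hp hmem
      exact (mem_nonunits_iff.mp ((mem_maximalIdeal _).mp this)) hu'
    have hmem : ε p ∈ maximalIdeal 𝒪 := (mem_maximalIdeal _).mpr hnu
    rw [h.irr.maximalIdeal_eq, mem_span_singleton'] at hmem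
    obtain ⟨c, hc⟩ := hmem
    have e : p = (p - algebraMap 𝒪 P (ε p)) + algebraMap 𝒪 P c * algebraMap 𝒪 P ϖ := by
      rw [← map_mul, hc]; ring
    rw [e]
    exact Submodule.add_mem_sup (h.sub_algebraMap_mem p) (mem_span_singleton'.mpr ⟨_, rfl⟩)
  · exact sup_le h.span_y_le_maximalIdeal (by rw [span_le]; simpa using h.varpi_mem_maximalIdeal)

theorem mem_maximalIdeal_of_mem_list {t : P} (ht : t ∈ List.ofFn y ++ [algebraMap 𝒪 P ϖ]) :
    t ∈ maximalIdeal P := by
  rcases List.mem_append.mp ht with h1 | h1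
  · obtain ⟨i, rfl⟩ := (List.mem_ofFn' y t).mp h1
    exact h.y_mem_maximalIdeal i
  · rw [List.mem_singleton] at h1; rw [h1]; exact h.varpi_mem_maximalIdeal

theorem regOn_y : RegOn (⊥ : Ideal P) (List.ofFn y) :=
  ((regOn_append_singleton ⊥ _ _).mp h.reg).1

theorem nzd_varpi : NZDMod (span (Set.range y)) (algebraMap 𝒪 P ϖ) := by
  have := ((regOn_append_singleton ⊥ _ _).mp h.reg).2
  rwa [bot_sup_eq, ofList_ofFn] at this

theorem regOn_varpi_y : RegOn (span {algebraMap 𝒪 P ϖ}) (List.ofFn y) := by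
  have h1 : RegOn (⊥ : Ideal P) (algebraMap 𝒪 P ϖ :: List.ofFn y) :=
    regOn_perm (List.perm_append_singleton _ _) ⊥ (fun t ht => h.mem_maximalIdeal_of_mem_list ht)
      h.reg
  have := h1.2
  rwa [bot_sup_eq] at this

theorem isKoszul_bot : IsKoszul (⊥ : Ideal P) y := isKoszul_of_regOn ⊥ y h.regOn_y

theorem isKoszul_varpi : IsKoszul (span {algebraMap 𝒪 P ϖ}) y :=
  isKoszul_of_regOn _ y h.regOn_varpi_y

/-- Syzygies of `y` have coefficients in the augmentation ideal. -/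
theorem eps_eq_of_sum_eq {c c' : Fin n → P} (hc : ∑ i, c i * y i = ∑ i, c' i * y i) (i : Fin n) :
    ε (c i) = ε (c' i) := by
  have hsyz : ∑ i, (c i - c' i) * y i ∈ (⊥ : Ideal P) := by
    rw [Ideal.mem_bot]
    simp only [sub_mul, Finset.sum_sub_distrib, hc, sub_self]
  obtain ⟨e, he⟩ := h.isKoszul_bot _ hsyz
  have := he i
  rw [Ideal.mem_bot, sub_eq_zero] at this
  have h2 : ε (c i - c' i) = 0 := by
    rw [this, map_sum]
    exact Finset.sum_eq_zero (fun k _ => by rw [map_mul, h.eps_y k, mul_zero])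
  rwa [map_sub, sub_eq_zero] at h2

/-- Elements of `𝔭²` are the combinations of the `y i` with coefficients in `𝔭`. -/
theorem mem_sq_iff (u : P) : u ∈ span (Set.range y) ^ 2 ↔
    ∃ q : Fin n → P, (∀ i, ε (q i) = 0) ∧ u = ∑ i, q i * y i := by
  rw [pow_two]
  constructor
  · intro hu
    have : u ∈ span (Set.range y) • (Submodule.span P (Set.range y) : Submodule P P) := hu
    rw [Submodule.mem_ideal_smul_span_iff_exists_sum] at this
    obtain ⟨a, ha, rfl⟩ := this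
    refine ⟨fun i => a i, fun i => (h.mem_span_y_iff _).mp (ha i), ?_⟩
    rw [Finsupp.sum_fintype _ _ (fun i => by simp)]
    rfl
  · rintro ⟨q, hq, rfl⟩
    refine Ideal.sum_mem _ (fun i _ => ?_)
    exact Ideal.mul_mem_mul ((h.mem_span_y_iff _).mpr (hq i)) (subset_span ⟨i, rfl⟩)

theorem eps_eq_zero_of_sum_mem_sq {c : Fin n → P} (hc : ∑ i, c i * y i ∈ span (Set.range y) ^ 2)
    (i : Fin n) : ε (c i) = 0 := by
  obtain ⟨q, hq, hcq⟩ := (h.mem_sq_iff _).mp hc
  rw [h.eps_eq_of_sum_eq hcq i, hq i]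

/-- Nonzero scalars of `𝒪` are nonzerodivisors modulo an ideal modulo which `ϖ` is. -/
theorem nzd_algebraMap {J : Ideal P} (hJ : NZDMod J (algebraMap 𝒪 P ϖ)) {c : 𝒪} (hc : c ≠ 0) :
    NZDMod J (algebraMap 𝒪 P c) := by
  obtain ⟨k, u, rfl⟩ := IsDiscreteValuationRing.eq_unit_mul_pow_irreducible hc h.irr
  rw [map_mul, map_pow]
  intro x hx
  apply hJ.pow k
  have hu : IsUnit (algebraMap 𝒪 P (u : 𝒪)) := u.isUnit.map (algebraMap 𝒪 P)
  obtain ⟨v, hv⟩ := hu
  have : algebraMap 𝒪 P ϖ ^ k * x = (↑v⁻¹ : P) * (algebraMap 𝒪 P ↑u * algebraMap 𝒪 P ϖ ^ k * x) := by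
    rw [← hv]
    have : (↑v⁻¹ : P) * (↑v * algebraMap 𝒪 P ϖ ^ k * x) = (↑v⁻¹ * ↑v) * (algebraMap 𝒪 P ϖ ^ k * x) := by
      ring
    rw [this, Units.inv_mul, one_mul]
  rw [this]
  exact J.mul_mem_left _ hx

end IsAmbient

section Lattice

variable (ε : P →ₐ[𝒪] 𝒪) (y : Fin n → P)

variable (𝒪) in
/-- The lattice of relations: `c ∈ 𝒪ⁿ` with `∑ cᵢ yᵢ ∈ 𝔭² + J`.  The cotangent space of `P ⧸ J`
at the augmentation is `𝒪ⁿ ⧸ relLattice`. -/
def relLattice (J : Ideal P) : Submodule 𝒪 (Fin n → 𝒪) where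
  carrier := {c | ∑ i, algebraMap 𝒪 P (c i) * y i ∈ span (Set.range y) ^ 2 ⊔ J}
  add_mem' := by
    intro a b ha hb
    show ∑ i, algebraMap 𝒪 P ((a + b) i) * y i ∈ span (Set.range y) ^ 2 ⊔ J
    have : ∑ i, algebraMap 𝒪 P ((a + b) i) * y i =
        ∑ i, algebraMap 𝒪 P (a i) * y i + ∑ i, algebraMap 𝒪 P (b i) * y i := by
      simp only [Pi.add_apply, map_add, add_mul, Finset.sum_add_distrib]
    rw [this]
    exact Ideal.add_mem _ ha hb
  zero_mem' := by
    show ∑ i, algebraMap 𝒪 P ((0 : Fin n → 𝒪) i) * y i ∈ span (Set.range y) ^ 2 ⊔ J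
    simp
  smul_mem' := by
    intro c a ha
    show ∑ i, algebraMap 𝒪 P ((c • a) i) * y i ∈ span (Set.range y) ^ 2 ⊔ J
    have : ∑ i, algebraMap 𝒪 P ((c • a) i) * y i =
        algebraMap 𝒪 P c * ∑ i, algebraMap 𝒪 P (a i) * y i := by
      rw [Finset.mul_sum]
      refine Finset.sum_congr rfl (fun i _ => ?_)
      rw [Pi.smul_apply, smul_eq_mul, map_mul]; ring
    rw [this]
    exact Ideal.mul_mem_left _ _ ha

theorem mem_relLattice {J : Ideal P} {c : Fin n → 𝒪} : c ∈ relLattice 𝒪 y J ↔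
    ∑ i, algebraMap 𝒪 P (c i) * y i ∈ span (Set.range y) ^ 2 ⊔ J := Iff.rfl

theorem relLattice_mono {I J : Ideal P} (hIJ : I ≤ J) : relLattice 𝒪 y I ≤ relLattice 𝒪 y J :=
  fun _ hc => (sup_le_sup_left hIJ _ : span (Set.range y) ^ 2 ⊔ I ≤ _) hc

/-- The colon ideal `(J : 𝔭)`. -/
def colonY (J : Ideal P) : Ideal P where
  carrier := {u | ∀ i, u * y i ∈ J}
  add_mem' := by
    intro a b ha hb i
    rw [add_mul]; exact J.add_mem (ha i) (hb i)
  zero_mem' := by intro i; simp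
  smul_mem' := by
    intro c a ha i
    rw [smul_eq_mul, mul_assoc]; exact J.mul_mem_left _ (ha i)

theorem mem_colonY {J : Ideal P} {u : P} : u ∈ colonY y J ↔ ∀ i, u * y i ∈ J := Iff.rfl

theorem colonY_mono {I J : Ideal P} (hIJ : I ≤ J) : colonY y I ≤ colonY y J :=
  fun _ hu i => hIJ (hu i)

/-- The congruence ideal `η = ε (J : 𝔭)` of `P ⧸ J` at the augmentation. -/
def etaIdeal (J : Ideal P) : Ideal 𝒪 := (colonY y J).map (ε : P →+* 𝒪)

theorem mem_etaIdeal {J : Ideal P} {c : 𝒪} :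
    c ∈ etaIdeal ε y J ↔ ∃ u : P, (∀ i, u * y i ∈ J) ∧ ε u = c := by
  unfold etaIdeal
  have hsurj : Function.Surjective (ε : P →+* 𝒪) := fun c =>
    ⟨algebraMap 𝒪 P c, by rw [RingHom.coe_coe, AlgHom.commutes]; rfl⟩
  rw [Ideal.mem_map_iff_of_surjective _ hsurj]
  rfl

theorem etaIdeal_mono {I J : Ideal P} (hIJ : I ≤ J) : etaIdeal ε y I ≤ etaIdeal ε y J :=
  Ideal.map_mono (colonY_mono y hIJ)

end Lattice

section Cramer

omit [IsLocalRing P] [IsNoetherianRing P] in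
/-- Cramer: `det a` multiplies `y` into the ideal generated by the entries of `a y`. -/
theorem det_mul_mem (a : Matrix (Fin n) (Fin n) P) (y : Fin n → P) (J : Ideal P)
    (ha : ∀ k, (a *ᵥ y) k ∈ J) (i : Fin n) : a.det * y i ∈ J := by
  have h1 : a.adjugate *ᵥ (a *ᵥ y) = a.det • y := by
    rw [mulVec_mulVec, adjugate_mul, smul_mulVec, one_mulVec]
  have h2 := congrFun h1 i
  rw [Pi.smul_apply, smul_eq_mul] at h2
  rw [← h2, mulVec, dotProduct]
  exact Ideal.sum_mem _ (fun k _ => J.mul_mem_left _ (ha k))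

end Cramer

namespace IsAmbient

variable {ε : P →ₐ[𝒪] 𝒪} {y : Fin n → P} {ϖ : 𝒪} (h : IsAmbient ε y ϖ)
include h

/-- Rows in the relation lattice of `J` lift to a matrix over `P` sending `y` into `J`. -/
theorem exists_lift_of_mem_relLattice {J : Ideal P} {A₀ : Matrix (Fin n) (Fin n) 𝒪}
    (hA : ∀ k, A₀ k ∈ relLattice 𝒪 y J) :
    ∃ a : Matrix (Fin n) (Fin n) P, a.map ε = A₀ ∧ ∀ k, (a *ᵥ y) k ∈ J := by
  have hk : ∀ k, ∃ Q : Fin n → P, (∀ i, ε (Q i) = 0) ∧
      ∑ i, (algebraMap 𝒪 P (A₀ k i) - Q i) * y i ∈ J := by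
    intro k
    obtain ⟨q, hq, j, hj, hqj⟩ := Submodule.mem_sup.mp (mem_relLattice (y := y) |>.mp (hA k))
    obtain ⟨Q, hQ, rfl⟩ := (h.mem_sq_iff q).mp hq
    refine ⟨Q, hQ, ?_⟩
    have : ∑ i, (algebraMap 𝒪 P (A₀ k i) - Q i) * y i = j := by
      simp only [sub_mul, Finset.sum_sub_distrib]
      rw [← hqj]; ring
    rw [this]; exact hj
  choose Q hQ hQJ using hk
  refine ⟨Matrix.of fun k i => algebraMap 𝒪 P (A₀ k i) - Q k i, ?_, ?_⟩
  · ext k i
    simp only [Matrix.map_apply, Matrix.of_apply, map_sub, AlgHom.commutes,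
      Algebra.algebraMap_self_apply, hQ k i, sub_zero]
  · intro k
    have : ((Matrix.of fun k i => algebraMap 𝒪 P (A₀ k i) - Q k i) *ᵥ y) k =
        ∑ i, (algebraMap 𝒪 P (A₀ k i) - Q k i) * y i := by
      simp [mulVec, dotProduct]
    rw [this]; exact hQJ k

omit h in
theorem eps_det (a : Matrix (Fin n) (Fin n) P) : ε a.det = (a.map ε).det := by
  have := RingHom.map_det (ε : P →+* 𝒪) a
  simpa using this

/-- The determinant of a matrix with rows in the relation lattice lies in the congruence ideal. -/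
theorem det_mem_etaIdeal {J : Ideal P} {A₀ : Matrix (Fin n) (Fin n) 𝒪}
    (hA : ∀ k, A₀ k ∈ relLattice 𝒪 y J) : A₀.det ∈ etaIdeal ε y J := by
  obtain ⟨a, ha, haJ⟩ := h.exists_lift_of_mem_relLattice hA
  rw [mem_etaIdeal]
  exact ⟨a.det, det_mul_mem a y J haJ, by rw [eps_det, ha]⟩

end IsAmbient

end Fermat.Agent.S59lib.NumCrit
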