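import Fermat.Agent.S59lib.NumCrit.Tate
import Fermat.Agent.S59lib.NumCrit.Gor

/-!
# Project I / N1 : cotangent space and congruence ideal of a quotient of the ambient ring

Let `ψ : P → A` be a surjection of `𝒪`-algebras from the ambient ring, `πA : A → 𝒪` an augmentation
with `πA ∘ ψ = ε`.  Then

* `cotangentEquiv` : `𝒪ⁿ ⧸ relLattice 𝒪 y (ker ψ) ≃ₗ[𝒪] (ker πA).Cotangent`;
* `congIdeal_eq_etaIdeal` : `congIdeal πA = etaIdeal ε y (ker ψ)` where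
  `congIdeal πA = πA (Ann (ker πA))`.
-/

set_option linter.unusedSectionVars false

namespace Fermat.Agent.S59lib.NumCrit

open Matrix Ideal IsLocalRing

universe u v w


section Translate

variable {𝒪 : Type v} [CommRing 𝒪] [IsDomain 𝒪] [IsDiscreteValuationRing 𝒪]
variable {P : Type u} [CommRing P] [IsLocalRing P] [IsNoetherianRing P] [Algebra 𝒪 P]
variable {n : ℕ} {ε : P →ₐ[𝒪] 𝒪} {y : Fin n → P} {ϖ : 𝒪}
variable {A : Type w} [CommRing A] [Algebra 𝒪 A]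

/-- The kernel of the augmentation of `A` is the image of `𝔭 = (y)`. -/
theorem IsAmbient.ker_eq_map (h : IsAmbient ε y ϖ) (ψ : P →ₐ[𝒪] A) (hψ : Function.Surjective ψ)
    (πA : A →ₐ[𝒪] 𝒪) (hε : ∀ p, πA (ψ p) = ε p) :
    RingHom.ker (πA : A →+* 𝒪) = (span (Set.range y)).map (ψ : P →+* A) := by
  apply le_antisymm
  · intro a ha
    obtain ⟨p, rfl⟩ := hψ a
    have : ε p = 0 := by rw [← hε]; exact ha
    exact Ideal.mem_map_of_mem _ ((h.mem_span_y_iff p).mpr this)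
  · rw [Ideal.map_le_iff_le_comap, span_le]
    rintro _ ⟨i, rfl⟩
    show πA (ψ (y i)) = 0
    rw [hε, h.eps_y]

theorem IsAmbient.congIdeal_eq_etaIdeal (h : IsAmbient ε y ϖ) (ψ : P →ₐ[𝒪] A)
    (hψ : Function.Surjective ψ) (πA : A →ₐ[𝒪] 𝒪) (hε : ∀ p, πA (ψ p) = ε p) :
    congIdeal πA = etaIdeal ε y (RingHom.ker (ψ : P →+* A)) := by
  ext c
  rw [mem_congIdeal, mem_etaIdeal]
  constructor
  · rintro ⟨t, ht, rfl⟩
    obtain ⟨u, rfl⟩ := hψ t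
    refine ⟨u, fun i => ?_, (hε u).symm⟩
    show ψ (u * y i) = 0
    rw [map_mul]
    exact ht _ (by rw [hε, h.eps_y])
  · rintro ⟨u, hu, rfl⟩
    refine ⟨ψ u, fun x hx => ?_, hε u⟩
    have hx' : x ∈ (span (Set.range y)).map (ψ : P →+* A) := by
      rw [← h.ker_eq_map ψ hψ πA hε]; exact hx
    obtain ⟨p, hp, rfl⟩ := (Ideal.mem_map_iff_of_surjective (ψ : P →+* A) hψ).mp hx'
    obtain ⟨c, rfl⟩ := Ideal.mem_span_range_iff_exists_fun.mp hp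
    show ψ u * ψ (∑ i, c i * y i) = 0
    rw [← map_mul, Finset.mul_sum, map_sum]
    refine Finset.sum_eq_zero (fun i _ => ?_)
    have : u * (c i * y i) = c i * (u * y i) := by ring
    rw [this, map_mul, show ψ (u * y i) = 0 from hu i, mul_zero]

theorem IsAmbient.aug_y (h : IsAmbient ε y ϖ) (ψ : P →ₐ[𝒪] A) (πA : A →ₐ[𝒪] 𝒪)
    (hε : ∀ p, πA (ψ p) = ε p) (i : Fin n) : πA (ψ (y i)) = 0 := by
  rw [hε, h.eps_y]

/-- The generators `ψ (y i)` of the augmentation ideal of `A`. -/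
def augGen (y : Fin n → P) (ψ : P →ₐ[𝒪] A) (πA : A →ₐ[𝒪] 𝒪) (hy : ∀ i, πA (ψ (y i)) = 0) (i : Fin n) :
    RingHom.ker (πA : A →+* 𝒪) := ⟨ψ (y i), hy i⟩

/-- The map `𝒪ⁿ → (ker πA).Cotangent`. -/
noncomputable def cotMap (y : Fin n → P) (ψ : P →ₐ[𝒪] A) (πA : A →ₐ[𝒪] 𝒪)
    (hy : ∀ i, πA (ψ (y i)) = 0) :
    (Fin n → 𝒪) →ₗ[𝒪] (RingHom.ker (πA : A →+* 𝒪)).Cotangent :=
  ((RingHom.ker (πA : A →+* 𝒪)).toCotangent.restrictScalars 𝒪) ∘ₗ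
    Fintype.linearCombination 𝒪 (augGen y ψ πA hy)

theorem cotMap_apply (y : Fin n → P) (ψ : P →ₐ[𝒪] A) (πA : A →ₐ[𝒪] 𝒪)
    (hy : ∀ i, πA (ψ (y i)) = 0) (c : Fin n → 𝒪) :
    cotMap y ψ πA hy c = (RingHom.ker (πA : A →+* 𝒪)).toCotangent
      (∑ i, c i • augGen y ψ πA hy i) := by
  rw [cotMap, LinearMap.comp_apply, Fintype.linearCombination_apply]
  rfl

theorem coe_sum_augGen (y : Fin n → P) (ψ : P →ₐ[𝒪] A) (πA : A →ₐ[𝒪] 𝒪)
    (hy : ∀ i, πA (ψ (y i)) = 0) (c : Fin n → 𝒪) :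
    ((∑ i, c i • augGen y ψ πA hy i : RingHom.ker (πA : A →+* 𝒪)) : A) =
      ψ (∑ i, algebraMap 𝒪 P (c i) * y i) := by
  rw [map_sum, Submodule.coe_sum]
  refine Finset.sum_congr rfl (fun i _ => ?_)
  rw [map_mul, AlgHom.commutes, Submodule.coe_smul_of_tower, augGen, Algebra.smul_def]

theorem IsAmbient.map_sq (h : IsAmbient ε y ϖ) (ψ : P →ₐ[𝒪] A) (hψ : Function.Surjective ψ)
    (πA : A →ₐ[𝒪] 𝒪) (hε : ∀ p, πA (ψ p) = ε p) :
    RingHom.ker (πA : A →+* 𝒪) ^ 2 = (span (Set.range y) ^ 2).map (ψ : P →+* A) := by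
  rw [h.ker_eq_map ψ hψ πA hε, Ideal.map_pow]

theorem IsAmbient.ker_cotMap (h : IsAmbient ε y ϖ) (ψ : P →ₐ[𝒪] A) (hψ : Function.Surjective ψ)
    (πA : A →ₐ[𝒪] 𝒪) (hε : ∀ p, πA (ψ p) = ε p) :
    LinearMap.ker (cotMap y ψ πA (h.aug_y ψ πA hε)) =
      relLattice 𝒪 y (RingHom.ker (ψ : P →+* A)) := by
  ext c
  rw [LinearMap.mem_ker, cotMap_apply, Ideal.toCotangent_eq_zero, coe_sum_augGen,
    h.map_sq ψ hψ πA hε, mem_relLattice, Ideal.mem_map_iff_of_surjective (ψ : P →+* A) hψ]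
  constructor
  · rintro ⟨k, hk, hkx⟩
    have : ∑ i, algebraMap 𝒪 P (c i) * y i = k + (∑ i, algebraMap 𝒪 P (c i) * y i - k) := by ring
    rw [this]
    refine Submodule.add_mem_sup hk ?_
    show ψ (∑ i, algebraMap 𝒪 P (c i) * y i - k) = 0
    rw [map_sub, sub_eq_zero]
    exact hkx.symm
  · intro hc
    obtain ⟨k, hk, j, hj, hkj⟩ := Submodule.mem_sup.mp hc
    refine ⟨k, hk, ?_⟩
    rw [← hkj]
    show ψ k = ψ (k + j)
    rw [map_add, show ψ j = 0 from hj, add_zero]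

theorem IsAmbient.cotMap_surjective (h : IsAmbient ε y ϖ) (ψ : P →ₐ[𝒪] A)
    (hψ : Function.Surjective ψ) (πA : A →ₐ[𝒪] 𝒪) (hε : ∀ p, πA (ψ p) = ε p) :
    Function.Surjective (cotMap y ψ πA (h.aug_y ψ πA hε)) := by
  intro z
  obtain ⟨⟨a, ha⟩, rfl⟩ := Ideal.toCotangent_surjective _ z
  obtain ⟨p, rfl⟩ := hψ a
  have hp : ε p = 0 := by rw [← hε]; exact ha
  obtain ⟨u, rfl⟩ := h.exists_eq_sum_of_eps_eq_zero hp
  refine ⟨fun i => ε (u i), ?_⟩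
  rw [cotMap_apply, Ideal.toCotangent_eq, coe_sum_augGen, h.map_sq ψ hψ πA hε]
  show ψ _ - ψ _ ∈ _
  rw [← map_sub]
  refine Ideal.mem_map_of_mem _ ?_
  rw [← Finset.sum_sub_distrib, pow_two]
  refine Ideal.sum_mem _ (fun i _ => ?_)
  rw [← sub_mul]
  refine Ideal.mul_mem_mul ?_ (subset_span ⟨i, rfl⟩)
  rw [← neg_sub]
  exact Ideal.neg_mem_iff _ |>.mpr (h.sub_algebraMap_mem (u i))

/-- The cotangent space of `A` at the augmentation is `𝒪ⁿ ⧸ relLattice`. -/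
noncomputable def IsAmbient.cotangentEquiv (h : IsAmbient ε y ϖ) (ψ : P →ₐ[𝒪] A)
    (hψ : Function.Surjective ψ) (πA : A →ₐ[𝒪] 𝒪) (hε : ∀ p, πA (ψ p) = ε p) :
    ((Fin n → 𝒪) ⧸ relLattice 𝒪 y (RingHom.ker (ψ : P →+* A))) ≃ₗ[𝒪]
      (RingHom.ker (πA : A →+* 𝒪)).Cotangent :=
  (Submodule.quotEquivOfEq _ _ (h.ker_cotMap ψ hψ πA hε).symm).trans
    (LinearMap.quotKerEquivOfSurjective _ (h.cotMap_surjective ψ hψ πA hε))

theorem IsAmbient.length_cotangent (h : IsAmbient ε y ϖ) (ψ : P →ₐ[𝒪] A)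
    (hψ : Function.Surjective ψ) (πA : A →ₐ[𝒪] 𝒪) (hε : ∀ p, πA (ψ p) = ε p) :
    Module.length 𝒪 (RingHom.ker (πA : A →+* 𝒪)).Cotangent =
      Module.length 𝒪 ((Fin n → 𝒪) ⧸ relLattice 𝒪 y (RingHom.ker (ψ : P →+* A))) :=
  (h.cotangentEquiv ψ hψ πA hε).length_eq.symm

end Translate

end Fermat.Agent.S59lib.NumCrit
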