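import Fermat.Agent.S59lib.NumCrit.Ambient

/-!
# Project I / N1 : prime avoidance for cosets and the complete intersection cover

* `exists_add_notMem_of_antichain` : for pairwise incomparable primes `Q` not containing the
  ideal `H`, every coset `a + H` contains an element outside all of them.
* `exists_cover_list` / `IsAmbient.exists_cover` : Lenstra's construction of a system of parameters
  `f` inside an ideal `J` with prescribed linear parts.
-/

set_option linter.unusedSectionVars false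

namespace Fermat.Agent.S59lib.NumCrit

open Matrix Ideal IsLocalRing

universe u v

section Avoid

variable {C : Type u} [CommRing C]

theorem exists_add_notMem_of_antichain (H : Ideal C) (a : C) (S : Finset (Ideal C))
    (hprime : ∀ Q ∈ S, Q.IsPrime) (hanti : ∀ Q ∈ S, ∀ Q' ∈ S, Q ≤ Q' → Q = Q')
    (hH : ∀ Q ∈ S, ¬ H ≤ Q) : ∃ h ∈ H, ∀ Q ∈ S, a + h ∉ Q := by
  classical
  set S₀ := S.filter (fun Q => a ∈ Q) with hS₀
  set S₁ := S.filter (fun Q => a ∉ Q) with hS₁
  set H' : Ideal C := H ⊓ S₁.inf id with hH'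
  have hnot : ¬ ((H' : Set C) ⊆ ⋃ Q ∈ (S₀ : Set (Ideal C)), ((id Q : Ideal C) : Set C)) := by
    intro hsub
    have hp : ∀ Q ∈ S₀, Q ≠ ⊥ → Q ≠ ⊥ → (id Q : Ideal C).IsPrime := by
      intro Q hQ _ _
      exact hprime Q (Finset.mem_filter.mp hQ).1
    obtain ⟨Q, hQ, hle⟩ := (Ideal.subset_union_prime (s := S₀) (f := id) ⊥ ⊥ hp).mp hsub
    obtain ⟨hQS, haQ⟩ := Finset.mem_filter.mp hQ
    have hQp := hprime Q hQS
    rcases (hQp.inf_le).mp hle with h1 | h1
    · exact hH Q hQS h1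
    · obtain ⟨Q₁, hQ₁, hQ₁Q⟩ := (hQp.inf_le').mp h1
      obtain ⟨hQ₁S, haQ₁⟩ := Finset.mem_filter.mp hQ₁
      have := hanti Q₁ hQ₁S Q hQS hQ₁Q
      rw [this] at haQ₁
      exact haQ₁ haQ
  rw [Set.not_subset] at hnot
  obtain ⟨x, hxH', hx⟩ := hnot
  have hxH : x ∈ H := (Ideal.mem_inf.mp hxH').1
  have hxS₁ : x ∈ S₁.inf id := (Ideal.mem_inf.mp hxH').2
  refine ⟨x, hxH, fun Q hQ hmem => ?_⟩
  by_cases haQ : a ∈ Q
  · apply hx
    have hQ0 : Q ∈ S₀ := Finset.mem_filter.mpr ⟨hQ, haQ⟩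
    refine Set.mem_biUnion (show Q ∈ (S₀ : Set (Ideal C)) from hQ0) ?_
    have : x = (a + x) - a := by ring
    show x ∈ Q
    rw [this]
    exact Q.sub_mem hmem haQ
  · have hQ1 : Q ∈ S₁ := Finset.mem_filter.mpr ⟨hQ, haQ⟩
    have hxQ : x ∈ Q := (Finset.inf_le hQ1 : S₁.inf id ≤ id Q) hxS₁
    apply haQ
    have : a = (a + x) - x := by ring
    rw [this]
    exact Q.sub_mem hmem hxQ

end Avoid

section CoverList

variable {C : Type u} [CommRing C] [IsLocalRing C] [IsNoetherianRing C]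

/-- One step of the construction of the cover. -/
theorem exists_add_mPrimary (D H : Ideal C) {y : C} (hy : y ∈ maximalIdeal C)
    (hD : MPrimary (D ⊔ span {y}))
    (hH : ∀ Q : Ideal C, Q.IsPrime → D ≤ Q → H ≤ Q → Q = maximalIdeal C) (g : C) :
    ∃ h ∈ H, MPrimary (D ⊔ span {g + h}) := by
  classical
  have hfin : {Q : Ideal C | Q ∈ D.minimalPrimes ∧ Q ≠ maximalIdeal C}.Finite :=
    (Ideal.finite_minimalPrimes_of_isNoetherianRing C D).subset (fun Q hQ => hQ.1)
  obtain ⟨h, hhH, hh⟩ := exists_add_notMem_of_antichain H g hfin.toFinset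
    (fun Q hQ => ((hfin.mem_toFinset).mp hQ).1.isPrime)
    (fun Q hQ Q' hQ' hle => by
      have h1 := ((hfin.mem_toFinset).mp hQ).1
      have h2 := ((hfin.mem_toFinset).mp hQ').1
      exact le_antisymm hle (h2.2 h1.1 hle))
    (fun Q hQ hle => by
      have h1 := (hfin.mem_toFinset).mp hQ
      exact h1.2 (hH Q h1.1.isPrime h1.1.1.2 hle))
  refine ⟨h, hhH, hD.exchange hy (fun Q hQ hne => hh Q ((hfin.mem_toFinset).mpr ⟨hQ, hne⟩))⟩

/-- Lenstra's construction, list form: replace the parameters `ys` one at a time by elements of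
the cosets `g + H`. -/
theorem exists_cover_list (H : Ideal C) : ∀ (ys gs : List C) (D₀ : Ideal C),
    ys.length = gs.length → (∀ t ∈ ys, t ∈ maximalIdeal C) →
    (∀ Q : Ideal C, Q.IsPrime → D₀ ≤ Q → H ≤ Q → Q = maximalIdeal C) →
    MPrimary (D₀ ⊔ ofList ys) →
    ∃ fs : List C, List.Forall₂ (fun g f => f - g ∈ H) gs fs ∧ MPrimary (D₀ ⊔ ofList fs) := by
  intro ys
  induction ys with
  | nil =>
    intro gs D₀ hlen _ _ hprim
    have : gs = [] := List.length_eq_zero_iff.mp hlen.symm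
    subst this
    exact ⟨[], List.Forall₂.nil, hprim⟩
  | cons y ys ih =>
    intro gs D₀ hlen hm hH hprim
    obtain ⟨g, gs', rfl⟩ := List.exists_cons_of_length_eq_add_one hlen.symm
    have hlen' : ys.length = gs'.length := by simpa using hlen
    have hy : y ∈ maximalIdeal C := hm y (by simp)
    have hD : MPrimary ((D₀ ⊔ ofList ys) ⊔ span {y}) := by
      refine hprim.mono (le_of_eq ?_)
      rw [ofList_cons', sup_assoc, sup_comm (span {y})]
    obtain ⟨h, hhH, hprim'⟩ := exists_add_mPrimary (D₀ ⊔ ofList ys) H hy hD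
      (fun Q hQ hDQ hHQ => hH Q hQ (le_trans le_sup_left hDQ) hHQ) g
    have hprim'' : MPrimary ((D₀ ⊔ span {g + h}) ⊔ ofList ys) := by
      refine hprim'.mono (le_of_eq ?_); rw [sup_right_comm]
    obtain ⟨fs, hfs, hfsp⟩ := ih gs' (D₀ ⊔ span {g + h}) hlen'
      (fun t ht => hm t (List.mem_cons_of_mem _ ht))
      (fun Q hQ hDQ hHQ => hH Q hQ (le_trans le_sup_left hDQ) hHQ) hprim''
    refine ⟨(g + h) :: fs, List.Forall₂.cons (by simpa using hhH) hfs, ?_⟩
    rwa [sup_ofList_cons]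

end CoverList

section Cover

variable {𝒪 : Type v} [CommRing 𝒪] [IsDomain 𝒪] [IsDiscreteValuationRing 𝒪]
variable {P : Type u} [CommRing P] [IsLocalRing P] [IsNoetherianRing P] [Algebra 𝒪 P]
variable {n : ℕ} {ε : P →ₐ[𝒪] 𝒪} {y : Fin n → P} {ϖ : 𝒪}

/-- **Lenstra's cover.** Inside an ideal `J ⊆ 𝔭` with `P ⧸ (J + ϖ)` of finite length, any family
`g` of `n` elements of `J` can be modified modulo `𝔭 J` into a family `f` such that
`P ⧸ ((f) + ϖ)` has finite length. -/
theorem IsAmbient.exists_cover (h : IsAmbient ε y ϖ) {J : Ideal P}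
    (hJ : MPrimary (J ⊔ span {algebraMap 𝒪 P ϖ})) (g : Fin n → P) :
    ∃ f : Fin n → P, (∀ k, f k - g k ∈ span (Set.range y) * J) ∧
      MPrimary (span (Set.range f) ⊔ span {algebraMap 𝒪 P ϖ}) := by
  have hH : ∀ Q : Ideal P, Q.IsPrime → span {algebraMap 𝒪 P ϖ} ≤ Q →
      span (Set.range y) * J ≤ Q → Q = maximalIdeal P := by
    intro Q hQ hϖ hmul
    rcases (hQ.mul_le).mp hmul with h1 | h1
    · have : maximalIdeal P ≤ Q := by
        rw [h.maximalIdeal_eq]; exact sup_le h1 hϖ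
      exact ((maximalIdeal.isMaximal P).eq_of_le hQ.ne_top this).symm
    · exact hJ.eq_of_isPrime hQ (sup_le h1 hϖ)
  have hprim : MPrimary (span {algebraMap 𝒪 P ϖ} ⊔ ofList (List.ofFn y)) := by
    rw [ofList_ofFn, sup_comm, ← h.maximalIdeal_eq]
    exact mPrimary_maximalIdeal
  obtain ⟨fs, hfs, hfsp⟩ := exists_cover_list (span (Set.range y) * J) (List.ofFn y) (List.ofFn g)
    (span {algebraMap 𝒪 P ϖ}) (by simp)
    (fun t ht => by
      obtain ⟨i, rfl⟩ := (List.mem_ofFn' y t).mp ht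
      exact h.y_mem_maximalIdeal i) hH hprim
  obtain ⟨hlen, hget⟩ := List.forall₂_iff_get.mp hfs
  have hlen' : fs.length = n := by rw [← hlen]; simp
  refine ⟨fun k => fs.get ⟨k, by rw [hlen']; exact k.2⟩, ?_, ?_⟩
  · intro k
    have := hget k (by simp) (by rw [hlen']; exact k.2)
    simpa using this
  · refine hfsp.mono (le_of_eq ?_)
    rw [sup_comm]
    congr 1
    unfold ofList
    congr 1
    ext x
    simp only [Set.mem_ofPred_eq, Set.mem_range]
    constructor
    · intro hx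
      obtain ⟨i, hi⟩ := List.mem_iff_get.mp hx
      exact ⟨⟨i, by rw [← hlen']; exact i.2⟩, hi⟩
    · rintro ⟨k, rfl⟩
      exact List.get_mem _ _

end Cover

end Fermat.Agent.S59lib.NumCrit
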