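import Fermat.Agent.S59lib.NumCrit.Cover
import Fermat.Agent.S59lib.NumCrit.Len

/-!
# Project I / N1 : the numerical criterion, ideal theoretic core

Inside the regular ambient ring `P` (see `IsAmbient`):

* `IsAmbient.eq_span_of_etaIdeal_le` : a complete intersection `F = (a y) ⊆ J` with the same
  congruence ideal as `J` is equal to `J` (uses the simple socle of `P ⧸ (F + ϖ)`);
* `IsAmbient.criterion` : the Wiles–Lenstra criterion for ideals `I ⊆ J ⊆ 𝔭`.
-/

set_option linter.unusedSectionVars false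

namespace Fermat.Agent.S59lib.NumCrit

open Matrix Ideal IsLocalRing

universe u v

section Socle

variable {C : Type u} [CommRing C] [IsLocalRing C] [IsNoetherianRing C]

/-- A nonzero ideal of an Artinian local ring meets the socle (stated in `C` modulo `𝔮`). -/
theorem exists_socle_mem {𝔮 J : Ideal C} (h𝔮 : MPrimary 𝔮) (hJ : ¬ J ≤ 𝔮) :
    ∃ x ∈ J, x ∉ 𝔮 ∧ ∀ m ∈ maximalIdeal C, m * x ∈ 𝔮 := by
  by_contra hcon
  push Not at hcon
  have key : ∀ k : ℕ, ∃ x ∈ J, x ∉ 𝔮 ∧ x ∈ maximalIdeal C ^ k := by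
    intro k
    induction k with
    | zero =>
      obtain ⟨x, hxJ, hx𝔮⟩ := Set.not_subset.mp hJ
      exact ⟨x, hxJ, hx𝔮, by simp⟩
    | succ k ih =>
      obtain ⟨x, hxJ, hx𝔮, hxk⟩ := ih
      obtain ⟨m, hm, hmx⟩ := hcon x hxJ hx𝔮
      refine ⟨m * x, J.mul_mem_left _ hxJ, hmx, ?_⟩
      rw [pow_succ, mul_comm m x]
      exact Ideal.mul_mem_mul hxk hm
  obtain ⟨N, hN⟩ := h𝔮.exists_pow_le
  obtain ⟨x, _, hx𝔮, hxN⟩ := key N
  exact hx𝔮 (hN hxN)

end Socle

section Core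

variable {𝒪 : Type v} [CommRing 𝒪] [IsDomain 𝒪] [IsDiscreteValuationRing 𝒪]
variable {P : Type u} [CommRing P] [IsLocalRing P] [IsNoetherianRing P] [Algebra 𝒪 P]
variable {n : ℕ} {ε : P →ₐ[𝒪] 𝒪} {y : Fin n → P} {ϖ : 𝒪}

/-- For a system of parameters `f` (together with `ϖ`), `(f, ϖ)` is a regular sequence and
`P ⧸ ((f) + ϖ)` has a simple socle. -/
theorem IsAmbient.regOn_and_simpleSoc (h : IsAmbient ε y ϖ) (f : Fin n → P)
    (hf : ∀ k, f k ∈ maximalIdeal P)
    (hprim : MPrimary (span (Set.range f) ⊔ span {algebraMap 𝒪 P ϖ})) :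
    RegOn (⊥ : Ideal P) (List.ofFn f ++ [algebraMap 𝒪 P ϖ]) ∧
      SimpleSoc (span (Set.range f) ⊔ span {algebraMap 𝒪 P ϖ}) := by
  have e1 : ∀ z : Fin n → P, (⊥ : Ideal P) ⊔ ofList (List.ofFn z ++ [algebraMap 𝒪 P ϖ]) =
      span (Set.range z) ⊔ span {algebraMap 𝒪 P ϖ} := by
    intro z
    rw [bot_sup_eq, ofList_append, ofList_ofFn, ofList_singleton]
  have hmain := regOn_and_simpleSoc_of_mPrimary (n + 1) (⊥ : Ideal P)
    (List.ofFn y ++ [algebraMap 𝒪 P ϖ]) (List.ofFn f ++ [algebraMap 𝒪 P ϖ]) (by simp) (by simp)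
    (fun t ht => h.mem_maximalIdeal_of_mem_list ht)
    (fun t ht => by
      rcases List.mem_append.mp ht with h1 | h1
      · obtain ⟨i, rfl⟩ := (List.mem_ofFn' f t).mp h1
        exact hf i
      · rw [List.mem_singleton] at h1; rw [h1]; exact h.varpi_mem_maximalIdeal)
    h.reg
    (by rw [e1, ← h.maximalIdeal_eq]; exact mPrimary_maximalIdeal)
    (by rw [e1]; exact hprim)
  refine ⟨hmain.1, ?_⟩
  have := hmain.2 (by rw [e1, ← h.maximalIdeal_eq]; exact simpleSoc_maximalIdeal)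
  rwa [e1] at this

/-- A complete intersection `F = (a y)` contained in `J`, with `P ⧸ (F + ϖ)` of finite length,
`P ⧸ J` torsion free, and such that the congruence ideal of `J` is contained in `(ε (det a))`
(then they are equal), is equal to `J`. -/
theorem IsAmbient.eq_span_of_etaIdeal_le (h : IsAmbient ε y ϖ) {J : Ideal P}
    (a : Matrix (Fin n) (Fin n) P) (hJp : J ≤ span (Set.range y))
    (haJ : ∀ k, (a *ᵥ y) k ∈ J) (hnzd : NZDMod J (algebraMap 𝒪 P ϖ))
    (hprim : MPrimary (span (Set.range (a *ᵥ y)) ⊔ span {algebraMap 𝒪 P ϖ}))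
    (hdet : ε a.det ≠ 0)
    (hη : ∀ u : P, (∀ i, u * y i ∈ J) → ε a.det ∣ ε u) :
    J = span (Set.range (a *ᵥ y)) := by
  set F := span (Set.range (a *ᵥ y)) with hF
  set ϖP := algebraMap 𝒪 P ϖ with hϖP
  have hFJ : F ≤ J := by
    rw [hF, span_le]; rintro _ ⟨k, rfl⟩; exact haJ k
  refine le_antisymm ?_ hFJ
  by_contra hJF
  -- Step 1: `J` is not contained in `𝔮 = F + ϖ`
  have hJ𝔮 : ¬ J ≤ F ⊔ span {ϖP} := by
    intro hle
    apply hJF
    apply Submodule.le_of_le_smul_of_le_jacobson_bot (I := span {ϖP}) (IsNoetherian.noetherian J)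
    · exact le_trans (by rw [span_le]; simpa using h.varpi_mem_maximalIdeal)
        (IsLocalRing.maximalIdeal_le_jacobson _)
    · intro j hj
      obtain ⟨f', hf', w, hw, hfw⟩ := Submodule.mem_sup.mp (hle hj)
      obtain ⟨v, rfl⟩ := mem_span_singleton'.mp hw
      have hvJ : v ∈ J := by
        apply hnzd
        have : ϖP * v = j - f' := by rw [← hfw]; ring
        rw [this]; exact J.sub_mem hj (hFJ hf')
      rw [← hfw]
      refine Submodule.add_mem_sup hf' ?_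
      rw [mul_comm]
      exact Submodule.smul_mem_smul (mem_span_singleton_self _) hvJ
  -- Step 2: a socle element of `J` modulo `𝔮`
  obtain ⟨x, hxJ, hx𝔮, hxsoc⟩ := exists_socle_mem hprim hJ𝔮
  -- Step 3: the socle is simple
  have hfm : ∀ k, (a *ᵥ y) k ∈ maximalIdeal P := fun k =>
    h.span_y_le_maximalIdeal (hJp (haJ k))
  obtain ⟨s, hs𝔮, hssoc, hsgen⟩ := (h.regOn_and_simpleSoc (a *ᵥ y) hfm hprim).2
  obtain ⟨c, hc⟩ := hsgen x hxsoc
  have hcu : IsUnit c := by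
    by_contra hcn
    have hcm : c ∈ maximalIdeal P := (mem_maximalIdeal _).mpr hcn
    apply hx𝔮
    have : x = (x - c * s) + c * s := by ring
    rw [this]
    exact Ideal.add_mem _ hc (hssoc c hcm)
  have hsJ : s ∈ J ⊔ span {ϖP} := by
    obtain ⟨c', hc'⟩ := hcu.exists_left_inv
    have : s = c' * x - c' * (x - c * s) := by
      have : c' * (c * s) = (c' * c) * s := by ring
      rw [mul_sub, this, hc']; ring
    rw [this]
    refine Ideal.sub_mem _ (Ideal.mem_sup_left (J.mul_mem_left _ hxJ)) (Ideal.mul_mem_left _ _ ?_)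
    exact (sup_le_sup_right hFJ _) hc
  -- the Cramer element `d = det a` lies in the socle
  have hdy : ∀ i, a.det * y i ∈ F := det_mul_mem a y F (fun k => subset_span ⟨k, rfl⟩)
  have hdsoc : ∀ m ∈ maximalIdeal P, m * a.det ∈ F ⊔ span {ϖP} := by
    intro m hm
    rw [h.maximalIdeal_eq] at hm
    obtain ⟨p, hp, w, hw, rfl⟩ := Submodule.mem_sup.mp hm
    obtain ⟨v, rfl⟩ := mem_span_singleton'.mp hw
    obtain ⟨cc, hcc⟩ := (Ideal.mem_span_range_iff_exists_fun).mp hp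
    rw [add_mul]
    refine Ideal.add_mem _ (Ideal.mem_sup_left ?_) (Ideal.mem_sup_right ?_)
    · rw [← hcc, Finset.sum_mul]
      refine Ideal.sum_mem _ (fun i _ => ?_)
      have : cc i * y i * a.det = cc i * (a.det * y i) := by ring
      rw [this]; exact Ideal.mul_mem_left _ _ (hdy i)
    · exact mem_span_singleton'.mpr ⟨v * a.det, by ring⟩
  obtain ⟨c₂, hc₂⟩ := hsgen a.det hdsoc
  have hdJ : a.det ∈ J ⊔ span {ϖP} := by
    have : a.det = (a.det - c₂ * s) + c₂ * s := by ring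
    rw [this]
    exact Ideal.add_mem _ ((sup_le_sup_right hFJ _) hc₂) (Ideal.mul_mem_left _ _ hsJ)
  obtain ⟨j', hj', w, hw, hjw⟩ := Submodule.mem_sup.mp hdJ
  obtain ⟨v, rfl⟩ := mem_span_singleton'.mp hw
  -- `v ∈ (J : 𝔭)`
  have hv : ∀ i, v * y i ∈ J := by
    intro i
    apply hnzd
    have : ϖP * (v * y i) = a.det * y i - j' * y i := by rw [← hjw]; ring
    rw [this]
    exact J.sub_mem (hFJ (hdy i)) (J.mul_mem_right _ hj')
  obtain ⟨t, ht⟩ := hη v hv
  have hεj' : ε j' = 0 := (h.mem_span_y_iff _).mp (hJp hj')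
  have hεd : ε a.det = ϖ * ε v := by
    rw [← hjw, map_add, hεj', zero_add, map_mul, hϖP, AlgHom.commutes,
      Algebra.algebraMap_self_apply, mul_comm]
  rw [ht] at hεd
  have : ε a.det * (1 - ϖ * t) = 0 := by
    rw [mul_sub, mul_one, sub_eq_zero]
    calc ε a.det = ϖ * (ε a.det * t) := hεd
      _ = ε a.det * (ϖ * t) := by ring
  rcases mul_eq_zero.mp this with h0 | h0
  · exact hdet h0
  · apply h.irr.not_isUnit
    exact IsUnit.of_mul_eq_one t (sub_eq_zero.mp h0).symm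

/-- **The numerical criterion, ideal theoretic core.**  Let `I ⊆ J ⊆ 𝔭` be ideals of the ambient
ring with `P ⧸ J` torsion free and `P ⧸ (J + ϖ)` of finite length.  If some matrix `A₀` with rows
in the relation lattice of `I` has a nonzero determinant generating an ideal that CONTAINS the
congruence ideal of `J`, then `I = J` and `J` is generated by `n` elements `a y` with `ε a = A₀`
(complete intersection). -/
theorem IsAmbient.criterion (h : IsAmbient ε y ϖ) {I J : Ideal P} (hIJ : I ≤ J)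
    (hJp : J ≤ span (Set.range y)) (hnzd : NZDMod J (algebraMap 𝒪 P ϖ))
    (hprim : MPrimary (J ⊔ span {algebraMap 𝒪 P ϖ}))
    (A₀ : Matrix (Fin n) (Fin n) 𝒪) (hdet : A₀.det ≠ 0)
    (hA : ∀ k, A₀ k ∈ relLattice 𝒪 y I) (hη : etaIdeal ε y J ≤ span {A₀.det}) :
    I = J ∧ ∃ a : Matrix (Fin n) (Fin n) P, a.map ε = A₀ ∧ J = span (Set.range (a *ᵥ y)) := by
  -- lift the rows to elements of `J`
  obtain ⟨a₀, ha₀, ha₀J⟩ := h.exists_lift_of_mem_relLattice
    (fun k => relLattice_mono y hIJ (hA k))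
  -- Lenstra's cover
  obtain ⟨f, hfg, hfprim⟩ := h.exists_cover hprim (a₀ *ᵥ y)
  have hpJ : span (Set.range y) * J ≤ span (Set.range y) ^ 2 := by
    rw [pow_two]; exact Ideal.mul_mono_right hJp
  have hH : ∀ k, ∃ Hk : Fin n → P, (∀ i, ε (Hk i) = 0) ∧ f k - (a₀ *ᵥ y) k = ∑ i, Hk i * y i :=
    fun k => (h.mem_sq_iff _).mp (hpJ (hfg k))
  choose Hm hHε hHsum using hH
  set a : Matrix (Fin n) (Fin n) P := a₀ + Matrix.of Hm with ha
  have hay : a *ᵥ y = f := by
    funext k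
    have : (a *ᵥ y) k = (a₀ *ᵥ y) k + ∑ i, Hm k i * y i := by
      rw [ha, add_mulVec, Pi.add_apply]
      congr 1
    rw [this, ← hHsum k]; ring
  have haε : a.map ε = A₀ := by
    rw [← ha₀]
    ext k i
    simp only [ha, Matrix.map_apply, Matrix.add_apply, Matrix.of_apply, map_add, hHε k i, add_zero]
  have hfJ : ∀ k, (a *ᵥ y) k ∈ J := by
    intro k
    rw [hay]
    have : f k = (f k - (a₀ *ᵥ y) k) + (a₀ *ᵥ y) k := by ring
    rw [this]
    exact J.add_mem ((Ideal.mul_le_right : span (Set.range y) * J ≤ J) (hfg k)) (ha₀J k)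
  have hεdet : ε a.det = A₀.det := by rw [IsAmbient.eps_det, haε]
  have hJF : J = span (Set.range (a *ᵥ y)) := by
    refine h.eq_span_of_etaIdeal_le a hJp hfJ hnzd (by rw [hay]; exact hfprim)
      (by rw [hεdet]; exact hdet) ?_
    intro u hu
    rw [hεdet]
    have : ε u ∈ etaIdeal ε y J := (mem_etaIdeal ε y).mpr ⟨u, hu, rfl⟩
    exact mem_span_singleton.mp (hη this)
  refine ⟨le_antisymm hIJ ?_, a, haε, hJF⟩
  -- `J ≤ I + 𝔭 J`, then Nakayama
  apply Submodule.le_of_le_smul_of_le_jacobson_bot (I := span (Set.range y))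
    (IsNoetherian.noetherian J)
    (le_trans h.span_y_le_maximalIdeal (IsLocalRing.maximalIdeal_le_jacobson _))
  have hgen : ∀ k, (a *ᵥ y) k ∈ I ⊔ span (Set.range y) • J := by
    intro k
    -- `f k ≡ ∑ A₀ k i y i` modulo `𝔭²`
    have h1 : (a *ᵥ y) k - ∑ i, algebraMap 𝒪 P (A₀ k i) * y i ∈ span (Set.range y) ^ 2 := by
      rw [h.mem_sq_iff]
      refine ⟨fun i => a k i - algebraMap 𝒪 P (A₀ k i), fun i => ?_, ?_⟩
      · rw [map_sub, AlgHom.commutes, Algebra.algebraMap_self_apply, ← haε, Matrix.map_apply,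
          sub_self]
      · simp only [mulVec, dotProduct, sub_mul, Finset.sum_sub_distrib]
    obtain ⟨q, hq, i₀, hi₀, hqi⟩ := Submodule.mem_sup.mp (mem_relLattice (y := y) |>.mp (hA k))
    -- `(a y) k = q' + i₀` with `q' ∈ 𝔭² ∩ J`
    set q' := (a *ᵥ y) k - i₀ with hq'
    have hq'sq : q' ∈ span (Set.range y) ^ 2 := by
      have : q' = ((a *ᵥ y) k - ∑ i, algebraMap 𝒪 P (A₀ k i) * y i) + q := by
        rw [hq', ← hqi]; ring
      rw [this]; exact Ideal.add_mem _ h1 hq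
    have hq'J : q' ∈ J := J.sub_mem (hfJ k) (hIJ hi₀)
    -- `𝔭² ∩ J ⊆ 𝔭 J`
    have hq'pJ : q' ∈ span (Set.range y) * J := by
      rw [hJF] at hq'J
      obtain ⟨t, ht⟩ := (Ideal.mem_span_range_iff_exists_fun).mp hq'J
      have hsum : ∑ i, (∑ k', t k' * a k' i) * y i = q' := by
        rw [← ht]
        simp only [mulVec, dotProduct, Finset.sum_mul, Finset.mul_sum]
        rw [Finset.sum_comm]
        exact Finset.sum_congr rfl (fun k' _ => Finset.sum_congr rfl (fun i _ => by ring))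
      have hεt : (fun k' => ε (t k')) ᵥ* A₀ = 0 := by
        funext i
        have := h.eps_eq_zero_of_sum_mem_sq (c := fun i => ∑ k', t k' * a k' i)
          (by rw [hsum]; exact hq'sq) i
        rw [map_sum] at this
        simp only [vecMul, dotProduct, Pi.zero_apply]
        rw [← this]
        refine Finset.sum_congr rfl (fun k' _ => ?_)
        rw [map_mul, ← haε, Matrix.map_apply]
      have ht0 : (fun k' => ε (t k')) = 0 := Matrix.eq_zero_of_vecMul_eq_zero hdet hεt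
      rw [← ht]
      refine Ideal.sum_mem _ (fun k' _ => ?_)
      refine Ideal.mul_mem_mul ((h.mem_span_y_iff _).mpr (congrFun ht0 k')) ?_
      rw [hJF]; exact subset_span ⟨k', rfl⟩
    have : (a *ᵥ y) k = i₀ + q' := by rw [hq']; ring
    rw [this]
    exact Submodule.add_mem_sup hi₀ hq'pJ
  intro j hj
  rw [hJF] at hj
  refine (span_le (I := I ⊔ span (Set.range y) • J)).mpr ?_ hj
  rintro _ ⟨k, rfl⟩
  exact hgen k

/-- **The numerical criterion in the ambient ring, length form.** -/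
theorem IsAmbient.criterion_length (h : IsAmbient ε y ϖ) {I J : Ideal P} (hIJ : I ≤ J)
    (hJp : J ≤ span (Set.range y)) (hnzd : NZDMod J (algebraMap 𝒪 P ϖ))
    (hprim : MPrimary (J ⊔ span {algebraMap 𝒪 P ϖ}))
    (hfin : Module.length 𝒪 ((Fin n → 𝒪) ⧸ relLattice 𝒪 y I) ≠ ⊤)
    (hle : Module.length 𝒪 ((Fin n → 𝒪) ⧸ relLattice 𝒪 y I) ≤
      Module.length 𝒪 (𝒪 ⧸ etaIdeal ε y J)) :
    I = J ∧
    (∃ a : Matrix (Fin n) (Fin n) P, (ε a.det ≠ 0) ∧ J = span (Set.range (a *ᵥ y))) ∧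
    Module.length 𝒪 ((Fin n → 𝒪) ⧸ relLattice 𝒪 y J) = Module.length 𝒪 (𝒪 ⧸ etaIdeal ε y J) := by
  obtain ⟨A₀, hA, hdet, -, hlen⟩ := exists_matrix_of_length_ne_top _ hfin
  have hmem : A₀.det ∈ etaIdeal ε y J := etaIdeal_mono ε y hIJ (h.det_mem_etaIdeal hA)
  have hsp : (span {A₀.det} : Ideal 𝒪) ≤ etaIdeal ε y J := by
    rw [span_le]; simpa using hmem
  have h1 : Module.length 𝒪 (𝒪 ⧸ etaIdeal ε y J) ≤ Module.length 𝒪 (𝒪 ⧸ (span {A₀.det} : Ideal 𝒪)) :=
    length_quotient_anti (R := 𝒪) (M := 𝒪) hsp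
  have heq : Module.length 𝒪 (𝒪 ⧸ (span {A₀.det} : Ideal 𝒪)) =
      Module.length 𝒪 (𝒪 ⧸ etaIdeal ε y J) := le_antisymm (hlen ▸ hle) h1
  have hηeq : (span {A₀.det} : Ideal 𝒪) = etaIdeal ε y J :=
    eq_of_length_quotient_eq (R := 𝒪) (M := 𝒪) hsp heq (by rw [← hlen]; exact hfin)
  obtain ⟨hI, a, haε, hJ⟩ := h.criterion hIJ hJp hnzd hprim A₀ hdet hA hηeq.ge
  refine ⟨hI, ⟨a, ?_, hJ⟩, ?_⟩
  · rw [IsAmbient.eps_det, haε]; exact hdet
  · rw [show relLattice 𝒪 y J = relLattice 𝒪 y I by rw [hI], hlen, heq]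

end Core

end Fermat.Agent.S59lib.NumCrit
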