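import Fermat.Agent.S59lib.NumCrit.RegSeq

/-!
# Project I / N1 : determinants and Koszul syzygies

* `IsKoszul I y` : every syzygy of the family `y` modulo `I` is a combination of the Koszul
  syzygies (modulo `I`); it holds for regular sequences (`isKoszul_of_regOn`).
* `det_sub_det_mem` : if `M y ≡ M' y (mod I)` and `y` is Koszul modulo `I`, then
  `det M ≡ det M'` modulo `I + (M y)`.
* `prod_pow_notMem` : for a regular system of parameters `ts` modulo `I`,
  `∏ t^(N-1) ∉ I + (t^N)`.
-/

namespace Fermat.Agent.S59lib.NumCrit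

open Matrix Ideal IsLocalRing

universe u

variable {B : Type u} [CommRing B]

section Cramer

variable {ι : Type*} [Fintype ι] [DecidableEq ι]

theorem det_updateRow_eq_sum (A : Matrix ι ι B) (i₀ : ι) (b : ι → B) :
    (A.updateRow i₀ b).det = ∑ l, b l * A.adjugate l i₀ := by
  rw [← det_transpose, ← updateCol_transpose, ← cramer_apply, cramer_eq_adjugate_mulVec,
    ← adjugate_transpose, mulVec, dotProduct]
  exact Finset.sum_congr rfl (fun l _ => by rw [transpose_apply, mul_comm])

theorem adjugate_updateRow_self (A : Matrix ι ι B) (i₀ : ι) (b : ι → B) (l : ι) :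
    (A.updateRow i₀ b).adjugate l i₀ = A.adjugate l i₀ := by
  rw [adjugate_apply, adjugate_apply, updateRow_idem]

/-- The generalised triple product expansion: the `2 × 2` minors of the pair
(`i₀`-th column of the adjugate, `y`) lie in the ideal generated by the entries of `A y` other
than the `i₀`-th one. -/
theorem cross_mem (A : Matrix ι ι B) (i₀ : ι) (y : ι → B) (j k : ι) :
    y k * A.adjugate j i₀ - y j * A.adjugate k i₀ ∈
      span ((fun i => (A *ᵥ y) i) '' {i | i ≠ i₀}) := by
  set A' := A.updateRow i₀ (Pi.single j 1) with hA'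
  have hdet : A'.det = A.adjugate j i₀ := (adjugate_apply A j i₀).symm
  have h1 : A'.adjugate *ᵥ (A' *ᵥ y) = A'.det • y := by
    rw [mulVec_mulVec, adjugate_mul, smul_mulVec, one_mulVec]
  have h2 := congrFun h1 k
  rw [mulVec, dotProduct, Pi.smul_apply, smul_eq_mul, hdet] at h2
  have hi₀ : (A' *ᵥ y) i₀ = y j := by
    rw [mulVec, dotProduct, hA']
    simp [updateRow_self, Pi.single_apply]
  have hne : ∀ i, i ≠ i₀ → (A' *ᵥ y) i = (A *ᵥ y) i := by
    intro i hi
    rw [mulVec, dotProduct, mulVec, dotProduct, hA']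
    simp [updateRow_ne hi]
  rw [← Finset.add_sum_erase _ _ (Finset.mem_univ i₀), hi₀, hA', adjugate_updateRow_self,
    ← hA'] at h2
  have h3 : y k * A.adjugate j i₀ - y j * A.adjugate k i₀ =
      ∑ i ∈ Finset.univ.erase i₀, A'.adjugate k i * (A' *ᵥ y) i := by
    linear_combination -h2
  rw [h3]
  refine Ideal.sum_mem _ (fun i hi => ?_)
  have hi' : i ≠ i₀ := Finset.ne_of_mem_erase hi
  rw [hne i hi']
  exact Ideal.mul_mem_left _ _ (subset_span ⟨i, hi', rfl⟩)

/-- Every syzygy of `y` modulo `I` is, modulo `I`, a combination of Koszul syzygies. -/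
def IsKoszul (I : Ideal B) (y : ι → B) : Prop :=
  ∀ c : ι → B, ∑ i, c i * y i ∈ I →
    ∃ e : ι → ι → B, ∀ i, c i - ∑ k, (e i k - e k i) * y k ∈ I

/-- Replacing one row of `A` by a syzygy (modulo `I`) of a Koszul family `y` gives a determinant
in `I + ((A y)_i : i ≠ i₀)`. -/
theorem det_updateRow_syzygy_mem {I : Ideal B} {y : ι → B} (hy : IsKoszul I y)
    (A : Matrix ι ι B) (i₀ : ι) (δ : ι → B) (hδ : ∑ l, δ l * y l ∈ I) :
    (A.updateRow i₀ δ).det ∈ I ⊔ span ((fun i => (A *ᵥ y) i) '' {i | i ≠ i₀}) := by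
  obtain ⟨e, he⟩ := hy δ hδ
  rw [det_updateRow_eq_sum]
  have hsplit : ∑ l, δ l * A.adjugate l i₀ =
      ∑ l, (δ l - ∑ k, (e l k - e k l) * y k) * A.adjugate l i₀ +
      ∑ l, ∑ k, e l k * (y k * A.adjugate l i₀ - y l * A.adjugate k i₀) := by
    have h1 : ∑ l, ∑ k, e l k * (y k * A.adjugate l i₀ - y l * A.adjugate k i₀) =
        ∑ l, ∑ k, e l k * (y k * A.adjugate l i₀) - ∑ l, ∑ k, e k l * (y k * A.adjugate l i₀) := by
      rw [Finset.sum_comm (f := fun l k => e k l * (y k * A.adjugate l i₀)),
        ← Finset.sum_sub_distrib]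
      refine Finset.sum_congr rfl (fun l _ => ?_)
      rw [← Finset.sum_sub_distrib]
      refine Finset.sum_congr rfl (fun k _ => ?_)
      ring
    rw [h1, ← Finset.sum_sub_distrib, ← Finset.sum_add_distrib]
    refine Finset.sum_congr rfl (fun l _ => ?_)
    rw [← Finset.sum_sub_distrib, sub_mul, Finset.sum_mul]
    have : ∑ k, (e l k - e k l) * y k * A.adjugate l i₀ =
        ∑ k, (e l k * (y k * A.adjugate l i₀) - e k l * (y k * A.adjugate l i₀)) :=
      Finset.sum_congr rfl (fun k _ => by ring)
    rw [this]; ring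
  rw [hsplit]
  refine Submodule.add_mem_sup ?_ ?_
  · exact Ideal.sum_mem _ (fun l _ => Ideal.mul_mem_right _ _ (he l))
  · refine Ideal.sum_mem _ (fun l _ => Ideal.sum_mem _ (fun k _ => ?_))
    exact Ideal.mul_mem_left _ _ (cross_mem A i₀ y l k)

/-- **Independence of the determinant.** If `M y ≡ M' y` modulo `I` and the family `y` is Koszul
modulo `I`, then `det M ≡ det M'` modulo `I + (M y)`. -/
theorem det_sub_det_mem {I : Ideal B} {y : ι → B} (hy : IsKoszul I y)
    (M M' : Matrix ι ι B) (h : ∀ i, (M *ᵥ y) i - (M' *ᵥ y) i ∈ I) :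
    M.det - M'.det ∈ I ⊔ span (Set.range (M *ᵥ y)) := by
  classical
  -- replace the rows one at a time
  have key : ∀ S : Finset ι,
      M.det - (Matrix.of fun i => if i ∈ S then M' i else M i).det ∈
        I ⊔ span (Set.range (M *ᵥ y)) := by
    intro S
    induction S using Finset.induction_on with
    | empty =>
      have : (Matrix.of fun i => if i ∈ (∅ : Finset ι) then M' i else M i) = M := by
        ext i j; simp
      rw [this, sub_self]; exact Ideal.zero_mem _
    | insert i₀ S hi₀ ih =>
      set MS : Matrix ι ι B := Matrix.of fun i => if i ∈ S then M' i else M i with hMS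
      have hrow : (Matrix.of fun i => if i ∈ insert i₀ S then M' i else M i) =
          MS.updateRow i₀ (M' i₀) := by
        ext i j
        by_cases hi : i = i₀
        · subst hi; simp [updateRow_self]
        · rw [updateRow_ne hi]; simp [hMS, Finset.mem_insert, hi]
      rw [hrow]
      have hMSi₀ : MS i₀ = M i₀ := by
        funext j; simp [hMS, hi₀]
      have hdiff : MS.det - (MS.updateRow i₀ (M' i₀)).det =
          (MS.updateRow i₀ (M i₀ - M' i₀)).det := by
        have h1 : MS.updateRow i₀ (M i₀ - M' i₀ + M' i₀) = MS := by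
          rw [sub_add_cancel, ← hMSi₀, updateRow_eq_self]
        have h2 := det_updateRow_add MS i₀ (M i₀ - M' i₀) (M' i₀)
        rw [h1] at h2
        rw [h2]; ring
      have hMSy : ∀ i, (MS *ᵥ y) i - (M *ᵥ y) i ∈ I := by
        intro i
        by_cases hi : i ∈ S
        · have : (MS *ᵥ y) i = (M' *ᵥ y) i := by
            simp [mulVec, dotProduct, hMS, hi]
          rw [this]
          have := I.neg_mem (h i)
          rwa [neg_sub] at this
        · have : (MS *ᵥ y) i = (M *ᵥ y) i := by
            simp [mulVec, dotProduct, hMS, hi]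
          rw [this, sub_self]; exact I.zero_mem
      have hδ : ∑ l, (M i₀ - M' i₀) l * y l ∈ I := by
        have : ∑ l, (M i₀ - M' i₀) l * y l = (M *ᵥ y) i₀ - (M' *ᵥ y) i₀ := by
          simp only [mulVec, dotProduct, Pi.sub_apply, sub_mul, Finset.sum_sub_distrib]
        rw [this]; exact h i₀
      have hmem := det_updateRow_syzygy_mem hy MS i₀ (M i₀ - M' i₀) hδ
      have hle : I ⊔ span ((fun i => (MS *ᵥ y) i) '' {i | i ≠ i₀}) ≤
          I ⊔ span (Set.range (M *ᵥ y)) := by
        refine sup_le le_sup_left ?_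
        rw [span_le]
        rintro _ ⟨i, _, rfl⟩
        have : (MS *ᵥ y) i = ((MS *ᵥ y) i - (M *ᵥ y) i) + (M *ᵥ y) i := by ring
        show (MS *ᵥ y) i ∈ I ⊔ span (Set.range (M *ᵥ y))
        rw [this]
        exact Submodule.add_mem_sup (hMSy i) (subset_span ⟨i, rfl⟩)
      have : M.det - (MS.updateRow i₀ (M' i₀)).det =
          (M.det - MS.det) + (MS.det - (MS.updateRow i₀ (M' i₀)).det) := by ring
      rw [this, hdiff]
      exact Ideal.add_mem _ ih (hle hmem)
  have := key Finset.univ
  have hM' : (Matrix.of fun i => if i ∈ (Finset.univ : Finset ι) then M' i else M i) = M' := by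
    ext i j; simp
  rwa [hM'] at this

end Cramer

section Koszul

theorem alt_sum_eq_zero {n : ℕ} (e : Fin n → Fin n → B) (z : Fin n → B) :
    ∑ k, ∑ l, (e k l - e l k) * z l * z k = 0 := by
  have h1 : ∑ k, ∑ l, (e k l - e l k) * z l * z k =
      ∑ k, ∑ l, e k l * z l * z k - ∑ k, ∑ l, e l k * z l * z k := by
    rw [← Finset.sum_sub_distrib]
    refine Finset.sum_congr rfl (fun k _ => ?_)
    rw [← Finset.sum_sub_distrib]
    exact Finset.sum_congr rfl (fun l _ => by ring)
  rw [h1, Finset.sum_comm (f := fun k l => e l k * z l * z k), sub_eq_zero]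
  refine Finset.sum_congr rfl (fun k _ => Finset.sum_congr rfl (fun l _ => by ring))

/-- A regular sequence is Koszul: its syzygies are generated by the Koszul syzygies. -/
theorem isKoszul_of_regOn : ∀ {n : ℕ} (I : Ideal B) (y : Fin n → B),
    RegOn I (List.ofFn y) → IsKoszul I y := by
  intro n
  induction n with
  | zero =>
    intro I y _ c _
    exact ⟨fun _ _ => 0, fun i => i.elim0⟩
  | succ n ih =>
    intro I y hreg c hc
    rw [List.ofFn_succ, regOn_cons] at hreg
    obtain ⟨hnzd, hreg'⟩ := hreg
    have hI' := ih (I ⊔ span {y 0}) (fun i => y i.succ) hreg'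
    rw [Fin.sum_univ_succ] at hc
    have hc' : ∑ i : Fin n, c i.succ * y i.succ ∈ I ⊔ span {y 0} := by
      have : ∑ i : Fin n, c i.succ * y i.succ =
          (c 0 * y 0 + ∑ i : Fin n, c i.succ * y i.succ) - c 0 * y 0 := by ring
      rw [this]
      exact Ideal.sub_mem _ (Ideal.mem_sup_left hc)
        (Ideal.mem_sup_right (mem_span_singleton'.mpr ⟨c 0, rfl⟩))
    obtain ⟨e', he'⟩ := hI' (fun i => c i.succ) hc'
    have hw : ∀ i : Fin n, ∃ w : B,
        c i.succ - ∑ k, (e' i k - e' k i) * y k.succ - w * y 0 ∈ I := by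
      intro i
      obtain ⟨j, hj, v, hv, hjv⟩ := Submodule.mem_sup.mp (he' i)
      obtain ⟨w, rfl⟩ := mem_span_singleton'.mp hv
      refine ⟨w, ?_⟩
      rw [← hjv]; simpa using hj
    choose w hw using hw
    let e : Fin (n + 1) → Fin (n + 1) → B := fun a b =>
      Fin.cases (motive := fun _ => B) 0
        (fun i => Fin.cases (motive := fun _ => B) (w i) (fun k => e' i k) b) a
    have e0 : ∀ b, e 0 b = 0 := fun b => rfl
    have es0 : ∀ i : Fin n, e i.succ 0 = w i := fun i => rfl
    have ess : ∀ i k : Fin n, e i.succ k.succ = e' i k := fun i k => rfl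
    refine ⟨e, ?_⟩
    intro a
    refine Fin.cases ?_ (fun i => ?_) a
    · -- the zeroth coordinate: use that `y 0` is a nonzerodivisor modulo `I`
      rw [Fin.sum_univ_succ]
      simp only [e0, es0, sub_self, zero_mul, zero_add, zero_sub]
      apply hnzd
      have hrew : y 0 * (c 0 - ∑ k : Fin n, -w k * y k.succ) =
          (c 0 * y 0 + ∑ i : Fin n, c i.succ * y i.succ)
          - ∑ i : Fin n, (c i.succ - ∑ k, (e' i k - e' k i) * y k.succ - w i * y 0) * y i.succ
          - ∑ i : Fin n, ∑ k, (e' i k - e' k i) * y k.succ * y i.succ := by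
        have h1 : ∑ i : Fin n,
            (c i.succ - ∑ k, (e' i k - e' k i) * y k.succ - w i * y 0) * y i.succ =
            ∑ i : Fin n, c i.succ * y i.succ
            - ∑ i : Fin n, ∑ k, (e' i k - e' k i) * y k.succ * y i.succ
            - y 0 * ∑ i : Fin n, w i * y i.succ := by
          rw [Finset.mul_sum, ← Finset.sum_sub_distrib, ← Finset.sum_sub_distrib]
          refine Finset.sum_congr rfl (fun i _ => ?_)
          rw [sub_mul, sub_mul, Finset.sum_mul]
          ring
        rw [h1]
        have h2 : ∑ k : Fin n, -w k * y k.succ = - ∑ k : Fin n, w k * y k.succ := by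
          rw [← Finset.sum_neg_distrib]
          exact Finset.sum_congr rfl (fun k _ => by ring)
        rw [h2]
        ring
      rw [hrew, alt_sum_eq_zero e' (fun k => y k.succ), sub_zero]
      exact I.sub_mem hc (Ideal.sum_mem _ (fun i _ => I.mul_mem_right _ (hw i)))
    · rw [Fin.sum_univ_succ]
      simp only [e0, es0, ess, sub_zero]
      have : c i.succ - (w i * y 0 + ∑ k : Fin n, (e' i k - e' k i) * y k.succ) =
          c i.succ - ∑ k, (e' i k - e' k i) * y k.succ - w i * y 0 := by ring
      rw [this]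
      exact hw i

end Koszul

section Monomial

theorem ofList_le_iff {ts : List B} {J : Ideal B} : ofList ts ≤ J ↔ ∀ t ∈ ts, t ∈ J := by
  unfold ofList
  rw [span_le]
  rfl

variable [IsLocalRing B] [IsNoetherianRing B]

/-- For a regular system of parameters `ts` modulo `I`, the monomial `∏ t^(N-1)` does not lie in
`I + (t^N : t ∈ ts)`. -/
theorem prod_pow_notMem (N : ℕ) (hN : 1 ≤ N) :
    ∀ (ts : List B) (I : Ideal B), (∀ t ∈ ts, t ∈ maximalIdeal B) → I ≤ maximalIdeal B →
      RegOn I ts → MPrimary (I ⊔ ofList ts) →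
      (ts.map (· ^ (N - 1))).prod ∉ I ⊔ ofList (ts.map (· ^ N)) := by
  intro ts
  induction ts with
  | nil =>
    intro I _ hI _ _ h
    simp only [List.map_nil, List.prod_nil, ofList_nil, sup_bot_eq] at h
    exact (maximalIdeal B).ne_top_iff_one.mp (IsMaximal.ne_top inferInstance) (hI h)
  | cons t ts ih =>
    intro I hm hI hreg hprim hmem
    have htm : t ∈ maximalIdeal B := hm t (by simp)
    have hm' : ∀ s ∈ ts, s ∈ maximalIdeal B := fun s hs => hm s (List.mem_cons_of_mem _ hs)
    -- `t` is a nonzerodivisor modulo `I + (ts^N)`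
    have hfsm : ∀ f ∈ ts.map (· ^ N) ++ [t], f ∈ maximalIdeal B := by
      intro f hf
      rcases List.mem_append.mp hf with h | h
      · obtain ⟨s, hs, rfl⟩ := List.mem_map.mp h
        exact Ideal.pow_mem_of_mem _ (hm' s hs) N (by omega)
      · rw [List.mem_singleton] at h; rw [h]; exact htm
    have hfsp : MPrimary (I ⊔ ofList (ts.map (· ^ N) ++ [t])) := by
      apply mPrimary_of_forall_isPrime
      intro Q hQ hle
      apply hprim.eq_of_isPrime hQ
      refine sup_le (le_trans le_sup_left hle) ?_
      rw [ofList_le_iff]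
      intro s hs
      have hofl : ofList (ts.map (· ^ N) ++ [t]) ≤ Q := le_trans le_sup_right hle
      rw [ofList_le_iff] at hofl
      rcases List.mem_cons.mp hs with h | h
      · rw [h]; exact hofl t (by simp)
      · exact hQ.mem_of_pow_mem N (hofl (s ^ N) (by
          apply List.mem_append_left
          exact List.mem_map.mpr ⟨s, h, rfl⟩))
    have hex := (regOn_and_simpleSoc_of_mPrimary (ts.length + 1) I (t :: ts)
      (ts.map (· ^ N) ++ [t]) (by simp) (by simp) hm hfsm hreg hprim hfsp).1
    have hnzd : NZDMod (I ⊔ ofList (ts.map (· ^ N))) t :=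
      ((regOn_append_singleton I _ t).mp hex).2
    -- unfold the membership
    simp only [List.map_cons, List.prod_cons] at hmem
    rw [sup_ofList_cons] at hmem
    obtain ⟨a, ha, b, hb, hab⟩ := Submodule.mem_sup.mp hmem
    obtain ⟨a', ha', v, hv, hav⟩ := Submodule.mem_sup.mp ha
    obtain ⟨c, rfl⟩ := mem_span_singleton'.mp hv
    set P' := (ts.map (· ^ (N - 1))).prod with hP'
    have hpow : t ^ N = t ^ (N - 1) * t := by
      rw [← pow_succ]; congr 1; omega
    have h1 : t ^ (N - 1) * (P' - c * t) ∈ I ⊔ ofList (ts.map (· ^ N)) := by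
      have : t ^ (N - 1) * (P' - c * t) = a' + b := by
        have e1 : t ^ (N - 1) * P' = a' + c * t ^ N + b := by rw [← hab, ← hav]
        rw [mul_sub, e1, hpow]; ring
      rw [this]
      exact Submodule.add_mem_sup ha' hb
    have h2 := (hnzd.pow (N - 1)) _ h1
    have h3 : P' ∈ (I ⊔ span {t}) ⊔ ofList (ts.map (· ^ N)) := by
      have : P' = (P' - c * t) + c * t := by ring
      rw [this]
      refine Ideal.add_mem _ ?_ ?_
      · exact (sup_le (le_trans le_sup_left le_sup_left) le_sup_right : I ⊔ ofList _ ≤ _) h2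
      · exact Ideal.mem_sup_left (Ideal.mem_sup_right (mem_span_singleton'.mpr ⟨c, rfl⟩))
    refine ih (I ⊔ span {t}) hm' ?_ hreg.2 ?_ h3
    · exact sup_le hI (by rw [span_le]; simpa using htm)
    · rwa [← sup_ofList_cons]

end Monomial

end Fermat.Agent.S59lib.NumCrit
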