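import Mathlib

/-!
# Project I / N1 : regular sequences and simple socles in Noetherian local rings

Elementary (Kaplansky style) theory: in a Noetherian local ring possessing ONE regular system of
parameters relative to an ideal `I`, every sequence of the same length generating (with `I`) an
ideal primary to the maximal ideal is regular, and the property "simple socle" is transported.
No homological algebra.
-/

namespace Fermat.Agent.S59lib.NumCrit

open IsLocalRing Ideal

universe u

variable {C : Type u} [CommRing C]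

/-- `t` is a nonzerodivisor modulo the ideal `I`. -/
def NZDMod (I : Ideal C) (t : C) : Prop := ∀ c : C, t * c ∈ I → c ∈ I

/-- The list `ts` is a (weakly) regular sequence on `C ⧸ I`. -/
def RegOn : Ideal C → List C → Prop
  | _, [] => True
  | I, t :: ts => NZDMod I t ∧ RegOn (I ⊔ span {t}) ts

@[simp] theorem regOn_nil (I : Ideal C) : RegOn I [] := trivial

theorem regOn_cons (I : Ideal C) (t : C) (ts : List C) :
    RegOn I (t :: ts) ↔ NZDMod I t ∧ RegOn (I ⊔ span {t}) ts := Iff.rfl

theorem NZDMod.pow {I : Ideal C} {t : C} (h : NZDMod I t) (n : ℕ) : NZDMod I (t ^ n) := by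
  induction n with
  | zero => intro c hc; simpa using hc
  | succ n ih =>
    intro c hc
    apply ih
    apply h
    have : t * (t ^ n * c) = t ^ (n + 1) * c := by ring
    rw [this]; exact hc

theorem NZDMod.mul {I : Ideal C} {t t' : C} (h : NZDMod I t) (h' : NZDMod I t') :
    NZDMod I (t * t') := by
  intro c hc
  apply h'
  apply h
  have : t * (t' * c) = t * t' * c := by ring
  rw [this]; exact hc

theorem ofList_cons' (t : C) (ts : List C) : ofList (t :: ts) = span {t} ⊔ ofList ts := by
  simp [Ideal.ofList_cons]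

theorem sup_ofList_cons (I : Ideal C) (t : C) (ts : List C) :
    I ⊔ ofList (t :: ts) = (I ⊔ span {t}) ⊔ ofList ts := by
  rw [ofList_cons', sup_assoc]

theorem regOn_append (I : Ideal C) (ts us : List C) :
    RegOn I (ts ++ us) ↔ RegOn I ts ∧ RegOn (I ⊔ ofList ts) us := by
  induction ts generalizing I with
  | nil => simp
  | cons t ts ih =>
    rw [List.cons_append, regOn_cons, regOn_cons, ih, sup_ofList_cons, and_assoc]

theorem regOn_append_singleton (I : Ideal C) (ts : List C) (t : C) :
    RegOn I (ts ++ [t]) ↔ RegOn I ts ∧ NZDMod (I ⊔ ofList ts) t := by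
  rw [regOn_append]
  simp [RegOn]


section LocalOnly

variable [IsLocalRing C]

/-- `I` is primary to the maximal ideal (or is the unit ideal). -/
def MPrimary (I : Ideal C) : Prop := maximalIdeal C ≤ I.radical

theorem MPrimary.mono {I J : Ideal C} (h : MPrimary I) (hIJ : I ≤ J) : MPrimary J :=
  le_trans h (Ideal.radical_mono hIJ)

theorem mPrimary_maximalIdeal : MPrimary (maximalIdeal C) := Ideal.le_radical

theorem MPrimary.eq_of_isPrime {I : Ideal C} (h : MPrimary I) {Q : Ideal C} (hQ : Q.IsPrime)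
    (hIQ : I ≤ Q) : Q = maximalIdeal C := by
  have h1 : maximalIdeal C ≤ Q := le_trans h (hQ.isRadical.radical_le_iff.mpr hIQ)
  exact ((maximalIdeal.isMaximal C).eq_of_le hQ.ne_top h1).symm

theorem mPrimary_of_forall_isPrime {I : Ideal C}
    (h : ∀ Q : Ideal C, Q.IsPrime → I ≤ Q → Q = maximalIdeal C) : MPrimary I := by
  unfold MPrimary
  rw [Ideal.radical_eq_sInf]
  apply le_sInf
  rintro Q ⟨hIQ, hQ⟩
  rw [h Q hQ hIQ]

end LocalOnly

section Local

variable [IsLocalRing C] [IsNoetherianRing C]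

/-- Krull intersection, in the form used below. -/
theorem mem_of_forall_mem_sup_pow (I : Ideal C) {a : C} (ha : a ∈ maximalIdeal C) (c : C)
    (h : ∀ n : ℕ, c ∈ I ⊔ span {a ^ n}) : c ∈ I := by
  have hne : (span {a} : Ideal C) ≠ ⊤ := by
    intro htop
    have : (1 : C) ∈ maximalIdeal C := by
      have h1 : (1 : C) ∈ span {a} := by rw [htop]; trivial
      exact (span_le.mpr (by simpa using ha)) h1
    exact (maximalIdeal C).ne_top_iff_one.mp (IsMaximal.ne_top inferInstance) this
  have key := Ideal.iInf_pow_smul_eq_bot_of_isLocalRing (R := C) (M := C ⧸ I) (span {a}) hne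
  have hmem : (Submodule.Quotient.mk c : C ⧸ I) ∈
      (⨅ i : ℕ, (span {a} : Ideal C) ^ i • ⊤ : Submodule C (C ⧸ I)) := by
    rw [Submodule.mem_iInf]
    intro i
    obtain ⟨j, hj, w, hw, rfl⟩ := Submodule.mem_sup.mp (h i)
    obtain ⟨v, rfl⟩ := mem_span_singleton'.mp hw
    have h0 : (Submodule.Quotient.mk j : C ⧸ I) = 0 := (Submodule.Quotient.mk_eq_zero I).mpr hj
    have : (Submodule.Quotient.mk (j + v * a ^ i) : C ⧸ I) = a ^ i • Submodule.Quotient.mk v := by
      rw [Submodule.Quotient.mk_add, h0, zero_add, ← Submodule.Quotient.mk_smul, smul_eq_mul,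
        mul_comm]
    rw [this]
    exact Submodule.smul_mem_smul (Ideal.pow_mem_pow (mem_span_singleton_self a) i)
      Submodule.mem_top
  rw [key, Submodule.mem_bot] at hmem
  exact (Submodule.Quotient.mk_eq_zero I).mp hmem

/-- Swapping the first two elements of a regular sequence (elements of the maximal ideal). -/
theorem regOn_swap (I : Ideal C) {a b : C} (ha : a ∈ maximalIdeal C) (ts : List C)
    (h : RegOn I (a :: b :: ts)) : RegOn I (b :: a :: ts) := by
  obtain ⟨hA, hB, hT⟩ := h
  have hBI : NZDMod I b := by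
    intro c hc
    apply mem_of_forall_mem_sup_pow I ha
    intro n
    induction n with
    | zero => simp
    | succ n ih =>
      obtain ⟨j, hj, w, hw, hjw⟩ := Submodule.mem_sup.mp ih
      obtain ⟨v, rfl⟩ := mem_span_singleton'.mp hw
      -- c = j + v a^n, b c ∈ I ⟹ a^n (b v) ∈ I ⟹ b v ∈ I ⟹ v ∈ I + (a)
      have h1 : a ^ n * (b * v) ∈ I := by
        have : a ^ n * (b * v) = b * c - b * j := by rw [← hjw]; ring
        rw [this]
        exact I.sub_mem hc (I.mul_mem_left b hj)
      have h2 : b * v ∈ I := (hA.pow n) _ h1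
      have h3 : v ∈ I ⊔ span {a} := hB v (Ideal.mem_sup_left h2)
      obtain ⟨j', hj', w', hw', rfl⟩ := Submodule.mem_sup.mp h3
      obtain ⟨v', rfl⟩ := mem_span_singleton'.mp hw'
      rw [← hjw]
      have : j + (j' + v' * a) * a ^ n = (j + j' * a ^ n) + v' * a ^ (n + 1) := by ring
      rw [this]
      exact Submodule.add_mem_sup (I.add_mem hj (I.mul_mem_right _ hj'))
        (mem_span_singleton'.mpr ⟨v', rfl⟩)
  refine ⟨hBI, ?_, ?_⟩
  · intro c hc
    -- a c = j + v b ⟹ b v ∈ I + (a) ⟹ v ∈ I + (a)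
    obtain ⟨j, hj, w, hw, hjw⟩ := Submodule.mem_sup.mp hc
    obtain ⟨v, rfl⟩ := mem_span_singleton'.mp hw
    have h1 : b * v ∈ I ⊔ span {a} := by
      have : b * v = a * c - j := by rw [← hjw]; ring
      rw [this]
      exact Ideal.sub_mem _ (Ideal.mem_sup_right (mem_span_singleton'.mpr ⟨c, by ring⟩))
        (Ideal.mem_sup_left hj)
    obtain ⟨j', hj', w', hw', hjw'⟩ := Submodule.mem_sup.mp (hB v h1)
    obtain ⟨v', rfl⟩ := mem_span_singleton'.mp hw'
    have h2 : a * (c - v' * b) ∈ I := by
      have : a * (c - v' * b) = j + j' * b := by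
        have e1 : a * c = j + v * b := hjw.symm
        have e2 : v = j' + v' * a := hjw'.symm
        rw [mul_sub, e1, e2]; ring
      rw [this]
      exact I.add_mem hj (I.mul_mem_right _ hj')
    have h3 := hA _ h2
    have : c = (c - v' * b) + v' * b := by ring
    rw [this]
    exact Submodule.add_mem_sup h3 (mem_span_singleton'.mpr ⟨v', rfl⟩)
  · rwa [sup_right_comm]

/-- Regular sequences in the maximal ideal of a Noetherian local ring are permutable. -/
theorem regOn_perm {l₁ l₂ : List C} (hp : l₁.Perm l₂) :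
    ∀ (I : Ideal C), (∀ t ∈ l₁, t ∈ maximalIdeal C) → RegOn I l₁ → RegOn I l₂ := by
  induction hp with
  | nil => intro I _ h; exact h
  | cons x _ ih =>
    intro I hm h
    exact ⟨h.1, ih _ (fun t ht => hm t (List.mem_cons_of_mem _ ht)) h.2⟩
  | swap x y l =>
    intro I hm h
    exact regOn_swap I (hm y (by simp)) l h
  | trans h₁ _ ih₁ ih₂ =>
    intro I hm h
    exact ih₂ I (fun t ht => hm t (h₁.mem_iff.mpr ht)) (ih₁ I hm h)

theorem MPrimary.exists_pow_le {I : Ideal C} (h : MPrimary I) : ∃ N : ℕ, maximalIdeal C ^ N ≤ I :=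
  Ideal.exists_pow_le_of_le_radical_of_fg h (IsNoetherian.noetherian _)

theorem MPrimary.exists_pow_mem {I : Ideal C} (h : MPrimary I) {t : C} (ht : t ∈ maximalIdeal C) :
    ∃ N : ℕ, t ^ N ∈ I := by
  obtain ⟨N, hN⟩ := h.exists_pow_le
  exact ⟨N, hN (Ideal.pow_mem_pow ht N)⟩

/-- If `J + (y)` is primary to the maximal ideal then so is `J + (z)` as soon as `z` avoids the
non-maximal minimal primes of `J` (Krull's principal ideal theorem). -/
theorem MPrimary.exchange {J : Ideal C} {y z : C} (hy : y ∈ maximalIdeal C)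
    (h : MPrimary (J ⊔ span {y}))
    (hz : ∀ Q ∈ J.minimalPrimes, Q ≠ maximalIdeal C → z ∉ Q) : MPrimary (J ⊔ span {z}) := by
  apply mPrimary_of_forall_isPrime
  intro Q hQ hJQ
  by_contra hne
  have hJ : J ≤ Q := le_trans le_sup_left hJQ
  have hzQ : z ∈ Q := hJQ (Ideal.mem_sup_right (mem_span_singleton_self z))
  have hQm : Q < maximalIdeal C := lt_of_le_of_ne (le_maximalIdeal hQ.ne_top) hne
  -- the maximal ideal is minimal over `J + (y)`
  have hmin : maximalIdeal C ∈ (span (insert y (J : Set C))).minimalPrimes := by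
    have hspan : span (insert y (J : Set C)) = J ⊔ span {y} := by
      rw [Ideal.span_insert, Ideal.span_eq, sup_comm]
    rw [hspan]
    refine ⟨⟨(maximalIdeal.isMaximal C).isPrime, sup_le (hJ.trans hQm.le) ?_⟩, ?_⟩
    · rw [span_le]; simpa using hy
    · intro Q' hQ' _
      exact (h.eq_of_isPrime hQ'.1 hQ'.2).symm.le
  have := Ideal.mem_minimalPrimes_span_of_mem_minimalPrimes_span_insert hQm y (J : Set C) hmin
    (J : Set C) hJ (fun x hx => Ideal.le_radical (subset_span (Set.mem_insert_of_mem _ hx)))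
  rw [Ideal.span_eq] at this
  exact hz Q this hne hzQ

/-- An element of the maximal ideal avoiding the non-maximal minimal primes of two ideals. -/
theorem exists_avoid_minimalPrimes (J₁ J₂ : Ideal C) :
    ∃ z ∈ maximalIdeal C, (∀ Q ∈ J₁.minimalPrimes, Q ≠ maximalIdeal C → z ∉ Q) ∧
      (∀ Q ∈ J₂.minimalPrimes, Q ≠ maximalIdeal C → z ∉ Q) := by
  classical
  set S : Set (Ideal C) := {Q | (Q ∈ J₁.minimalPrimes ∨ Q ∈ J₂.minimalPrimes) ∧
    Q ≠ maximalIdeal C} with hS
  have hfin : S.Finite := by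
    apply Set.Finite.subset ((Ideal.finite_minimalPrimes_of_isNoetherianRing C J₁).union
      (Ideal.finite_minimalPrimes_of_isNoetherianRing C J₂))
    intro Q hQ; exact hQ.1
  have hnot : ¬ ((maximalIdeal C : Set C) ⊆ ⋃ Q ∈ S, (Q : Set C)) := by
    intro hsub
    have hprime : ∀ Q ∈ S, Q ≠ ⊥ → Q ≠ ⊥ → Q.IsPrime := by
      intro Q hQ _ _
      rcases hQ.1 with h | h
      · exact h.isPrime
      · exact h.isPrime
    obtain ⟨Q, hQS, hle⟩ := (Ideal.subset_union_prime_finite hfin (f := fun Q => Q) ⊥ ⊥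
      hprime).mp hsub
    have hQp : Q.IsPrime := by
      rcases hQS.1 with h | h
      · exact h.isPrime
      · exact h.isPrime
    exact hQS.2 ((maximalIdeal.isMaximal C).eq_of_le hQp.ne_top hle).symm
  rw [Set.not_subset] at hnot
  obtain ⟨z, hzm, hz⟩ := hnot
  refine ⟨z, hzm, fun Q hQ hne hzQ => hz ?_, fun Q hQ hne hzQ => hz ?_⟩
  · exact Set.mem_biUnion (show Q ∈ S from ⟨Or.inl hQ, hne⟩) hzQ
  · exact Set.mem_biUnion (show Q ∈ S from ⟨Or.inr hQ, hne⟩) hzQ

/-- If `x` (in the maximal ideal) is a nonzerodivisor modulo `J` and `J + (t)` is primary to the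
maximal ideal, then `t` is a nonzerodivisor modulo `J`. -/
theorem nzdMod_of_mPrimary {J : Ideal C} {x t : C} (hx : x ∈ maximalIdeal C) (hxJ : NZDMod J x)
    (h : MPrimary (J ⊔ span {t})) : NZDMod J t := by
  obtain ⟨N, hN⟩ := h.exists_pow_mem hx
  obtain ⟨j, hj, w, hw, hjw⟩ := Submodule.mem_sup.mp hN
  obtain ⟨v, rfl⟩ := mem_span_singleton'.mp hw
  intro c hc
  apply hxJ.pow N
  have : x ^ N * c = j * c + v * (t * c) := by rw [← hjw]; ring
  rw [this]
  exact J.add_mem (J.mul_mem_right _ hj) (J.mul_mem_left _ hc)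

end Local

section Socle

variable [IsLocalRing C]

/-- The quotient `C ⧸ I` has a simple socle (stated inside `C`): the colon ideal `(I : 𝔪)` is
generated modulo `I` by a single element not in `I`. -/
def SimpleSoc (I : Ideal C) : Prop :=
  ∃ s : C, s ∉ I ∧ (∀ m ∈ maximalIdeal C, m * s ∈ I) ∧
    ∀ u : C, (∀ m ∈ maximalIdeal C, m * u ∈ I) → ∃ c : C, u - c * s ∈ I

theorem simpleSoc_maximalIdeal : SimpleSoc (maximalIdeal C) := by
  refine ⟨1, ?_, fun m hm => by simpa using hm, fun u _ => ⟨u, by simp⟩⟩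
  exact (maximalIdeal C).ne_top_iff_one.mp (IsMaximal.ne_top inferInstance)

private theorem soc_rel_exists {J : Ideal C} {t t' : C} (ht' : t' ∈ maximalIdeal C) {u : C}
    (hu : ∀ m ∈ maximalIdeal C, m * u ∈ J ⊔ span {t}) : ∃ u' : C, u * t' - u' * t ∈ J := by
  obtain ⟨j, hj, w, hw, hjw⟩ := Submodule.mem_sup.mp (hu t' ht')
  obtain ⟨v, rfl⟩ := mem_span_singleton'.mp hw
  refine ⟨v, ?_⟩
  have : u * t' - v * t = j := by
    have : t' * u = j + v * t := hjw.symm
    rw [mul_comm u t', this]; ring
  rw [this]; exact hj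

private theorem soc_rel_soc {J : Ideal C} {t t' : C} (ht : NZDMod J t) {u u' : C}
    (hrel : u * t' - u' * t ∈ J) (hu : ∀ m ∈ maximalIdeal C, m * u ∈ J ⊔ span {t}) :
    ∀ m ∈ maximalIdeal C, m * u' ∈ J ⊔ span {t'} := by
  intro m hm
  obtain ⟨j, hj, w, hw, hjw⟩ := Submodule.mem_sup.mp (hu m hm)
  obtain ⟨v, rfl⟩ := mem_span_singleton'.mp hw
  have h1 : t * (m * u' - v * t') ∈ J := by
    have : t * (m * u' - v * t') = j * t' - m * (u * t' - u' * t) := by
      have e : m * u = j + v * t := hjw.symm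
      have : m * u * t' = (j + v * t) * t' := by rw [e]
      linear_combination this
    rw [this]
    exact J.sub_mem (J.mul_mem_right _ hj) (J.mul_mem_left _ hrel)
  have h2 := ht _ h1
  have : m * u' = (m * u' - v * t') + v * t' := by ring
  rw [this]
  exact Submodule.add_mem_sup h2 (mem_span_singleton'.mpr ⟨v, rfl⟩)

omit [IsLocalRing C] in
private theorem soc_rel_mem {J : Ideal C} {t t' : C} (ht : NZDMod J t) {u u' : C}
    (hrel : u * t' - u' * t ∈ J) (hu : u ∈ J ⊔ span {t}) : u' ∈ J ⊔ span {t'} := by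
  obtain ⟨j, hj, w, hw, hjw⟩ := Submodule.mem_sup.mp hu
  obtain ⟨v, rfl⟩ := mem_span_singleton'.mp hw
  have h1 : t * (u' - v * t') ∈ J := by
    have : t * (u' - v * t') = j * t' - (u * t' - u' * t) := by
      rw [← hjw]; ring
    rw [this]
    exact J.sub_mem (J.mul_mem_right _ hj) hrel
  have h2 := ht _ h1
  have : u' = (u' - v * t') + v * t' := by ring
  rw [this]
  exact Submodule.add_mem_sup h2 (mem_span_singleton'.mpr ⟨v, rfl⟩)

/-- One-dimensional exchange: if `t, t'` (in the maximal ideal) are nonzerodivisors modulo `J`,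
then `J + (t)` has a simple socle iff `J + (t')` has. -/
theorem SimpleSoc.exchange {J : Ideal C} {t t' : C} (ht : NZDMod J t) (ht' : NZDMod J t')
    (htm : t ∈ maximalIdeal C) (htm' : t' ∈ maximalIdeal C) (h : SimpleSoc (J ⊔ span {t})) :
    SimpleSoc (J ⊔ span {t'}) := by
  obtain ⟨s, hs, hsoc, hgen⟩ := h
  obtain ⟨s', hrel⟩ := soc_rel_exists (J := J) htm' hsoc
  have hrel' : s' * t - s * t' ∈ J := by
    have : s' * t - s * t' = -(s * t' - s' * t) := by ring
    rw [this]; exact J.neg_mem hrel
  refine ⟨s', ?_, soc_rel_soc ht hrel hsoc, ?_⟩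
  · intro hs'
    exact hs (soc_rel_mem ht' hrel' hs')
  · intro u' hu'
    obtain ⟨u, hu⟩ := soc_rel_exists (J := J) htm hu'
    -- hu : u' * t - u * t' ∈ J
    have husoc := soc_rel_soc ht' hu hu'
    obtain ⟨c, hc⟩ := hgen u husoc
    refine ⟨c, ?_⟩
    have hrel2 : (u - c * s) * t' - (u' - c * s') * t ∈ J := by
      have : (u - c * s) * t' - (u' - c * s') * t =
          -(u' * t - u * t') - c * (s * t' - s' * t) := by ring
      rw [this]
      exact J.sub_mem (J.neg_mem hu) (J.mul_mem_left _ hrel)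
    exact soc_rel_mem ht hrel2 hc

end Socle

section Main

variable [IsLocalRing C] [IsNoetherianRing C]

omit [IsNoetherianRing C] in
theorem ofList_le_maximalIdeal {ts : List C} (h : ∀ t ∈ ts, t ∈ maximalIdeal C) :
    ofList ts ≤ maximalIdeal C := by
  unfold ofList
  rw [span_le]
  intro t ht
  exact h t ht

/-- **Exchange theorem.** Let `I` be an ideal of a Noetherian local ring `C`, `xs` a sequence in
the maximal ideal, regular on `C ⧸ I`, with `I + (xs)` primary to the maximal ideal.  Then every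
sequence `fs` of the same length in the maximal ideal with `I + (fs)` primary to the maximal ideal
is regular on `C ⧸ I`, and if `C ⧸ (I + (xs))` has a simple socle so has `C ⧸ (I + (fs))`. -/
theorem regOn_and_simpleSoc_of_mPrimary (n : ℕ) :
    ∀ (I : Ideal C) (xs fs : List C), xs.length = n → fs.length = n →
      (∀ x ∈ xs, x ∈ maximalIdeal C) → (∀ f ∈ fs, f ∈ maximalIdeal C) →
      RegOn I xs → MPrimary (I ⊔ ofList xs) → MPrimary (I ⊔ ofList fs) →
      RegOn I fs ∧ (SimpleSoc (I ⊔ ofList xs) → SimpleSoc (I ⊔ ofList fs)) := by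
  induction n with
  | zero =>
    intro I xs fs hx hf _ _ _ _ _
    rw [List.length_eq_zero_iff] at hx hf
    subst hx; subst hf
    exact ⟨trivial, id⟩
  | succ n ih =>
    intro I xs fs hx hf hxm hfm hreg hxp hfp
    obtain ⟨x, xs', rfl⟩ := List.exists_cons_of_length_eq_add_one hx
    obtain ⟨f, fs', rfl⟩ := List.exists_cons_of_length_eq_add_one hf
    have hx' : xs'.length = n := by simpa using hx
    have hf' : fs'.length = n := by simpa using hf
    have hxm0 : x ∈ maximalIdeal C := hxm x (by simp)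
    have hfm0 : f ∈ maximalIdeal C := hfm f (by simp)
    have hxm' : ∀ t ∈ xs', t ∈ maximalIdeal C := fun t ht => hxm t (List.mem_cons_of_mem _ ht)
    have hfm' : ∀ t ∈ fs', t ∈ maximalIdeal C := fun t ht => hfm t (List.mem_cons_of_mem _ ht)
    -- rotate `x` to the end
    have hreg1 : RegOn I (xs' ++ [x]) :=
      regOn_perm (List.perm_append_singleton x xs').symm I hxm hreg
    obtain ⟨hregx', hxnzd⟩ := (regOn_append_singleton I xs' x).mp hreg1
    -- primary-ness rewritten
    have hxp' : MPrimary ((I ⊔ ofList xs') ⊔ span {x}) := by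
      refine hxp.mono (le_of_eq ?_)
      rw [ofList_cons', sup_assoc, sup_comm (span {x})]
    have hfp' : MPrimary ((I ⊔ ofList fs') ⊔ span {f}) := by
      refine hfp.mono (le_of_eq ?_)
      rw [ofList_cons', sup_assoc, sup_comm (span {f})]
    -- choose `z`
    obtain ⟨z, hzm, hz1, hz2⟩ := exists_avoid_minimalPrimes (I ⊔ ofList xs') (I ⊔ ofList fs')
    have hzx : MPrimary ((I ⊔ ofList xs') ⊔ span {z}) := hxp'.exchange hxm0 hz1
    have hzf : MPrimary ((I ⊔ ofList fs') ⊔ span {z}) := hfp'.exchange hfm0 hz2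
    have hznzd : NZDMod (I ⊔ ofList xs') z := nzdMod_of_mPrimary hxm0 hxnzd hzx
    -- `z :: xs'` is regular on `C ⧸ I`
    have hreg2 : RegOn I (z :: xs') := by
      have : RegOn I (xs' ++ [z]) := (regOn_append_singleton I xs' z).mpr ⟨hregx', hznzd⟩
      refine regOn_perm (List.perm_append_singleton z xs') I ?_ this
      intro t ht
      rcases List.mem_append.mp ht with h | h
      · exact hxm' t h
      · rw [List.mem_singleton] at h; rw [h]; exact hzm
    obtain ⟨hzI, hreg3⟩ := hreg2
    -- induction hypothesis over the base ideal `I + (z)`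
    have hzx' : MPrimary ((I ⊔ span {z}) ⊔ ofList xs') := by
      refine hzx.mono (le_of_eq ?_); rw [sup_right_comm]
    have hzf' : MPrimary ((I ⊔ span {z}) ⊔ ofList fs') := by
      refine hzf.mono (le_of_eq ?_); rw [sup_right_comm]
    obtain ⟨hreg4, hsoc4⟩ := ih (I ⊔ span {z}) xs' fs' hx' hf' hxm' hfm' hreg3 hzx' hzf'
    -- `fs' ++ [z]` is regular on `C ⧸ I`
    have hreg5 : RegOn I (fs' ++ [z]) := by
      refine regOn_perm (List.perm_append_singleton z fs').symm I ?_ ⟨hzI, hreg4⟩
      intro t ht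
      rcases List.mem_cons.mp ht with h | h
      · rw [h]; exact hzm
      · exact hfm' t h
    obtain ⟨hregf', hznzd'⟩ := (regOn_append_singleton I fs' z).mp hreg5
    have hfnzd : NZDMod (I ⊔ ofList fs') f := nzdMod_of_mPrimary hzm hznzd' hfp'
    have hreg6 : RegOn I (f :: fs') := by
      have : RegOn I (fs' ++ [f]) := (regOn_append_singleton I fs' f).mpr ⟨hregf', hfnzd⟩
      refine regOn_perm (List.perm_append_singleton f fs') I ?_ this
      intro t ht
      rcases List.mem_append.mp ht with h | h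
      · exact hfm' t h
      · rw [List.mem_singleton] at h; rw [h]; exact hfm0
    refine ⟨hreg6, ?_⟩
    intro hs
    -- socle chain
    have e1 : I ⊔ ofList (x :: xs') = (I ⊔ ofList xs') ⊔ span {x} := by
      rw [ofList_cons', sup_assoc, sup_comm (span {x})]
    have e2 : I ⊔ ofList (f :: fs') = (I ⊔ ofList fs') ⊔ span {f} := by
      rw [ofList_cons', sup_assoc, sup_comm (span {f})]
    rw [e1] at hs
    rw [e2]
    have s1 : SimpleSoc ((I ⊔ ofList xs') ⊔ span {z}) := hs.exchange hxnzd hznzd hxm0 hzm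
    have s2 : SimpleSoc ((I ⊔ span {z}) ⊔ ofList fs') := by
      apply hsoc4
      rwa [sup_right_comm]
    have s3 : SimpleSoc ((I ⊔ ofList fs') ⊔ span {z}) := by rwa [sup_right_comm]
    exact s3.exchange hznzd' hfnzd hzm hfm0

end Main

end Fermat.Agent.S59lib.NumCrit
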