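import Fermat.Agent.S59lib.NumCrit.Crit

/-!
# Project I / N1 : Tate's formula for complete intersections

For a complete intersection `F = (a y)` in the ambient ring with `P ⧸ (F + ϖ)` of finite length and
`ε (det a) ≠ 0`:

* `IsAmbient.det_notMem` : `det a ∉ F + (ϖ)`;
* `IsAmbient.etaIdeal_span_eq` : the congruence ideal of `F` is generated by `ε (det a)`;
* `IsAmbient.relLattice_span_eq` : the relation lattice of `F` is the row space of `ε a`;
* `IsAmbient.length_eq_of_span` : `length (𝒪ⁿ ⧸ relLattice) = length (𝒪 ⧸ etaIdeal)`.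
-/

set_option linter.unusedSectionVars false

namespace Fermat.Agent.S59lib.NumCrit

open Matrix Ideal IsLocalRing

universe u v

section Tate

variable {𝒪 : Type v} [CommRing 𝒪] [IsDomain 𝒪] [IsDiscreteValuationRing 𝒪]
variable {P : Type u} [CommRing P] [IsLocalRing P] [IsNoetherianRing P] [Algebra 𝒪 P]
variable {n : ℕ} {ε : P →ₐ[𝒪] 𝒪} {y : Fin n → P} {ϖ : 𝒪}

/-- The determinant of a matrix `a` such that `(a y, ϖ)` is a system of parameters does not lie in
`(a y) + (ϖ)` (it generates the socle). -/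
theorem IsAmbient.det_notMem (h : IsAmbient ε y ϖ) (a : Matrix (Fin n) (Fin n) P)
    (hprim : MPrimary (span (Set.range (a *ᵥ y)) ⊔ span {algebraMap 𝒪 P ϖ})) :
    a.det ∉ span (Set.range (a *ᵥ y)) ⊔ span {algebraMap 𝒪 P ϖ} := by
  set ϖP := algebraMap 𝒪 P ϖ with hϖP
  set F := span (Set.range (a *ᵥ y)) with hF
  obtain ⟨N₀, hN₀⟩ := hprim.exists_pow_le
  set N := N₀ + 1 with hN
  have hyN : ∀ i, y i ^ N ∈ F ⊔ span {ϖP} := fun i =>
    hN₀ (Ideal.pow_le_pow_right (Nat.le_succ _) (Ideal.pow_mem_pow (h.y_mem_maximalIdeal i) N))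
  have hdec : ∀ i, ∃ c : Fin n → P, ∃ v : P, y i ^ N = ∑ k, c k * (a *ᵥ y) k + ϖP * v := by
    intro i
    obtain ⟨p, hp, w, hw, hpw⟩ := Submodule.mem_sup.mp (hyN i)
    obtain ⟨c, hc⟩ := Ideal.mem_span_range_iff_exists_fun.mp hp
    obtain ⟨v, rfl⟩ := mem_span_singleton'.mp hw
    exact ⟨c, v, by rw [← hpw, hc]; ring⟩
  choose c v hcv using hdec
  set C : Matrix (Fin n) (Fin n) P := Matrix.of c with hC
  set D : Matrix (Fin n) (Fin n) P := Matrix.diagonal (fun i => y i ^ (N - 1)) with hD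
  have hDy : ∀ i, (D *ᵥ y) i = y i ^ N := by
    intro i
    rw [hD, mulVec_diagonal, ← pow_succ]
    congr 1
  have hCy : ∀ i, ((C * a) *ᵥ y) i = ∑ k, c i k * (a *ᵥ y) k := by
    intro i
    rw [← mulVec_mulVec]
    rfl
  have hdiff : ∀ i, (D *ᵥ y) i - ((C * a) *ᵥ y) i ∈ span {ϖP} := by
    intro i
    rw [hDy, hCy, hcv i]
    exact mem_span_singleton'.mpr ⟨v i, by ring⟩
  have hmem := det_sub_det_mem h.isKoszul_varpi D (C * a) hdiff
  intro hda
  -- `C.det * f k` lies in `(ϖ) + (y^N)`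
  have hG : ∀ i, (C *ᵥ (a *ᵥ y)) i ∈ span {ϖP} ⊔ span (Set.range (D *ᵥ y)) := by
    intro i
    have : (C *ᵥ (a *ᵥ y)) i = (D *ᵥ y) i - ϖP * v i := by
      rw [hDy, hcv i]
      show ∑ k, c i k * (a *ᵥ y) k = _
      ring
    rw [this]
    exact Ideal.sub_mem _ (Ideal.mem_sup_right (subset_span ⟨i, rfl⟩))
      (Ideal.mem_sup_left (mem_span_singleton'.mpr ⟨v i, by ring⟩))
  have hCf : ∀ k, C.det * (a *ᵥ y) k ∈ span {ϖP} ⊔ span (Set.range (D *ᵥ y)) :=
    det_mul_mem C (a *ᵥ y) _ hG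
  have hCF : ∀ x ∈ F, C.det * x ∈ span {ϖP} ⊔ span (Set.range (D *ᵥ y)) := by
    intro x hx
    obtain ⟨b, rfl⟩ := Ideal.mem_span_range_iff_exists_fun.mp hx
    rw [Finset.mul_sum]
    refine Ideal.sum_mem _ (fun k _ => ?_)
    have : C.det * (b k * (a *ᵥ y) k) = b k * (C.det * (a *ᵥ y) k) := by ring
    rw [this]
    exact Ideal.mul_mem_left _ _ (hCf k)
  have hCa : (C * a).det ∈ span {ϖP} ⊔ span (Set.range (D *ᵥ y)) := by
    rw [det_mul]
    obtain ⟨x, hx, w, hw, hxw⟩ := Submodule.mem_sup.mp hda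
    obtain ⟨t, rfl⟩ := mem_span_singleton'.mp hw
    rw [← hxw, mul_add]
    refine Ideal.add_mem _ (hCF x hx) (Ideal.mem_sup_left (mem_span_singleton'.mpr ⟨C.det * t, by ring⟩))
  have hDdet : D.det ∈ span {ϖP} ⊔ span (Set.range (D *ᵥ y)) := by
    have : D.det = (D.det - (C * a).det) + (C * a).det := by ring
    rw [this]
    exact Ideal.add_mem _ hmem hCa
  -- contradiction with the monomial lemma
  have hmono := prod_pow_notMem N (by omega) (List.ofFn y) (span {ϖP})
    (fun t ht => by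
      obtain ⟨i, rfl⟩ := (List.mem_ofFn' y t).mp ht
      exact h.y_mem_maximalIdeal i)
    (by rw [span_le]; simpa using h.varpi_mem_maximalIdeal)
    h.regOn_varpi_y
    (by rw [ofList_ofFn, sup_comm, ← h.maximalIdeal_eq]; exact mPrimary_maximalIdeal)
  apply hmono
  have e1 : ((List.ofFn y).map (· ^ (N - 1))).prod = D.det := by
    rw [hD, det_diagonal, List.map_ofFn, List.prod_ofFn]
    rfl
  have e2 : ofList ((List.ofFn y).map (· ^ N)) = span (Set.range (D *ᵥ y)) := by
    rw [List.map_ofFn, ofList_ofFn]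
    congr 1
    ext x
    simp only [Set.mem_range, Function.comp_apply, hDy]
  rw [e1, e2]
  exact hDdet

/-- `a y` lies in the maximal ideal. -/
theorem IsAmbient.mulVec_mem_span (_h : IsAmbient ε y ϖ) (a : Matrix (Fin n) (Fin n) P) (k : Fin n) :
    (a *ᵥ y) k ∈ span (Set.range y) := by
  rw [mulVec, dotProduct]
  exact Ideal.sum_mem _ (fun i _ => Ideal.mul_mem_left _ _ (subset_span ⟨i, rfl⟩))

/-- `ϖ` is a nonzerodivisor modulo a complete intersection. -/
theorem IsAmbient.nzdMod_span (h : IsAmbient ε y ϖ) (a : Matrix (Fin n) (Fin n) P)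
    (hprim : MPrimary (span (Set.range (a *ᵥ y)) ⊔ span {algebraMap 𝒪 P ϖ})) :
    NZDMod (span (Set.range (a *ᵥ y))) (algebraMap 𝒪 P ϖ) := by
  have hreg := (h.regOn_and_simpleSoc (a *ᵥ y)
    (fun k => h.span_y_le_maximalIdeal (h.mulVec_mem_span a k)) hprim).1
  have := ((regOn_append_singleton _ _ _).mp hreg).2
  rwa [bot_sup_eq, ofList_ofFn] at this

/-- An element of `(F : 𝔭)` in `𝔭` lies in `F`, for `F = (a y)` with `ε (det a) ≠ 0`. -/
theorem IsAmbient.mem_span_of_colon (h : IsAmbient ε y ϖ) (a : Matrix (Fin n) (Fin n) P)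
    (hnzd : NZDMod (span (Set.range (a *ᵥ y))) (algebraMap 𝒪 P ϖ)) (hdet : ε a.det ≠ 0)
    {u : P} (hu : ∀ i, u * y i ∈ span (Set.range (a *ᵥ y))) (hεu : ε u = 0) :
    u ∈ span (Set.range (a *ᵥ y)) := by
  set F := span (Set.range (a *ᵥ y)) with hF
  have hdy : ∀ i, a.det * y i ∈ F := det_mul_mem a y F (fun k => subset_span ⟨k, rfl⟩)
  obtain ⟨c, hc⟩ := h.exists_eq_sum_of_eps_eq_zero hεu
  obtain ⟨c', hc'⟩ := h.exists_eq_sum_of_eps_eq_zero
    (p := a.det - algebraMap 𝒪 P (ε a.det)) (by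
      rw [map_sub, AlgHom.commutes, Algebra.algebraMap_self_apply, sub_self])
  have h1 : a.det * u ∈ F := by
    rw [hc, Finset.mul_sum]
    refine Ideal.sum_mem _ (fun i _ => ?_)
    have : a.det * (c i * y i) = c i * (a.det * y i) := by ring
    rw [this]; exact Ideal.mul_mem_left _ _ (hdy i)
  have h2 : u * (a.det - algebraMap 𝒪 P (ε a.det)) ∈ F := by
    rw [hc', Finset.mul_sum]
    refine Ideal.sum_mem _ (fun i _ => ?_)
    have : u * (c' i * y i) = c' i * (u * y i) := by ring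
    rw [this]; exact Ideal.mul_mem_left _ _ (hu i)
  apply h.nzd_algebraMap hnzd hdet
  have : algebraMap 𝒪 P (ε a.det) * u = a.det * u - u * (a.det - algebraMap 𝒪 P (ε a.det)) := by
    ring
  rw [this]
  exact Ideal.sub_mem _ h1 h2

/-- **Tate's formula**: the congruence ideal of a complete intersection `(a y)` is generated by
`ε (det a)`. -/
theorem IsAmbient.etaIdeal_span_eq (h : IsAmbient ε y ϖ) (a : Matrix (Fin n) (Fin n) P)
    (hprim : MPrimary (span (Set.range (a *ᵥ y)) ⊔ span {algebraMap 𝒪 P ϖ}))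
    (hdet : ε a.det ≠ 0) :
    etaIdeal ε y (span (Set.range (a *ᵥ y))) = span {ε a.det} := by
  set F := span (Set.range (a *ᵥ y)) with hF
  set ϖP := algebraMap 𝒪 P ϖ with hϖP
  have hdy : ∀ i, a.det * y i ∈ F := det_mul_mem a y F (fun k => subset_span ⟨k, rfl⟩)
  have hnzd := h.nzdMod_span a hprim
  apply le_antisymm
  · intro c hc
    obtain ⟨u, hu, rfl⟩ := (mem_etaIdeal ε y).mp hc
    rw [mem_span_singleton]
    rcases ValuationRing.dvd_total (ε a.det) (ε u) with hd | hd
    · exact hd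
    · obtain ⟨w, hw⟩ := hd
      by_cases hwu : IsUnit w
      · obtain ⟨w', hw'⟩ := hwu.exists_right_inv
        refine ⟨w', ?_⟩
        rw [hw, mul_assoc, hw', mul_one]
      · exfalso
        have hwm : w ∈ maximalIdeal 𝒪 := (mem_maximalIdeal _).mpr hwu
        rw [h.irr.maximalIdeal_eq] at hwm
        obtain ⟨t, rfl⟩ := mem_span_singleton'.mp hwm
        -- `u' = det a - ϖ t u`
        set u' := a.det - ϖP * (algebraMap 𝒪 P t * u) with hu'
        have hu'y : ∀ i, u' * y i ∈ F := by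
          intro i
          have : u' * y i = a.det * y i - ϖP * algebraMap 𝒪 P t * (u * y i) := by
            rw [hu']; ring
          rw [this]
          exact Ideal.sub_mem _ (hdy i) (Ideal.mul_mem_left _ _ (hu i))
        have hεu' : ε u' = 0 := by
          rw [hu', map_sub, map_mul, map_mul, hϖP, AlgHom.commutes, AlgHom.commutes,
            Algebra.algebraMap_self_apply, Algebra.algebraMap_self_apply, hw]
          ring
        have hu'F := h.mem_span_of_colon a hnzd hdet hu'y hεu'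
        apply h.det_notMem a hprim
        have : a.det = u' + ϖP * (algebraMap 𝒪 P t * u) := by rw [hu']; ring
        rw [this]
        exact Ideal.add_mem _ (Ideal.mem_sup_left hu'F)
          (Ideal.mem_sup_right (mem_span_singleton'.mpr ⟨algebraMap 𝒪 P t * u, by ring⟩))
  · rw [span_le]
    intro c hc
    rw [Set.mem_singleton_iff] at hc
    rw [hc]
    exact (mem_etaIdeal ε y).mpr ⟨a.det, hdy, rfl⟩

/-- The relation lattice of a complete intersection `(a y)` is the row space of `ε a`. -/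
theorem IsAmbient.mem_relLattice_span_iff (h : IsAmbient ε y ϖ) (a : Matrix (Fin n) (Fin n) P)
    (c : Fin n → 𝒪) :
    c ∈ relLattice 𝒪 y (span (Set.range (a *ᵥ y))) ↔ ∃ b : Fin n → 𝒪, c = b ᵥ* a.map ε := by
  set F := span (Set.range (a *ᵥ y)) with hF
  constructor
  · intro hc
    obtain ⟨q, hq, x, hx, hqx⟩ := Submodule.mem_sup.mp ((mem_relLattice (y := y)).mp hc)
    obtain ⟨Q, hQ, rfl⟩ := (h.mem_sq_iff q).mp hq
    obtain ⟨b, rfl⟩ := Ideal.mem_span_range_iff_exists_fun.mp hx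
    refine ⟨fun k => ε (b k), ?_⟩
    have hsum : ∑ i, algebraMap 𝒪 P (c i) * y i = ∑ i, (Q i + ∑ k, b k * a k i) * y i := by
      rw [← hqx]
      simp only [add_mul, Finset.sum_add_distrib, Finset.sum_mul]
      congr 1
      rw [Finset.sum_comm]
      refine Finset.sum_congr rfl (fun k _ => ?_)
      rw [mulVec, dotProduct, Finset.mul_sum]
      exact Finset.sum_congr rfl (fun i _ => by ring)
    funext i
    have := h.eps_eq_of_sum_eq hsum i
    rw [AlgHom.commutes, Algebra.algebraMap_self_apply, map_add, hQ i, zero_add, map_sum] at this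
    rw [this, vecMul, dotProduct]
    exact Finset.sum_congr rfl (fun k _ => by rw [map_mul]; rfl)
  · rintro ⟨b, rfl⟩
    have hrow : ∀ k, (a.map ε) k ∈ relLattice 𝒪 y F := by
      intro k
      rw [mem_relLattice]
      have e1 : ∑ i, algebraMap 𝒪 P ((a.map ε) k i) * y i =
          (a *ᵥ y) k - ∑ i, (a k i - algebraMap 𝒪 P (ε (a k i))) * y i := by
        rw [mulVec, dotProduct, ← Finset.sum_sub_distrib]
        exact Finset.sum_congr rfl (fun i _ => by rw [Matrix.map_apply]; ring)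
      rw [e1]
      refine Ideal.sub_mem _ (Ideal.mem_sup_right (subset_span ⟨k, rfl⟩)) (Ideal.mem_sup_left ?_)
      rw [pow_two]
      exact Ideal.sum_mem _ (fun i _ =>
        Ideal.mul_mem_mul (h.sub_algebraMap_mem _) (subset_span ⟨i, rfl⟩))
    have : b ᵥ* a.map ε = ∑ k, b k • (a.map ε) k := by
      funext i
      simp [vecMul, dotProduct, Finset.sum_apply]
    rw [this]
    exact Submodule.sum_mem _ (fun k _ => Submodule.smul_mem _ _ (hrow k))

/-- **Tate's formula, length form**: for a complete intersection `(a y)` with `ε (det a) ≠ 0`, the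
cotangent space and the congruence module have the same finite length. -/
theorem IsAmbient.length_eq_of_span (h : IsAmbient ε y ϖ) (a : Matrix (Fin n) (Fin n) P)
    (hprim : MPrimary (span (Set.range (a *ᵥ y)) ⊔ span {algebraMap 𝒪 P ϖ}))
    (hdet : ε a.det ≠ 0) :
    Module.length 𝒪 ((Fin n → 𝒪) ⧸ relLattice 𝒪 y (span (Set.range (a *ᵥ y)))) =
      Module.length 𝒪 (𝒪 ⧸ etaIdeal ε y (span (Set.range (a *ᵥ y)))) ∧
    Module.length 𝒪 ((Fin n → 𝒪) ⧸ relLattice 𝒪 y (span (Set.range (a *ᵥ y)))) ≠ ⊤ := by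
  have hdet' : (a.map ε).det ≠ 0 := by rwa [← IsAmbient.eps_det]
  have := length_quotient_of_rows (a.map ε) hdet' _ (h.mem_relLattice_span_iff a)
  rw [h.etaIdeal_span_eq a hprim hdet, IsAmbient.eps_det]
  exact this

end Tate

end Fermat.Agent.S59lib.NumCrit
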